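import Fermat.Agent.Semistable.TorsionInj
import Fermat.Agent.GoodRed.Newton
import Fermat.Prelude.Def_AlgebraicCurve_BaseChangeGalois
import Mathlib.LinearAlgebra.Dimension.Constructions
import Mathlib.LinearAlgebra.FiniteDimensional.Lemmas

/-!
# Rational elements and pairs of reductions

`RatStr` describes the elements of `F` defined over a discretely valued subfield `K` of `L` with
the same residue field.  If a space is spanned by rational elements then every pair of reductions
of its elements is the pair of reductions of a rational one.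
-/

set_option autoImplicit false
set_option linter.unusedSectionVars false

noncomputable section

namespace FLTAgent.LevelLower

open FLTAgent.GoodRed FLTAgent.GoodRed.RedDatum FLTAgent.Semistable

variable {L k : Type*} [Field L] [Field k] {A : ValuationSubring L} {π : A →+* k}
  {F C C' : Type*} [Field F] [Algebra L F] [Field C] [Algebra k C] [Field C'] [Algebra k C']

/-- Rational constants and functions. -/
structure RatStr (D : RedDatum A π F C) (D' : RedDatum A π F C') where
  /-- the rational constants -/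
  K : Subfield L
  /-- the rational functions -/
  FK : Subfield F
  algebraMap_mem : ∀ a ∈ K, algebraMap L F a ∈ FK
  scale : ∀ f ∈ FK, f ≠ 0 → ∃ c ∈ K, c ≠ 0 ∧ ∃ z, z ≠ 0 ∧ D.Red (c • f) z
  scale' : ∀ f ∈ FK, f ≠ 0 → ∃ c ∈ K, c ≠ 0 ∧ ∃ z, z ≠ 0 ∧ D'.Red (c • f) z
  /-- a uniformiser of `K` -/
  ϖ : L
  ϖ_mem : ϖ ∈ K
  ϖ_ne : ϖ ≠ 0
  ϖ_nonunit : ϖ ∈ A.nonunits
  gap : ∀ a ∈ K, a ∈ A.nonunits → a / ϖ ∈ A
  lift : ∀ t : k, ∃ a : A, (a : L) ∈ K ∧ π a = t

open AlgebraicCurve SemilinearAut FLTAgent.FunctionField in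
/-- Rational constants and functions as the elements fixed by semilinear automorphisms. -/
structure GalStr [IsFunctionField L F] (D : RedDatum A π F C) (D' : RedDatum A π F C')
    extends RatStr D D' where
  /-- the automorphisms -/
  Γ : Type*
  /-- their action -/
  act : Γ → SemilinearAut L F
  fix_FK : ∀ γ, ∀ f ∈ FK, toRingAut (act γ) f = f
  span_rat : ∀ X : Divisor L F, (∀ γ, act γ • X = X) →
    riemannRochSpace X ≤ Submodule.span L ((riemannRochSpace X : Set F) ∩ FK)

variable {D : RedDatum A π F C} {D' : RedDatum A π F C'}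

namespace RatStr

variable (R : RatStr D D')

theorem smul_mem {c : L} (hc : c ∈ R.K) {f : F} (hf : f ∈ R.FK) : c • f ∈ R.FK := by
  rw [Algebra.smul_def]
  exact mul_mem (R.algebraMap_mem c hc) hf

theorem div_mem_aux {G : Type*} [Field G] [Algebra k G] (E : RedDatum A π F G) {f : F} {c : L}
    {z : G} (hcK : c ∈ R.K) (hc : c ≠ 0) (hz : z ≠ 0) (hred : E.Red (c • f) z) (h0 : E.Red f 0) :
    R.ϖ⁻¹ • f ∈ E.V := by
  have hcn : c ∉ A := fun hcA => by
    have h2 := red_smul (⟨c, hcA⟩ : A) h0
    rw [smul_zero] at h2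
    exact hz (hred.unique h2)
  have hn : c⁻¹ ∈ A.nonunits := by
    rw [ValuationSubring.inv_mem_nonunits_iff]; exact Or.inr hcn
  have := smul_mem_V E ⟨_, R.gap _ (inv_mem hcK) hn⟩ hred.mem
  rw [smul_smul] at this
  convert this using 2
  field_simp

/-- A rational element with both reductions zero is divisible by `ϖ`. -/
theorem div_mem {f : F} (hf : f ∈ R.FK) (h : D.Red f 0) (h' : D'.Red f 0) :
    R.ϖ⁻¹ • f ∈ D.V ∧ R.ϖ⁻¹ • f ∈ D'.V := by
  rcases eq_or_ne f 0 with rfl | hf0
  · rw [smul_zero]; exact ⟨zero_mem _, zero_mem _⟩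
  obtain ⟨c, hcK, hc, z, hz, hr⟩ := R.scale f hf hf0
  obtain ⟨c', hcK', hc', z', hz', hr'⟩ := R.scale' f hf hf0
  exact ⟨R.div_mem_aux D hcK hc hz hr h, R.div_mem_aux D' hcK' hc' hz' hr' h'⟩

/-- A rational element can be scaled into both valuation rings. -/
theorem exists_scale_both {f : F} (hf : f ∈ R.FK) (hf0 : f ≠ 0) :
    ∃ c ∈ R.K, c ≠ 0 ∧ c • f ∈ D.V ∧ c • f ∈ D'.V := by
  obtain ⟨c, hcK, hc, z, -, hr⟩ := R.scale f hf hf0
  obtain ⟨c', hcK', hc', z', -, hr'⟩ := R.scale' f hf hf0
  rcases le_total (A.valuation c) (A.valuation c') with hle | hle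
  · refine ⟨c, hcK, hc, hr.mem, ?_⟩
    have hm : c / c' ∈ A := by
      rw [← A.valuation_le_one_iff, map_div₀]; exact div_le_one_of_le₀ hle zero_le
    have := smul_mem_V D' ⟨_, hm⟩ hr'.mem
    simpa [smul_smul, div_mul_cancel₀ _ hc'] using this
  · refine ⟨c', hcK', hc', ?_, hr'.mem⟩
    have hm : c' / c ∈ A := by
      rw [← A.valuation_le_one_iff, map_div₀]; exact div_le_one_of_le₀ hle zero_le
    have := smul_mem_V D ⟨_, hm⟩ hr.mem
    simpa [smul_smul, div_mul_cancel₀ _ hc] using this

/-- Rational elements with independent pairs of reductions. -/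
theorem exists_orth (hA : IsRankOne A) {n : ℕ} (e : Fin n → F) (he : ∀ i, e i ∈ R.FK)
    (hind : LinearIndependent L e) :
    ∃ (y : Fin n → F) (a : Fin n → C) (b : Fin n → C'),
      (∀ i, y i ∈ R.FK) ∧ (∀ i, y i ∈ Submodule.span L (Set.range e)) ∧
      (∀ i, D.Red (y i) (a i)) ∧ (∀ i, D'.Red (y i) (b i)) ∧
      LinearIndependent k fun i => (a i, b i) := by
  induction n with
  | zero =>
    exact ⟨finZeroElim, finZeroElim, finZeroElim, fun i => i.elim0, fun i => i.elim0,
      fun i => i.elim0, fun i => i.elim0, linearIndependent_empty_type⟩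
  | succ n ih =>
    obtain ⟨y, a, b, hyK, hye, hya, hyb, hyi⟩ :=
      ih (e ∘ Fin.castSucc) (fun i => he _) (hind.comp _ (Fin.castSucc_injective n))
    set W : Submodule L F := Submodule.span L (Set.range e)
    have hlast : e (Fin.last n) ∉ Submodule.span L (Set.range y) := fun h => by
      have h1 : Submodule.span L (Set.range y) ≤ Submodule.span L (Set.range (e ∘ Fin.castSucc)) :=
        Submodule.span_le.2 (Set.range_subset_iff.2 hye)
      have h2 := h1 h
      rw [Set.range_comp] at h2
      exact hind.notMem_span_image (x := Fin.last n) (by simp [Fin.castSucc_ne_last]) h2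
    have hyW : ∀ i, y i ∈ W := fun i =>
      Submodule.span_mono (Set.range_comp_subset_range _ _) (hye i)
    obtain ⟨c₀, hc₀K, hc₀, hfD, hfD'⟩ :=
      R.exists_scale_both (he (Fin.last n)) (fun h0 => hlast (h0 ▸ zero_mem _))
    set f := c₀ • e (Fin.last n) with hf
    -- a last element with reductions outside those of `y`
    set W' : Submodule L F := Submodule.span L (Set.range (Fin.snoc y f : Fin (n + 1) → F))
    have hfy : f ∉ Submodule.span L (Set.range y) := fun h => hlast (by
      have := Submodule.smul_mem _ c₀⁻¹ h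
      rwa [hf, smul_smul, inv_mul_cancel₀ hc₀, one_smul] at this)
    have hyind : LinearIndependent L (Fin.snoc y f : Fin (n + 1) → F) :=
      linearIndependent_finSnoc.2 ⟨linearIndependent_of_pair hya hyb hyi, hfy⟩
    have : Module.Finite L W' := Module.Finite.span_of_finite L (Set.finite_range _)
    obtain ⟨pst, hpst, hpout⟩ : ∃ p ∈ pairSpace D D' W',
        p ∉ Submodule.span k (Set.range fun i => (a i, b i)) := by
      by_contra hall
      push Not at hall
      have : Module.Finite k (Submodule.span k (Set.range fun i => (a i, b i))) :=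
        Module.Finite.span_of_finite k (Set.finite_range _)
      have := Submodule.finrank_mono (show pairSpace D D' W' ≤
        Submodule.span k (Set.range fun i => (a i, b i)) from hall)
      rw [finrank_pairSpace, finrank_span_eq_card hyind, finrank_span_eq_card hyi] at this
      simp at this
    obtain ⟨ys, hys, hysa, hysb⟩ := hpst
    have hbig : LinearIndependent k (Fin.snoc (fun i => (a i, b i)) pst : Fin (n + 1) → C × C') :=
      linearIndependent_finSnoc.2 ⟨hyi, hpout⟩
    -- coordinates along `y` and `ys`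
    set Y : Fin (n + 1) → F := Fin.snoc y ys
    set av : Fin (n + 1) → C := Fin.snoc a pst.1
    set bv : Fin (n + 1) → C' := Fin.snoc b pst.2
    have hYa : ∀ i, D.Red (Y i) (av i) := Fin.lastCases (by simpa [Y, av] using hysa)
      fun i => by simpa [Y, av] using hya i
    have hYb : ∀ i, D'.Red (Y i) (bv i) := Fin.lastCases (by simpa [Y, bv] using hysb)
      fun i => by simpa [Y, bv] using hyb i
    have hYi : LinearIndependent k fun i => (av i, bv i) := by
      convert hbig using 1
      funext i
      refine Fin.lastCases ?_ (fun i => ?_) i <;> simp [av, bv]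
    have hYspan : W' = Submodule.span L (Set.range Y) := by
      refine (Submodule.eq_of_le_of_finrank_eq (Submodule.span_le.2 (Set.range_subset_iff.2
        (Fin.lastCases (by simpa [Y] using hys) fun i =>
          Submodule.subset_span (⟨i.castSucc, by simp [Y]⟩ :
            Y i.castSucc ∈ Set.range (Fin.snoc y f : Fin (n + 1) → F))))) ?_).symm
      · rw [finrank_span_eq_card (linearIndependent_of_pair hYa hYb hYi),
          finrank_span_eq_card hyind]
    obtain ⟨cf, hcf⟩ := (Submodule.mem_span_range_iff_exists_fun L).1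
      (hYspan.le (Submodule.subset_span ⟨Fin.last n, by simp⟩ : f ∈ W'))
    have hcl : cf (Fin.last n) ≠ 0 := fun h0 => hfy (by
      rw [← hcf, Fin.sum_univ_castSucc, h0, zero_smul, add_zero]
      exact Submodule.sum_mem _ fun i _ => Submodule.smul_mem _ _
        (Submodule.subset_span ⟨i, by simp [Y]⟩))
    -- successive subtraction of rational combinations of `y`
    have hiter : ∀ j : ℕ, (∃ z u v, z ∈ R.FK ∧ z ∈ W ∧ D.Red z u ∧ D'.Red z v ∧
        (u, v) ∉ Submodule.span k (Set.range fun i => (a i, b i))) ∨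
        ∃ (z : F) (cs : Fin (n + 1) → L), z ∈ R.FK ∧ z ∈ W ∧ z ∈ D.V ∧ z ∈ D'.V ∧
          ∑ i, cs i • Y i = z ∧ cs (Fin.last n) = cf (Fin.last n) / R.ϖ ^ j := by
      intro j
      induction j with
      | zero =>
        exact Or.inr ⟨f, cf, R.smul_mem hc₀K (he _),
          Submodule.smul_mem _ _ (Submodule.subset_span ⟨_, rfl⟩), hfD, hfD', hcf, by simp⟩
      | succ j ihj =>
        rcases ihj with h | ⟨z, cs, hzK, hzW, hzD, hzD', hcs, hlastc⟩
        · exact Or.inl h
        obtain ⟨u, hu⟩ := exists_red hzD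
        obtain ⟨v, hv⟩ := exists_red hzD'
        by_cases hin : (u, v) ∈ Submodule.span k (Set.range fun i => (a i, b i))
        swap
        · exact Or.inl ⟨z, u, v, hzK, hzW, hu, hv, hin⟩
        obtain ⟨t, ht⟩ := (Submodule.mem_span_range_iff_exists_fun k).1 hin
        choose l hlK hl using fun i => R.lift (t i)
        obtain ⟨hs, hs'⟩ := pair_red_sum hya hyb l
        rw [show (∑ i, π (l i) • (a i, b i)) = (u, v) by simp only [hl, ht]] at hs hs'
        have hsK : ∑ i, (l i : L) • y i ∈ R.FK := sum_mem fun i _ => R.smul_mem (hlK i) (hyK i)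
        obtain ⟨h1, h1'⟩ := R.div_mem (sub_mem hzK hsK) (by simpa using hu.sub hs)
          (by simpa using hv.sub hs')
        refine Or.inr ⟨_, fun i => R.ϖ⁻¹ * (cs i - (Fin.snoc (fun i => (l i : L)) 0 : Fin (n + 1) → L) i),
          R.smul_mem (inv_mem R.ϖ_mem) (sub_mem hzK hsK),
          Submodule.smul_mem _ _ (sub_mem hzW
            (Submodule.sum_mem _ fun i _ => Submodule.smul_mem _ _ (hyW i))), h1, h1', ?_, ?_⟩
        · simp only [mul_smul, ← Finset.smul_sum, sub_smul, Finset.sum_sub_distrib, hcs]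
          rw [Fin.sum_univ_castSucc (f := fun i =>
            (Fin.snoc (fun i => (l i : L)) 0 : Fin (n + 1) → L) i • Y i)]
          simp [Y]
        · simp only [Fin.snoc_last, sub_zero, hlastc, pow_succ]
          field_simp
    obtain ⟨M, hM⟩ := hA (cf (Fin.last n) * R.ϖ) R.ϖ (mul_ne_zero hcl R.ϖ_ne) R.ϖ_nonunit
    rcases hiter M with ⟨z, u, v, hzK, hzW, hu, hv, hout⟩ | ⟨z, cs, -, -, hzD, hzD', hcs, hlastc⟩
    · refine ⟨Fin.snoc y z, Fin.snoc a u, Fin.snoc b v, Fin.lastCases (by simpa using hzK)
        fun i => by simpa using hyK i, Fin.lastCases (by simpa using hzW)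
        fun i => by simpa using hyW i, Fin.lastCases (by simpa using hu)
        fun i => by simpa using hya i, Fin.lastCases (by simpa using hv)
        fun i => by simpa using hyb i, ?_⟩
      rw [show (fun i => ((Fin.snoc a u : Fin (n + 1) → C) i, (Fin.snoc b v : Fin (n + 1) → C') i))
          = Fin.snoc (fun i => (a i, b i)) (u, v) by
        funext i; refine Fin.lastCases ?_ (fun i => ?_) i <;> simp]
      exact linearIndependent_finSnoc.2 ⟨hyi, hout⟩
    · exfalso
      have hmem := pair_coeff_mem hYa hYb hYi (c := cs) (by rwa [hcs]) (by rwa [hcs]) (Fin.last n)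
      rw [hlastc, ← A.valuation_le_one_iff, map_div₀, map_pow] at hmem
      have hϖ0 : A.valuation R.ϖ ≠ 0 := (map_ne_zero _).2 R.ϖ_ne
      rw [div_le_one₀ (pow_pos (zero_lt_iff.2 hϖ0) M)] at hmem
      have h2 := hmem.trans hM
      rw [map_mul] at h2
      have hpos : 0 < A.valuation (cf (Fin.last n)) := zero_lt_iff.2 ((map_ne_zero _).2 hcl)
      exact (mul_lt_of_lt_one_right hpos (A.mem_nonunits_iff.1 R.ϖ_nonunit)).not_ge h2

/-- Every pair of reductions is attained by a rational element. -/
theorem exists_rat_red (hA : IsRankOne A) (W : Submodule L F) [Module.Finite L W]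
    (hW : W ≤ Submodule.span L (W ∩ R.FK : Set F)) {p : C × C'} (hp : p ∈ pairSpace D D' W) :
    ∃ y ∈ R.FK, y ∈ W ∧ D.Red y p.1 ∧ D'.Red y p.2 := by
  classical
  obtain ⟨s, hs, hspan, hsi⟩ := exists_linearIndependent L (W ∩ R.FK : Set F)
  have hsW : Submodule.span L s = W := le_antisymm
    (hspan.le.trans (Submodule.span_le.2 Set.inter_subset_left)) (hW.trans hspan.ge)
  have hfin : s.Finite := by
    have hli : LinearIndependent L fun x : s => (⟨x.1, (hs x.2).1⟩ : W) :=
      LinearIndependent.of_comp W.subtype hsi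
    have := hli.finite
    exact Set.toFinite s
  have := hfin.fintype
  set ee : Fin (Fintype.card s) → F := fun i => ((Fintype.equivFin s).symm i : F)
  have heei : LinearIndependent L ee := hsi.comp _ (Equiv.injective _)
  have heW : Submodule.span L (Set.range ee) = W := by
    rw [show Set.range ee = s by
      rw [show ee = Subtype.val ∘ (Fintype.equivFin s).symm from rfl, Set.range_comp,
        Equiv.range_eq_univ, Set.image_univ, Subtype.range_coe]]
    exact hsW
  obtain ⟨y, a, b, hyK, hye, hya, hyb, hyi⟩ :=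
    R.exists_orth hA ee (fun i => (hs ((Fintype.equivFin s).symm i).2).2) heei
  have hle : Submodule.span k (Set.range fun i => (a i, b i)) ≤ pairSpace D D' W :=
    Submodule.span_le.2 (Set.range_subset_iff.2 fun i => ⟨y i, heW ▸ hye i, hya i, hyb i⟩)
  have heq : Submodule.span k (Set.range fun i => (a i, b i)) = pairSpace D D' W := by
    refine Submodule.eq_of_le_of_finrank_eq hle ?_
    rw [finrank_pairSpace, finrank_span_eq_card hyi, ← heW, finrank_span_eq_card heei]
  obtain ⟨t, ht⟩ := (Submodule.mem_span_range_iff_exists_fun k).1 (heq.ge hp)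
  choose l hlK hl using fun i => R.lift (t i)
  obtain ⟨h1, h2⟩ := pair_red_sum hya hyb l
  rw [show (∑ i, π (l i) • (a i, b i)) = p by simp only [hl, ht]] at h1 h2
  exact ⟨_, sum_mem fun i _ => R.smul_mem (hlK i) (hyK i),
    Submodule.sum_mem _ fun i _ => Submodule.smul_mem _ _ (heW ▸ hye i), h1, h2⟩

end RatStr

end FLTAgent.LevelLower
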