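import Fermat.Agent.LevelLower.Counting
import Fermat.Agent.LevelLower.Rational
import Fermat.Agent.Semistable.CrossData
import Fermat.Agent.Semistable.OldNull
import Fermat.Agent.GoodRed.LiftTools
import Fermat.Agent.FunctionField.NormFormula

/-!
# Orders at the crossings

Over the tube of a crossing, the orders of the two reductions of an integral function add up to
the pushforward of its divisor.  A rational function realising the smallest possible orders at a
crossing would single out a rational point of the tube, where a function with a pole along one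
component and integral after multiplication by the uniformiser along the other has no possible
value.  So the orders of the two reductions of the function of a rational torsion class are
multiples of its order at the crossings too.
-/

set_option autoImplicit false
set_option linter.unusedSectionVars false

noncomputable section

open AlgebraicCurve SemilinearAut

namespace FLTAgent.LevelLower

open FLTAgent.GoodRed FLTAgent.GoodRed.RedDatum FLTAgent.FunctionField FLTAgent.Semistable

section pushforward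

variable {K G G' : Type*} [Field K] [Field G] [Field G'] [Algebra K G] [Algebra K G']
  [Algebra G G'] [IsScalarTower K G G'] [IsFunctionField K G] [IsFunctionField K G']
  [IsAlgClosed K] [Module.Finite G G']

theorem pushforward_eq_mapDomain (X : Divisor K G') :
    Divisor.pushforward G X = Finsupp.mapDomain (fun w => w.restrict G) X := by
  induction X using Finsupp.induction with
  | zero => simp
  | single_add w n X _ _ ih =>
    rw [map_add, Finsupp.mapDomain_add, Finsupp.mapDomain_single, Divisor.pushforward_single, ih]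
    have h := w.deg_restrict_mul_inertiaDeg (F := G)
    rw [deg_eq_one, deg_eq_one, one_mul] at h
    rw [h, Nat.cast_one, mul_one]

theorem divisorOf_norm {f : G'} (hf : f ≠ 0) :
    divisorOf (K := K) (Algebra.norm G f)
      = Finsupp.mapDomain (fun w => w.restrict G) (divisorOf (K := K) f) := by
  rw [← pushforward_eq_mapDomain]
  exact Finsupp.ext fun v => by
    rw [divisorOf_apply, pushforwardNormFormula f hf _ (fun w => divisorOf_apply f w) v]

end pushforward

theorem ord_eq_zero_of_valAt_ne {k C : Type*} [Field k] [Field C] [Algebra k C]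
    [IsFunctionField k C] [IsAlgClosed k] {v : Place k C} {z : C} (hz : OrdGe v 0 z)
    (h : valAt v z ≠ 0) : z ≠ 0 ∧ v.ord z = 0 := by
  have h0 : z ≠ 0 := fun h0 => h (by rw [h0, valAt_zero])
  refine ⟨h0, le_antisymm ?_ (hz.le_ord h0)⟩
  by_contra hpos
  exact h (valAt_eq (by rw [map_zero, sub_zero]; exact ordGe_of_le_ord (by omega)))

variable {L k : Type*} [Field L] [Field k] {A : ValuationSubring L} {π : A →+* k}
  {E F C : Type*} [Field E] [Algebra L E] [Field F] [Algebra L F] [Algebra E F]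
  [IsScalarTower L E F] [Field C] [Algebra k C]
  [IsFunctionField L E] [IsFunctionField L F] [IsFunctionField k C] [IsAlgClosed L]
  [IsAlgClosed k] [Module.Finite E F]
  {DE : RedDatum A π E C} {D D' : RedDatum A π F C} {frob : C →ₐ[k] C} {q : ℕ}
  {ι : Type*} [Fintype ι] (S : CrossData DE D D' frob q ι)

/-- The place of `C` below a place of `F`. -/
def below (P : Place L F) : Place k C := S.R.r (P.restrict E)

/-- Rationality for a `CrossData`: the automorphisms cut out the rational constants and preserve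
the tubes of the crossings, and there is a rational witness at each crossing. -/
structure RatData [CharP k q] extends GalStr D D' where
  mem_K : ∀ a, (∀ γ, baseAut (act γ) a = a) → a ∈ K
  tube : ∀ γ i P, below S P = S.x i → below S (act γ • P) = S.x i
  fix_G₁ : ∀ γ, act γ • Divisor.pullback F S.G₁ = Divisor.pullback F S.G₁
  witness' : ∀ i, ∃ G : Divisor L E, 0 ≤ G ∧ S.red₁ G (S.x i) = 0 ∧
    ∃ T ∈ FK, T ∈ riemannRochSpace (Divisor.pullback F G) ∧
      (∃ z, D.Red T z ∧ (S.x i).ord z < 0) ∧ ϖ • T ∈ D'.V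

section general

variable [CharP k q]

theorem ord_w {β w : C} (hw : frob w = β ^ q) (v : Place k C) :
    v.ord w = (S.frP.symm v).ord β := by
  have h := congrArg (S.frP.symm v).ord hw
  rw [S.ord_frob, Equiv.apply_symm_apply, FunctionField.ord_pow] at h
  exact mul_left_cancel₀ (by exact_mod_cast S.side.prime.ne_zero) h

/-- The divisor of a function, pushed to the special fibre, is the sum of the divisors of its two
reductions. -/
theorem mapDomain_divisorOf {f : F} {α β : C} (ha : D.Red f α) (hb : D'.Red f β) (ha0 : α ≠ 0)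
    (hb0 : β ≠ 0) (v : Place k C) :
    Finsupp.mapDomain (below S) (divisorOf (K := L) f) v
      = v.ord α + (S.frP.symm v).ord β := by
  have : CharP C q := charP_of_injective_algebraMap (algebraMap k C).injective q
  obtain ⟨w, hw⟩ := S.hpow β
  have hw0 : w ≠ 0 := fun h0 => pow_ne_zero q hb0 (by rw [← hw, h0, map_zero])
  have hN := S.side.red_norm ha hb hw
  have hf : f ≠ 0 := ha.ne_zero ha0
  rw [show below S = S.R.r ∘ (fun P : Place L F => P.restrict E) from rfl, Finsupp.mapDomain_comp,
    ← divisorOf_norm hf, S.R.map_divisorOf _ _ hN (mul_ne_zero ha0 hw0), divisorOf_apply,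
    v.ord_mul ha0 hw0, ord_w S hw]

/-- The places above the tube avoid a divisor from below vanishing on it. -/
theorem pullback_eq_zero {G : Divisor L E} (hG : 0 ≤ G) {v : Place k C} (hx : S.red₁ G v = 0)
    {P : Place L F} (hP : below S P = v) : Divisor.pullback F G P = 0 := by
  have : G (P.restrict E) = 0 := le_antisymm
    (hx ▸ mapDomain_le_apply S.R.r (fun a _ => hG a) (P.restrict E) hP) (hG _)
  rw [Divisor.pullback_apply, this, mul_zero]

theorem regular_above {G : Divisor L E} (hG : 0 ≤ G) {v : Place k C} (hx : S.red₁ G v = 0)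
    {f : F} (hf : f ∈ riemannRochSpace (Divisor.pullback F G)) {P : Place L F}
    (hP : below S P = v) : OrdGe P 0 f := by
  simpa [pullback_eq_zero S hG hx hP] using mem_rr_iff.1 hf P

theorem false_of_vanish {v : Place k C} {f : F} {α β : C} (ha : D.Red f α) (hb : D'.Red f β)
    (hreg : ∀ P, below S P = v → OrdGe P 0 f) (hra : OrdGe v 0 α)
    (hrb : OrdGe (S.frP.symm v) 0 β) (hva : valAt v α ≠ 0) (hvb : valAt (S.frP.symm v) β ≠ 0)
    {P : Place L F} (hP : below S P = v) (hPf : OrdGe P 1 f) : False := by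
  obtain ⟨ha0, hoa⟩ := ord_eq_zero_of_valAt_ne hra hva
  obtain ⟨hb0, hob⟩ := ord_eq_zero_of_valAt_ne hrb hvb
  have hf := ha.ne_zero ha0
  have h1 := mapDomain_le_apply (below S) (E := divisorOf (K := L) f) (b := v)
    (fun a h => (hreg a h).le_ord hf) P hP
  rw [mapDomain_divisorOf S ha hb ha0 hb0, hoa, hob, divisorOf_apply] at h1
  have := hPf.le_ord hf
  omega

/-- The value at a point over the tube of a crossing of a function integral on both components. -/
theorem value {G : Divisor L E} (hG : 0 ≤ G) {i : ι} (hx : S.red₁ G (S.x i) = 0) {f : F}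
    {α β : C} (hf : f ∈ riemannRochSpace (Divisor.pullback F G)) (ha : D.Red f α)
    (hb : D'.Red f β) {P : Place L F} (hP : below S P = S.x i) {a : L}
    (hPa : OrdGe P 1 (f - algebraMap L F a)) :
    ∃ h : a ∈ A, π ⟨a, h⟩ = valAt (S.x i) α := by
  obtain ⟨haM, hbM⟩ := S.red_mem hf ha hb
  have hax : OrdGe (S.x i) 0 α := regular_of_mem_rr hx haM
  have hby : OrdGe (S.frP.symm (S.x i)) 0 β := regular_of_mem_rr (S.red₂_symm_eq_zero hx) hbM
  have hreg : ∀ P, below S P = S.x i → OrdGe P 0 f := fun P hP => regular_above S hG hx hf hP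
  have hmem : a ∈ A := by
    by_contra hna
    have hn : a⁻¹ ∈ A.nonunits := by
      rw [ValuationSubring.inv_mem_nonunits_iff]; exact Or.inr hna
    have ha0 : a ≠ 0 := fun h => hna (h ▸ zero_mem _)
    set c : A := ⟨a⁻¹, A.nonunits_subset hn⟩
    have hc : π c = 0 := (D.isResidue.eq_zero_iff _).2 hn
    have r1 : D.Red ((c : L) • f - 1) (-1) := by
      have := (red_smul c ha).sub red_one
      simpa [hc] using this
    have r2 : D'.Red ((c : L) • f - 1) (-1) := by
      have := (red_smul c hb).sub red_one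
      simpa [hc] using this
    have hone : ∀ Q : Place L F, OrdGe Q 0 (1 : F) := fun Q => ordGe_of_le_ord (by rw [Q.ord_one])
    have hneg : ∀ w : Place k C, valAt w (-1 : C) ≠ 0 := fun w => by
      rw [show (-1 : C) = algebraMap k C (-1) by simp, valAt_algebraMap]; simp
    refine false_of_vanish S (v := S.x i) r1 r2 (fun Q hQ => ?_) ?_ ?_ (hneg _) (hneg _) hP ?_
    · rw [Algebra.smul_def]
      exact (by simpa using (ordGe_algebraMap (v := Q) (c : L)).mul (hreg Q hQ) :
        OrdGe Q 0 (algebraMap L F (c : L) * f)).sub (hone Q)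
    · simpa using ordGe_algebraMap (v := S.x i) (-1 : k)
    · simpa using ordGe_algebraMap (v := S.frP.symm (S.x i)) (-1 : k)
    · have h1 := (ordGe_algebraMap (v := P) a⁻¹).mul hPa
      rw [zero_add, mul_sub, ← map_mul, inv_mul_cancel₀ ha0, map_one] at h1
      rwa [Algebra.smul_def]
  refine ⟨hmem, ?_⟩
  by_contra hne
  set c : A := ⟨a, hmem⟩
  have hagree := S.agree hG i hx hf ha hb
  have hv1 : valAt (S.x i) (α - algebraMap k C (π c)) = valAt (S.x i) α - π c := by
    rw [sub_eq_add_neg, valAt_add hax (ordGe_algebraMap _).neg, ← map_neg, valAt_algebraMap,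
      ← sub_eq_add_neg]
  have hv2 : valAt (S.frP.symm (S.x i)) (β - algebraMap k C (π c)) = valAt (S.x i) α - π c := by
    rw [sub_eq_add_neg, valAt_add hby (ordGe_algebraMap _).neg, ← map_neg, valAt_algebraMap,
      ← sub_eq_add_neg, ← hagree]
  have hne' : valAt (S.x i) α - π c ≠ 0 := sub_ne_zero.2 (Ne.symm hne)
  exact false_of_vanish S (ha.sub (red_algebraMap c)) (hb.sub (red_algebraMap c))
    (fun Q hQ => (hreg Q hQ).sub (ordGe_algebraMap _)) (hax.sub (ordGe_algebraMap _))
    (hby.sub (ordGe_algebraMap _)) (hv1 ▸ hne') (hv2 ▸ hne') hP hPa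

variable (R : RatData S)
include R

theorem fix_Bd (γ : R.Γ) (n : ℕ) : R.act γ • S.nodeSystem.Bd n 0 = S.nodeSystem.Bd n 0 := by
  rw [NodeSystem.Bd, zero_nsmul, add_zero, smul_comm]
  exact congrArg _ (R.fix_G₁ γ)

/-- At a place fixed by the automorphisms, regular rational functions take rational values. -/
theorem exists_rat_value {P : Place L F} (hPfix : ∀ γ, R.act γ • P = P) {f : F} (hf : f ∈ R.FK)
    (hreg : OrdGe P 0 f) : ∃ a ∈ R.K, OrdGe P 1 (f - algebraMap L F a) := by
  obtain ⟨a, ha⟩ := exists_value hreg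
  refine ⟨a, R.mem_K a fun γ => value_unique (v := P) (f := f) ?_ ha, ha⟩
  rcases eq_or_ne (f - algebraMap L F (baseAut (R.act γ) a)) 0 with h0 | h0
  · rw [h0]; exact ordGe_zero _
  refine ordGe_of_le_ord ?_
  have h1 : toRingAut (R.act γ) (f - algebraMap L F a)
      = f - algebraMap L F (baseAut (R.act γ) a) := by
    rw [map_sub, R.fix_FK γ f hf, commutes]
  have h2 : f - algebraMap L F a ≠ 0 := fun h => h0 (by rw [← h1, h, map_zero])
  have h3 := ord_smul (R.act γ) P (f - algebraMap L F a)
  rw [hPfix, SemilinearAut.smul_def, h1] at h3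
  rw [h3]
  exact ha.le_ord h2

/-- A rational function with reductions `(t, 0)` and a zero of prescribed order. -/
theorem exists_zero_fn (hA : IsRankOne A) (i : ι) {e : ℕ} (he : 0 < e) :
    ∃ (n : ℕ) (Y : F) (t : C), Y ∈ R.FK ∧ Y ∈ riemannRochSpace (S.nodeSystem.Bd n 0) ∧
      D.Red Y t ∧ D'.Red Y 0 ∧ t ≠ 0 ∧ (S.x i).ord t = e ∧ OrdGe (S.x i) 0 t := by
  classical
  set N := S.nodeSystem
  set n := N.c + Fintype.card ι + e + 2 with hn
  set Z : Divisor k C := ∑ j, Finsupp.single (S.x j) (if j = i then (e : ℤ) else 1) with hZ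
  have hZx : ∀ j, Z (S.x j) = if j = i then (e : ℤ) else 1 := fun j => by
    rw [hZ, Finset.sum_apply']
    simp [Finsupp.single_apply, S.x_inj.eq_iff]
  have hZdeg : Divisor.degree Z ≤ (e : ℤ) + Fintype.card ι := by
    rw [hZ, map_sum]
    simp only [Divisor.degree_single, deg_eq_one, Nat.cast_one, mul_one]
    refine le_trans (Finset.sum_le_sum (g := fun j => (if j = i then (e : ℤ) else 0) + 1)
      fun j _ => by split <;> omega) ?_
    simp [Finset.sum_add_distrib]
  have hZ0 : 0 ≤ Z := Finset.sum_nonneg fun j _ =>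
    Finsupp.single_nonneg.2 (by split <;> omega)
  obtain ⟨t, ht, ht0, hord⟩ := N.hk.exists_ord_eq_neg (D := N.Pd n 0 - Z) (by
    have := N.degree_Pd_le n 0
    rw [map_sub]; omega) (S.x i)
  have hPd : ∀ j, N.Pd n 0 (S.x j) = 0 := fun j => N.Pd_x n 0 j
  rw [Finsupp.sub_apply, hPd, hZx, if_pos rfl, zero_sub, neg_neg] at hord
  have hval : ∀ j, OrdGe (S.x j) 0 t ∧ (e ≠ 0 ∨ j ≠ i → valAt (S.x j) t = 0) := fun j => by
    have h := mem_rr_iff.1 ht (S.x j)
    rw [Finsupp.sub_apply, hPd, hZx, zero_sub, neg_neg] at h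
    refine ⟨h.mono (by split <;> omega), fun hj => valAt_eq ?_⟩
    rw [map_zero, sub_zero]
    refine h.mono ?_
    split
    · rename_i hji; have := hj.resolve_right (fun h => h hji); omega
    · omega
  have hmem : (t, (0 : C)) ∈ N.nspace 1 n 0 :=
    ⟨riemannRochSpace_mono (sub_le_self _ hZ0) ht, zero_mem _, fun j => by
      change valAt (N.y j) (0 : C) = _ * valAt (S.x j) t
      rw [valAt_zero, (hval j).2 (Or.inl he.ne'), mul_zero]⟩
  rw [← N.hasJump_zero n 0 (by unfold NodeSystem.Big; omega), add_zero] at hmem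
  have := finite_riemannRochSpace (N.Bd n 0)
  obtain ⟨Y, hYK, hY, hYa, hYb⟩ := R.exists_rat_red hA (riemannRochSpace (N.Bd n 0))
    (R.span_rat _ fun γ => fix_Bd S R γ n) hmem
  exact ⟨n, Y, t, hYK, hY, hYa, hYb, ht0, hord, (hval i).1⟩

/-- No place fixed by the automorphisms lies over the tube of a crossing. -/
theorem false_of_fixed_place (hA : IsRankOne A) {i : ι} {P : Place L F}
    (hPx : below S P = S.x i) (hPfix : ∀ γ, R.act γ • P = P) : False := by
  obtain ⟨G, hG, hGx, T, hTK, hT, ⟨z, hTz, hz⟩, hϖT⟩ := R.witness' i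
  obtain ⟨τ, hτK, hτ⟩ := exists_rat_value S R hPfix hTK (regular_above S hG hGx hT hPx)
  set p : A := ⟨R.ϖ, A.nonunits_subset R.ϖ_nonunit⟩
  have hp : π p = 0 := (D.isResidue.eq_zero_iff _).2 R.ϖ_nonunit
  obtain ⟨u, hu⟩ := exists_red hϖT
  have hϖT0 : D.Red (R.ϖ • T) 0 := by simpa [hp] using red_smul p hTz
  obtain ⟨hm, hv⟩ := value S hG hGx (Submodule.smul_mem _ R.ϖ hT) hϖT0 hu hPx (a := R.ϖ * τ) (by
    have h := (ordGe_algebraMap (v := P) R.ϖ).mul hτ
    rw [zero_add, mul_sub, ← map_mul, ← Algebra.smul_def] at h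
    exact h)
  rw [valAt_zero, D.isResidue.eq_zero_iff] at hv
  have hτA : τ ∈ A := by
    have := R.gap _ (mul_mem R.ϖ_mem hτK) hv
    rwa [mul_div_cancel_left₀ _ R.ϖ_ne] at this
  set e := ((-(S.x i).ord z)).toNat
  obtain ⟨n, Y, t, hYK, hY, hYt, hY0, ht0, htord, htreg⟩ := exists_zero_fn S R hA i (e := e) (by omega)
  have hG' : 0 ≤ n • S.G₁ := nsmul_nonneg S.G₁_nonneg _
  have hG'x : S.red₁ (n • S.G₁) (S.x i) = 0 := by
    rw [S.red₁_nsmul, Finsupp.smul_apply, show S.red₁ S.G₁ (S.x i) = 0 from S.G₁_x i, smul_zero]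
  have hBd : S.nodeSystem.Bd n 0 = Divisor.pullback F (n • S.G₁) := by
    rw [NodeSystem.Bd, zero_nsmul, add_zero, map_nsmul]; rfl
  rw [hBd] at hY
  obtain ⟨y, hyK, hy⟩ := exists_rat_value S R hPfix hYK (regular_above S hG' hG'x hY hPx)
  obtain ⟨hyA, hyv⟩ := value S hG' hG'x hY hYt hY0 hPx hy
  have hz0 : z ≠ 0 := fun h => by rw [h, Place.ord_zero] at hz; omega
  have htz : (S.x i).ord (t * z) = 0 := by
    rw [(S.x i).ord_mul ht0 hz0, htord]; omega
  have htv : valAt (S.x i) t = 0 := valAt_eq (by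
    rw [map_zero, sub_zero]; exact ordGe_of_le_ord (by omega))
  obtain ⟨c, hcK, hc, z', hz', hr'⟩ := R.scale' Y hYK (hYt.ne_zero ht0)
  obtain ⟨w, hw⟩ := exists_red (R.div_mem_aux D' hcK hc hz' hr' hY0)
  have hYT : D'.Red (Y * T) (w * u) := by
    have := hw.mul hu
    rwa [smul_mul_smul_comm, inv_mul_cancel₀ R.ϖ_ne, one_smul] at this
  have hmem : Y * T ∈ riemannRochSpace (Divisor.pullback F (n • S.G₁ + G)) := by
    rw [map_add]; exact mul_mem_rr hY hT
  have hsumx : S.red₁ (n • S.G₁ + G) (S.x i) = 0 := by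
    rw [S.red₁_add, Finsupp.add_apply, hG'x, hGx, add_zero]
  have hval : OrdGe P 1 (Y * T - algebraMap L F (y * τ)) := by
    have h1 := hy.mul (regular_above S hG hGx hT hPx)
    have h2 := (ordGe_algebraMap (v := P) y).mul hτ
    rw [map_mul, show Y * T - algebraMap L F y * algebraMap L F τ
      = (Y - algebraMap L F y) * T + algebraMap L F y * (T - algebraMap L F τ) by ring]
    exact h1.add h2
  obtain ⟨hmA, hmv⟩ := value S (add_nonneg hG' hG) hsumx hmem (hYt.mul hTz) hYT hPx hval
  rw [show (⟨y * τ, hmA⟩ : A) = ⟨y, hyA⟩ * ⟨τ, hτA⟩ from rfl, map_mul, hyv, htv, zero_mul] at hmv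
  have h1 := valAt_spec (v := S.x i) (f := t * z)
    (ordGe_of_le_ord (v := S.x i) (n := 0) htz.ge)
  rw [← hmv, map_zero, sub_zero] at h1
  have := h1.le_ord (mul_ne_zero ht0 hz0)
  omega

/-- The orders of the reductions are multiples of `m` everywhere. -/
theorem dvd_ord_all (hA : IsRankOne A) {m : ℕ} (hm : 0 < m) {X : Divisor L F}
    (hX : Divisor.degree X = 0) (hXfix : ∀ γ, R.act γ • X = X) {g : F} (hg : g ≠ 0)
    (hdiv : divisorOf g = m • X) {a b : C} (ha : D.Red g a)
    (hb : D'.Red g b) (ha0 : a ≠ 0) (hb0 : b ≠ 0)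
    (hpair : ∀ v, (m : ℤ) ∣ v.ord a + (S.frP.symm v).ord b) :
    ∀ v : Place k C, (m : ℤ) ∣ v.ord a := by
  classical
  set N := S.nodeSystem
  obtain ⟨hoff, n, hmin⟩ :=
    dvd_ord_and_exists_minimal N hm hX hg hdiv ha hb ha0 hb0 S.frP.symm (fun _ => rfl) hpair
  intro v
  by_cases hv : ∀ i, N.x i ≠ v
  · exact hoff v hv
  push Not at hv
  obtain ⟨i, rfl⟩ := hv
  by_contra hnd
  obtain ⟨p, hp, hp1, hp2, ho1, ho2⟩ := hmin i hnd
  have := finite_riemannRochSpace (N.Bd n 0 + X)
  obtain ⟨f, hfK, hf, hfa, hfb⟩ := R.exists_rat_red hA (riemannRochSpace (N.Bd n 0 + X))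
    (R.span_rat _ fun γ => by rw [smul_add, fix_Bd S R γ n, hXfix]) hp
  have hf0 : f ≠ 0 := hfa.ne_zero hp1
  set Z : Divisor L F := divisorOf f + X with hZ
  have hdivh : divisorOf (f ^ m * g) = m • Z := by
    ext w
    rw [divisorOf_apply, w.ord_mul (pow_ne_zero _ hf0) hg, FunctionField.ord_pow, hZ,
      ← divisorOf_apply (K := L) g, hdiv]
    simp [mul_add]
  have hnn : ∀ P, below S P = S.x i → 0 ≤ Z P := by
    intro P hP
    have h1 := (mem_rr_iff.1 hf P).le_ord hf0
    have h2 : N.Bd n 0 P = 0 := by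
      have : N.Bd n 0 = Divisor.pullback F (n • S.G₁) := by
        rw [NodeSystem.Bd, zero_nsmul, add_zero, map_nsmul]; rfl
      rw [this]
      exact pullback_eq_zero S (nsmul_nonneg S.G₁_nonneg _)
        (by rw [S.red₁_nsmul, Finsupp.smul_apply,
          show S.red₁ S.G₁ (S.x i) = 0 from S.G₁_x i, smul_zero]) hP
    rw [Finsupp.add_apply, h2, zero_add] at h1
    rw [hZ, Finsupp.add_apply, divisorOf_apply]
    omega
  have hsum : Finsupp.mapDomain (below S) Z (S.x i) = 1 := by
    have h := mapDomain_divisorOf S ((hfa.pow m).mul ha) ((hfb.pow m).mul hb)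
      (mul_ne_zero (pow_ne_zero _ hp1) ha0) (mul_ne_zero (pow_ne_zero _ hp2) hb0) (S.x i)
    rw [hdivh, ← Finsupp.mapDomain.addMonoidHom_apply, map_nsmul,
      Finsupp.mapDomain.addMonoidHom_apply, Finsupp.smul_apply, nsmul_eq_mul,
      (S.x i).ord_mul (pow_ne_zero _ hp1) ha0, (S.frP.symm (S.x i)).ord_mul (pow_ne_zero _ hp2) hb0,
      FunctionField.ord_pow, FunctionField.ord_pow] at h
    change (N.x i).ord p.1 = _ at ho1
    rw [show (S.x i).ord p.1 = _ from ho1,
      show (S.frP.symm (S.x i)).ord p.2 = _ from ho2] at h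
    have hm' : (0 : ℤ) < m := by exact_mod_cast hm
    set α := (S.x i).ord a with hα
    set β := (S.frP.symm (S.x i)).ord b with hβ
    have hab : (m : ℤ) ∣ α + β := hpair (S.x i)
    have hndb : ¬(m : ℤ) ∣ β := fun hd => hnd ((dvd_add_left hd).1 hab)
    have e1 := Int.emod_add_mul_ediv α (m : ℤ)
    have e2 := Int.emod_add_mul_ediv β (m : ℤ)
    have f1 : 0 < α % m := lt_of_le_of_ne (Int.emod_nonneg _ hm'.ne')
      fun h0 => hnd (Int.dvd_of_emod_eq_zero h0.symm)
    have f2 : 0 < β % m := lt_of_le_of_ne (Int.emod_nonneg _ hm'.ne')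
      fun h0 => hndb (Int.dvd_of_emod_eq_zero h0.symm)
    have g1 := Int.emod_lt_of_pos α hm'
    have g2 := Int.emod_lt_of_pos β hm'
    change (m : ℤ) * _ = (m : ℤ) * -(α / m) + α + ((m : ℤ) * -(β / m) + β) at h
    set M := Finsupp.mapDomain (below S) Z (S.x i)
    have hpos : 0 < (m : ℤ) * M := by linarith
    have hlt : (m : ℤ) * M < (m : ℤ) * 2 := by linarith
    have := pos_of_mul_pos_right hpos hm'.le
    have := lt_of_mul_lt_mul_left hlt hm'.le
    omega
  obtain ⟨P, hP, hPZ⟩ := exists_preimage_of_apply_ne_zero (below S) (E := Z) (b := S.x i)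
    (by rw [hsum]; exact one_ne_zero)
  have hPle := mapDomain_le_apply (below S) hnn P hP
  have hP1 : Z P = 1 := by have := hnn P hP; omega
  refine false_of_fixed_place S R hA hP fun γ => ?_
  by_contra hne
  have hP' := R.tube γ i P hP
  have hZfix : R.act γ • Z = Z := by
    rw [hZ, smul_add, hXfix, ← divisorOf_toRingAut, R.fix_FK γ f hfK]
  have hP'Z : Z (R.act γ • P) = 1 := by
    conv_lhs => rw [← hZfix]
    rw [divisor_smul_apply_smul, hP1]
  have hnn' : ∀ Q, below S Q = S.x i → 0 ≤ (Z - Finsupp.single P 1 : Divisor L F) Q := by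
    intro Q hQ
    rw [Finsupp.sub_apply]
    rcases eq_or_ne Q P with rfl | hQP
    · rw [hP1, Finsupp.single_eq_same, sub_self]
    · rw [Finsupp.single_eq_of_ne hQP, sub_zero]; exact hnn Q hQ
  have h := mapDomain_le_apply (below S) hnn' _ hP'
  rw [Finsupp.mapDomain_sub, Finsupp.sub_apply, Finsupp.sub_apply, Finsupp.mapDomain_single, hP,
    Finsupp.single_eq_same, hsum, hP'Z, Finsupp.single_eq_of_ne hne] at h
  omega

omit R in
/-- The norm below orders the two reductions in pairs. -/
theorem pair_of_norm {m : ℕ} {a b w : C} (ha0 : a ≠ 0) (hb0 : b ≠ 0) (hw : frob w = b ^ q)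
    (hp : PowConst k m (a * w)) (v : Place k C) :
    (m : ℤ) ∣ v.ord a + (S.frP.symm v).ord b := by
  obtain ⟨t, z, ht, hz, haw⟩ := hp
  have hw0 : w ≠ 0 := fun h0 => pow_ne_zero q hb0 (by rw [← hw, h0, map_zero])
  refine ⟨v.ord z, ?_⟩
  rw [← ord_w S hw, ← v.ord_mul ha0 hw0, haw,
    v.ord_mul ((map_ne_zero _).2 ht) (pow_ne_zero _ hz), ord_algebraMap, FunctionField.ord_pow,
    zero_add]

/-- The orders of both reductions of the normalised function of a class with principal norm. -/
theorem dvd_ord_of_norm (hA : IsRankOne A) {m : ℕ} (hm : 0 < m) {X : Divisor L F}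
    (hX : Divisor.degree X = 0) (hXfix : ∀ γ, R.act γ • X = X) {g : F} (hg : g ≠ 0)
    (hdiv : divisorOf g = m • X) {a b w : C} (ha : D.Red g a) (hb : D'.Red g b) (ha0 : a ≠ 0)
    (hb0 : b ≠ 0) (hw : frob w = b ^ q) (hp : PowConst k m (a * w)) (v : Place k C) :
    (m : ℤ) ∣ v.ord a ∧ (m : ℤ) ∣ v.ord b := by
  have hpair := pair_of_norm S ha0 hb0 hw hp
  have hda := dvd_ord_all S R hA hm hX hXfix hg hdiv ha hb ha0 hb0 hpair
  refine ⟨hda v, ?_⟩
  have h := hpair (S.frP v)
  rw [Equiv.symm_apply_apply] at h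
  exact (dvd_add_right (hda _)).1 h

end general

end FLTAgent.LevelLower
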