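import Fermat.Agent.Semistable.CrossData
import Fermat.Agent.Semistable.Galois

/-!
# Frobenius and the exchange of the two components on flat classes

An automorphism exchanging the two reductions sends the jump `ζ` to `1 / ζ`, along the pairing of
the crossings.  So if Frobenius permutes the crossings in the same way and raises constants to the
power `q`, it is `-q` times the exchange on flat classes.
-/

set_option autoImplicit false
set_option linter.unusedSectionVars false

noncomputable section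

open AlgebraicCurve SemilinearAut

namespace FLTAgent.LevelLower

open FLTAgent.GoodRed FLTAgent.GoodRed.RedDatum FLTAgent.FunctionField FLTAgent.Semistable

variable {L k : Type*} [Field L] [Field k] {A : ValuationSubring L} {π : A →+* k}
  {E F C : Type*} [Field E] [Algebra L E] [Field F] [Algebra L F] [Algebra E F]
  [IsScalarTower L E F] [Field C] [Algebra k C]
  [IsFunctionField L E] [IsFunctionField L F] [IsFunctionField k C] [IsAlgClosed L]
  [IsAlgClosed k] [Module.Finite E F]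
  {DE : RedDatum A π E C} {D D' : RedDatum A π F C} {frob : C →ₐ[k] C} {q : ℕ}
  {ι : Type*} [Fintype ι] (S : CrossData DE D D' frob q ι) [CharP k q]

theorem valAt_ne_zero_regular {v : Place k C} {a u : C} (h : OrdGe v 0 (a * u))
    (hu : OrdGe v 0 u) (hne : valAt v u ≠ 0) :
    OrdGe v 0 a ∧ valAt v (a * u) = valAt v a * valAt v u := by
  have ha : OrdGe v 0 a := by
    rcases eq_or_ne a 0 with rfl | ha0
    · exact ordGe_zero _
    have hu0 : u ≠ 0 := fun h0 => hne (by rw [h0, valAt_zero])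
    have h1 : v.ord u ≤ 0 := by
      by_contra hpos
      exact hne (valAt_eq (by rw [map_zero, sub_zero]; exact ordGe_of_le_ord (by omega)))
    have h2 := h.le_ord (mul_ne_zero ha0 hu0)
    rw [v.ord_mul ha0 hu0] at h2
    exact ordGe_of_le_ord (by omega)
  exact ⟨ha, valAt_mul ha hu⟩

/-- The jump governs every pair of reductions with poles avoiding the crossings. -/
theorem jump_value {m : ℕ} (hm : 0 < m) {X : Divisor L F}
    (hflat : NodeSystem.IsFlat (D := D) (D' := D') m X) {ζ : ι → k}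
    (hζ : S.nodeSystem.HasJump X ζ) {G : Divisor L E} (hG : 0 ≤ G) {i : ι}
    (hGx : S.red₁ G (S.x i) = 0) {f : F}
    (hf : f ∈ riemannRochSpace (Divisor.pullback F G + X)) {a b : C} (ha : D.Red f a)
    (hb : D'.Red f b) :
    valAt (S.frP.symm (S.x i)) b = ζ i * valAt (S.x i) a := by
  set N := S.nodeSystem
  set n := N.c + Fintype.card ι + 1 with hn
  have hbig : N.Big n 0 := by unfold NodeSystem.Big; omega
  obtain ⟨η, hη, hη0⟩ := NodeSystem.IsFlat.exists_hasJump N hm hflat.neg
  have hinv : (1 : ι → k) = ζ * η :=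
    NodeSystem.HasJump.add_eq N hζ hη (η := 1) (by rw [add_neg_cancel]; exact N.hasJump_zero)
  obtain ⟨p, hp, hpt⟩ := N.exists_mem_nspace η hbig 1
  have hp₀ := hp
  rw [← hη n 0 hbig] at hp
  obtain ⟨u, hu, hua, hub⟩ := hp
  have hBd : N.Bd n 0 = Divisor.pullback F (n • S.G₁) := by
    rw [NodeSystem.Bd, zero_nsmul, add_zero, map_nsmul]; rfl
  have hmem : f * u ∈ riemannRochSpace (Divisor.pullback F (G + n • S.G₁)) := by
    have h := mul_mem_rr hf hu
    rwa [hBd, add_add_add_comm, add_neg_cancel, add_zero, ← map_add] at h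
  have hx : S.red₁ (G + n • S.G₁) (S.x i) = 0 := by
    rw [S.red₁_add, S.red₁_nsmul, Finsupp.add_apply, Finsupp.smul_apply, hGx,
      show S.red₁ S.G₁ (S.x i) = 0 from S.G₁_x i, smul_zero, add_zero]
  obtain ⟨hAM, hBM⟩ := S.red_mem hmem (ha.mul hua) (hb.mul hub)
  have hagree := S.agree (add_nonneg hG (nsmul_nonneg S.G₁_nonneg n)) i hx hmem (ha.mul hua)
    (hb.mul hub)
  have hpy : OrdGe (S.frP.symm (S.x i)) 0 p.2 := regular_of_mem_rr (N.Qd_y n 0 i) hp₀.2.1
  have hpx : OrdGe (S.x i) 0 p.1 := regular_of_mem_rr (N.Pd_x n 0 i) hp₀.1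
  have e1 : valAt (S.x i) p.1 = 1 := hpt i
  have e2 : valAt (S.frP.symm (S.x i)) p.2 = η i := by
    have := hp₀.2.2 i
    rw [hpt i, Pi.one_apply, mul_one] at this
    exact this
  obtain ⟨-, h1⟩ := valAt_ne_zero_regular (regular_of_mem_rr hx hAM) hpx (by rw [e1]; exact one_ne_zero)
  obtain ⟨-, h2⟩ := valAt_ne_zero_regular (regular_of_mem_rr (S.red₂_symm_eq_zero hx) hBM) hpy
    (by rw [e2]; exact hη0 i)
  rw [h1, h2, e1, e2, mul_one] at hagree
  have h3 := congrFun hinv i
  rw [Pi.one_apply, Pi.mul_apply] at h3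
  rw [hagree, ← mul_assoc, mul_comm (ζ i), mul_assoc, ← h3, mul_one]

/-- An automorphism exchanging the two reductions and pairing the crossings. -/
structure SwapAut where
  /-- the automorphism -/
  w : SemilinearAut L F
  red : ∀ f z, D.Red f z → D'.Red (toRingAut w f) z
  red' : ∀ f z, D'.Red f z → D.Red (toRingAut w f) z
  /-- the pairing of the crossings -/
  perm : ι → ι
  perm_x : ∀ i, S.x (perm i) = S.frP.symm (S.x i)
  perm_perm : ∀ i, perm (perm i) = i
  pole : ∃ G : Divisor L E, 0 ≤ G ∧ (∀ i, S.red₁ G (S.x i) = 0) ∧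
    w • Divisor.pullback F S.G₁ ≤ Divisor.pullback F G

variable {S} (W : SwapAut S)

theorem SwapAut.isFlat {m : ℕ} {X : Divisor L F}
    (h : NodeSystem.IsFlat (D := D) (D' := D') m X) :
    NodeSystem.IsFlat (D := D) (D' := D') m (W.w • X) := by
  obtain ⟨hX, f, hf, hdiv, t, t', ht, ht', hr, hr'⟩ := h
  exact ⟨by rw [SemilinearAut.degree_smul, hX], toRingAut W.w f, (map_ne_zero _).2 hf,
    by rw [divisorOf_toRingAut, hdiv, smul_comm], t', t, ht', ht, W.red' _ _ hr', W.red _ _ hr⟩

/-- The exchange inverts jumps. -/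
theorem SwapAut.jump {m : ℕ} (hm : 0 < m) {X : Divisor L F}
    (hflat : NodeSystem.IsFlat (D := D) (D' := D') m X) {ζ η : ι → k}
    (hζ : S.nodeSystem.HasJump X ζ) (hη : S.nodeSystem.HasJump (W.w • X) η) (i : ι) :
    η (W.perm i) * ζ i = 1 := by
  set N := S.nodeSystem
  set n := N.c + Fintype.card ι + 1 with hn
  have hbig : N.Big n 0 := by unfold NodeSystem.Big; omega
  obtain ⟨p, hp, hpt⟩ := N.exists_mem_nspace ζ hbig 1
  have hp₀ := hp
  rw [← hζ n 0 hbig] at hp
  obtain ⟨u, hu, hua, hub⟩ := hp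
  obtain ⟨G, hG, hGx, hGle⟩ := W.pole
  have hmem : toRingAut W.w u ∈ riemannRochSpace (Divisor.pullback F (n • G) + W.w • X) := by
    refine riemannRochSpace_mono ?_ (toRingAut_mem_rr W.w hu)
    rw [smul_add, map_nsmul]
    refine add_le_add_left ?_ (W.w • X)
    rw [NodeSystem.Bd, zero_nsmul, add_zero, smul_comm W.w]
    exact nsmul_le_nsmul_right hGle n
  have key := jump_value S hm (W.isFlat hflat) hη (nsmul_nonneg hG n) (i := W.perm i)
    (by rw [S.red₁_nsmul, Finsupp.smul_apply, hGx, smul_zero]) hmem (W.red' _ _ hub)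
    (W.red _ _ hua)
  have hy : S.frP.symm (S.x (W.perm i)) = S.x i := by
    rw [← W.perm_x (W.perm i), W.perm_perm]
  rw [hy, W.perm_x] at key
  have e1 : valAt (S.x i) p.1 = 1 := hpt i
  have e2 : valAt (S.frP.symm (S.x i)) p.2 = ζ i := by
    have := hp₀.2.2 i
    rw [hpt i, Pi.one_apply, mul_one] at this
    exact this
  rw [e1, e2] at key
  exact key.symm

/-- Frobenius is `-q` times the exchange on flat classes. -/
theorem SwapAut.smul_add_principal (T : NodeSystem.NodeAut S.nodeSystem) (hperm : T.perm = W.perm)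
    (hτ : ∀ t, T.τ t = t ^ q) (hA : IsRankOne A) (hA0 : ∃ ϖ : L, ϖ ≠ 0 ∧ ϖ ∈ A.nonunits)
    {m : ℕ} (hm : (m : k) ≠ 0) {X : Divisor L F}
    (h : NodeSystem.IsFlat (D := D) (D' := D') m X) :
    ∃ f : F, f ≠ 0 ∧ T.s • X + q • (W.w • X) = divisorOf f := by
  have hm0 : 0 < m := Nat.pos_of_ne_zero fun h0 => hm (by rw [h0, Nat.cast_zero])
  obtain ⟨ζ, hζ, hζ0⟩ := NodeSystem.IsFlat.exists_hasJump S.nodeSystem hm0 h
  have hw := W.isFlat h
  obtain ⟨η, hη, -⟩ := NodeSystem.IsFlat.exists_hasJump S.nodeSystem hm0 hw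
  obtain ⟨hqf, hqj⟩ := NodeSystem.HasJump.nsmul_eq S.nodeSystem hm0 hw hη q
  have hT := T.isFlat_smul h
  obtain ⟨ξ, hξ, -⟩ := NodeSystem.IsFlat.exists_hasJump S.nodeSystem hm0 hT
  have hsum := hT.add hqf
  obtain ⟨θ, hθ, -⟩ := NodeSystem.IsFlat.exists_hasJump S.nodeSystem hm0 hsum
  have heq : θ = ξ * η ^ q := NodeSystem.HasJump.add_eq S.nodeSystem hξ hqj hθ
  have hone : θ = 1 := funext fun j => by
    obtain ⟨i, rfl⟩ : ∃ i, W.perm i = j := ⟨W.perm j, W.perm_perm j⟩
    have h1 := T.jump_smul hζ hξ i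
    rw [hperm, hτ] at h1
    rw [heq, Pi.mul_apply, Pi.pow_apply, h1, ← mul_pow, mul_comm, W.jump hm0 h hζ hη, one_pow,
      Pi.one_apply]
  rw [hone] at hθ
  exact S.nodeSystem.principal_of_jump_one hA hA0 hm hsum hθ

end FLTAgent.LevelLower
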