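import Fermat.Agent.LevelLower.RatInst
import Fermat.Agent.LevelLower.Swap
import Fermat.Agent.LevelLower.Crossing
import Fermat.Agent.Semistable.CrossingSet
import Fermat.Agent.GoodRed.GaloisRed
import Fermat.Agent.Hecke.Along

/-!
# Rationality and exchange for a `CrossData` of level `M q`
-/

set_option autoImplicit false
set_option linter.style.haveILetI false
set_option linter.unusedSectionVars false
set_option synthInstance.maxHeartbeats 100000

noncomputable section

open ModularCurve AlgebraicCurve SemilinearAut IsLocalRing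

namespace FLTAgent.LevelLower

open FLTAgent.GoodRed FLTAgent.GoodRed.RedDatum FLTAgent.Semistable FLTAgent.FunctionField
  FLTAgent.Hecke

local notation "Qbar" => AlgebraicClosure ℚ
local notation "Γℚ" => AlgebraicClosure ℚ ≃ₐ[ℚ] AlgebraicClosure ℚ

/-- Shortcut: the constants inside the function fields. -/
local instance (priority := high) instAlgebraMFLLData {K : Type*} [Field K] [Algebra ℚ K] (N : ℕ) [NeZero N] :
    Algebra K (MF K N) :=
  SubalgebraClass.toAlgebra (MF K N)

/-- Shortcut: the constants inside the full function fields. -/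
local instance (priority := high) instAlgebraFullCLLData {K : Type*} [Field K] (N : ℕ) [NeZero N] :
    Algebra K (modularFunctionFieldFullC K N) :=
  SubalgebraClass.toAlgebra (modularFunctionFieldFullC K N)

section generic

variable {L E F : Type*} [Field L] [Field E] [Algebra L E] [Field F] [Algebra L F]
  [IsFunctionField L E] [IsFunctionField L F]

theorem restrict_smul_of_intertwines [Algebra E F] [IsScalarTower L E F] [Module.Finite E F]
    (g : SemilinearAut L E) (g' : SemilinearAut L F)
    (h : ∀ u, toRingAut g' (algebraMap E F u) = algebraMap E F (toRingAut g u)) (P : Place L F) :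
    (g' • P).restrict E = g • P.restrict E := by
  ext x
  rw [SemilinearAut.smul_toValuationSubring, ValuationSubring.mem_pointwise_smul_iff_inv_smul_mem]
  show algebraMap E F x ∈ (g' • P).toValuationSubring ↔
    algebraMap E F (g⁻¹ • x) ∈ P.toValuationSubring
  rw [SemilinearAut.smul_toValuationSubring, ValuationSubring.mem_pointwise_smul_iff_inv_smul_mem,
    SemilinearAut.smul_def, SemilinearAut.smul_def]
  have e : toRingAut g'⁻¹ (algebraMap E F x) = algebraMap E F (toRingAut g⁻¹ x) := by
    rw [toRingAut_inv, toRingAut_inv, RingEquiv.symm_apply_eq, h, RingEquiv.apply_symm_apply]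
  rw [e]

theorem pullback_smul_of_intertwines [Algebra E F] [IsScalarTower L E F] [Module.Finite E F]
    [IsAlgClosed L]
    (g : SemilinearAut L E) (g' : SemilinearAut L F)
    (h : ∀ u, toRingAut g' (algebraMap E F u) = algebraMap E F (toRingAut g u)) (G : Divisor L E) :
    g' • Divisor.pullback F G = Divisor.pullback F (g • G) := by
  ext w
  obtain ⟨u, rfl⟩ : ∃ u, g' • u = w := ⟨g'⁻¹ • w, smul_inv_smul _ _⟩
  rw [divisor_smul_apply_smul, Divisor.pullback_apply, Divisor.pullback_apply,
    restrict_smul_of_intertwines g g' h, divisor_smul_apply_smul]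
  congr 1
  obtain ⟨f, -, hf⟩ := exists_ord_eq_one (u.restrict E)
  have h1 := Place.ord_restrict (F := E) (g' • u) (toRingAut g f)
  rw [restrict_smul_of_intertwines g g' h, show (g • u.restrict E).ord (toRingAut g f) =
      (u.restrict E).ord f from ord_smul g _ f, hf, mul_one, ← h,
    show (g' • u).ord (toRingAut g' (algebraMap E F f)) = u.ord (algebraMap E F f) from
      ord_smul g' u _, Place.ord_restrict, hf, mul_one] at h1
  exact_mod_cast h1

end generic

variable {A : ValuationSubring (AlgebraicClosure ℚ)} {q : ℕ} [Fact q.Prime]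
  {hA : A.LiesOverPrime q} [CharP (ResidueField A) q] [IsAlgClosed (ResidueField A)]
  {M : ℕ} [NeZero M] {hqM : ¬ q ∣ M}
  [IsFunctionField (ResidueField A) (modularFunctionFieldFullC (ResidueField A) M)]

local instance instNeZeroQAux : NeZero q := ⟨(Fact.out : q.Prime).ne_zero⟩
local instance instNeZeroLevelAux : NeZero (M * q) :=
  ⟨Nat.mul_ne_zero (NeZero.ne M) (Fact.out : q.Prime).ne_zero⟩

/-- `F_{Mq}` as an extension of `F_M` along the first degeneracy map. -/
local instance algAlphaAux : Algebra (MF Qbar M) (MF Qbar (M * q)) :=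
  algebraAlong (alphaMap Qbar M q)

local instance towerAlphaAux : IsScalarTower Qbar (MF Qbar M) (MF Qbar (M * q)) :=
  isScalarTower_along (alphaMap Qbar M q)

local instance finiteAlphaAux : Module.Finite (MF Qbar M) (MF Qbar (M * q)) :=
  finite_alongAlpha M

variable {ι : Type*} [Fintype ι]
  (X : CrossData (x0Datum A hA M hqM) (redInf A hA M hqM) (redZero A hA M hqM)
    (frobC (K := ResidueField A) q M) q ι)

include hA in
theorem x0_red_galAct {σ : Γℚ} (hσ : σ ∈ A.inertiaSubgroupIn ℚ) {y : MF Qbar M}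
    {z : modularFunctionFieldFullC (ResidueField A) M} (h : (x0Datum A hA M hqM).Red y z) :
    (x0Datum A hA M hqM).Red (toRingAut (galAct M σ) y) z :=
  (x0_red_iff A hA M hqM).2 (LevelSq.sRed_inertia hA ((x0_red_iff A hA M hqM).1 h) hσ)

/-- Inertia fixes the places below. -/
theorem below_galAct {σ : Γℚ} (hσ : σ ∈ A.inertiaSubgroupIn ℚ) (P : Place Qbar (MF Qbar (M * q))) :
    below X (galAct (M * q) σ • P) = below X P := by
  obtain ⟨g, c, hL, hk⟩ := exists_rrLarge_x0 A hA M hqM
  rw [below, below, restrict_smul_of_intertwines (galAct M σ) (galAct (M * q) σ)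
    (galAct_alphaMap M σ) P]
  have h := X.R.r_smul hL hk (galAct M σ) (1 : SemilinearAut (ResidueField A) _)
    (fun y z hyz => by rw [one_smul]; exact x0_red_galAct hσ hyz) (P.restrict (MF Qbar M))
  rwa [one_smul] at h

theorem galAct_ratFun_fn (u : RegRat M q) (σ : Γℚ) : toRingAut (galAct M σ) u.fn = u.fn :=
  Subtype.ext (HahnSeries.ext (funext fun n => (σ : Qbar ≃ₐ[ℚ] Qbar).commutes _))

theorem TU_mem_ratFun (u : RegRat M q) : TU u.fn ∈ ratFun A (M * q) := fun σ _ => by
  rw [TU, map_div₀, map_sub, map_pow, map_natCast, galAct_betaMap, galAct_alphaMap,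
    galAct_ratFun_fn]

theorem tube_galAct (σ : A.inertiaSubgroupIn ℚ) (i : ι) (P : Place Qbar (MF Qbar (M * q)))
    (hP : below X P = X.x i) : below X (galAct (M * q) σ • P) = X.x i := by
  rw [below_galAct X σ.2, hP]

theorem fix_pullback_galAct (hG : ∀ σ : Γℚ, galAct M σ • X.G₁ = X.G₁)
    (σ : A.inertiaSubgroupIn ℚ) :
    galAct (M * q) σ • Divisor.pullback (MF Qbar (M * q)) X.G₁ =
      Divisor.pullback (MF Qbar (M * q)) X.G₁ := by
  rw [pullback_smul_of_intertwines (galAct M σ) (galAct (M * q) σ) (galAct_alphaMap M σ), hG]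

set_option maxHeartbeats 1600000 in
-- the statement mentions several large fields
theorem exists_rat_witness {x : Place (ResidueField A) (modularFunctionFieldFullC (ResidueField A) M)}
    (hx : x ∈ crossingSet A hA hqM) :
    ∃ G : Divisor Qbar (MF Qbar M), 0 ≤ G ∧ Finsupp.mapDomain X.R.r G x = 0 ∧
      ∃ T ∈ ratFun A (M * q), T ∈ riemannRochSpace (Divisor.pullback (MF Qbar (M * q)) G) ∧
        (∃ z, (redInf A hA M hqM).Red T z ∧ x.ord z < 0) ∧
          ((q : Qbar) • T : MF Qbar (M * q)) ∈ (redZero A hA M hqM).V := by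
  obtain ⟨hxj, u, Tb, hTb, hpole⟩ := hx
  obtain ⟨N, hN⟩ := (exists_TU_mem_rr u u).1
  refine ⟨N • zeroDivisor (K := Qbar) (jMF Qbar M)⁻¹, nsmul_nonneg (zeroDivisor_nonneg _) _, ?_,
    TU u.fn, TU_mem_ratFun u, hN, ⟨Tb, hTb, ?_⟩, ?_⟩
  · rw [Finsupp.mapDomain_smul, Finsupp.smul_apply, mapDomain_polar_j_apply hA hqM X.R hxj,
      smul_zero]
  · by_contra h
    exact hpole (ordGe_of_le_ord (not_lt.1 h))
  · obtain ⟨ub, -, hub, -, -, -, -⟩ := exists_red_TU hA hqM u
    have h1 : (redInf A hA M hqM).Red (alphaMap Qbar M q u.fn - betaMap Qbar M q u.fn ^ q)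
        (ub - frobC (K := ResidueField A) q M ub ^ q) := (redInf_alpha hA hqM hub).sub ((redInf_beta hA hqM hub).pow q)
    refine (Red.mem (z := ub - frobC (K := ResidueField A) q M ub ^ q) ?_)
    rw [redZero_iff, Algebra.smul_def, map_natCast, natCast_mul_TU, map_sub, map_pow, swapW_beta,
      swapW_alpha]
    exact h1

/-- Rationality of a `CrossData` at level `M q`. -/
def auxRat (hx : Set.range X.x = crossingSet A hA hqM)
    (hG : ∀ σ : Γℚ, galAct M σ • X.G₁ = X.G₁) : RatData X where
  toGalStr := levelRat A hA M hqM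
  mem_K a h := mem_urField_of_fix fun σ => h σ
  tube γ i P hP := tube_galAct X γ i P hP
  fix_G₁ γ := fix_pullback_galAct X hG γ
  witness' i := exists_rat_witness X (hx ▸ Set.mem_range_self i)

theorem smul_pullback_le {Z : Divisor Qbar (MF Qbar (M * q))} {G : Divisor Qbar (MF Qbar M)}
    (hG : 0 ≤ G) (h : ∀ w : Place Qbar (MF Qbar (M * q)), G (w.restrict (MF Qbar M)) = 0 → Z w ≤ 0) :
    ∃ n : ℕ, Z ≤ Divisor.pullback (MF Qbar (M * q)) (n • G) := by
  classical
  refine ⟨∑ w ∈ Z.support, (Z w).toNat, fun w => ?_⟩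
  rw [Divisor.pullback_apply, Finsupp.smul_apply, nsmul_eq_mul]
  have he : (1 : ℤ) ≤ w.ramificationIndex (MF Qbar M) := by
    exact_mod_cast w.ramificationIndex_pos
  have hn : (0 : ℤ) ≤ G (w.restrict (MF Qbar M)) := hG _
  rcases eq_or_lt_of_le hn with h0 | h1
  · rw [← h0, mul_zero, mul_zero]; exact h w h0.symm
  rcases le_or_gt (Z w) 0 with hz | hz
  · exact le_trans hz (by positivity)
  have hsum : ((Z w).toNat : ℤ) ≤ (∑ w ∈ Z.support, (Z w).toNat : ℕ) := by
    exact_mod_cast Finset.single_le_sum (f := fun w => (Z w).toNat) (fun _ _ => Nat.zero_le _)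
      (Finsupp.mem_support_iff.2 hz.ne')
  calc Z w = ((Z w).toNat : ℤ) := (Int.toNat_of_nonneg hz.le).symm
    _ ≤ ((∑ w ∈ Z.support, (Z w).toNat : ℕ) : ℤ) * (1 * 1) := by simpa using hsum
    _ ≤ _ := by
      rw [mul_left_comm ((w.ramificationIndex (MF Qbar M) : ℕ) : ℤ)]
      exact mul_le_mul_of_nonneg_left (mul_le_mul he (by omega) zero_le_one (by omega))
        (Int.natCast_nonneg _)

set_option maxHeartbeats 1600000 in
-- the statement mentions several large fields
theorem exists_swap_pole (hx : Set.range X.x = crossingSet A hA hqM)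
    (hG : ∀ P, X.G₁ P ≠ 0 → zeroDivisor (K := Qbar) (jMF Qbar M)⁻¹ P ≠ 0) :
    ∃ G : Divisor Qbar (MF Qbar M), 0 ≤ G ∧ (∀ i, X.red₁ G (X.x i) = 0) ∧
      ofAlgAut (swapW M hqM) • Divisor.pullback (MF Qbar (M * q)) X.G₁ ≤
        Divisor.pullback (MF Qbar (M * q)) G := by
  obtain ⟨n, hn⟩ := smul_pullback_le
    (Z := ofAlgAut (swapW M hqM) • Divisor.pullback (MF Qbar (M * q)) X.G₁)
    (zeroDivisor_nonneg (K := Qbar) (jMF Qbar M)⁻¹) fun w hw => by
      obtain ⟨u, rfl⟩ : ∃ u, ofAlgAut (swapW M hqM) • u = w :=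
        ⟨(ofAlgAut (swapW M hqM))⁻¹ • w, smul_inv_smul _ _⟩
      rw [divisor_smul_apply_smul, Divisor.pullback_apply]
      refine le_of_eq (mul_eq_zero_of_right _ ?_)
      by_contra hne
      have hpole := hG _ hne
      rw [zeroDivisor_apply, Place.ord_inv] at hpole hw
      have hjne : jMF Qbar M ≠ 0 := fun h0 => hpole (by rw [h0, Place.ord_zero]; simp)
      have hp2 : max (-(u.restrict (MF Qbar M)).ord (jMF Qbar M)) 0 ≠ 0 := hpole
      have hw2 : max (-((ofAlgAut (swapW M hqM) • u).restrict (MF Qbar M)).ord (jMF Qbar M)) 0 = 0 :=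
        hw
      have h1 : (u.restrict (MF Qbar M)).ord (jMF Qbar M) < 0 := by omega
      have h2 : 0 ≤ ((ofAlgAut (swapW M hqM) • u).restrict (MF Qbar M)).ord (jMF Qbar M) := by omega
      obtain ⟨-, h3⟩ := ordGe_pair (alphaMap Qbar M q) (betaMap Qbar M q) (finite_alongAlpha M)
        (finite_alongBeta M) (ModPoly.phiK_monic q Qbar) ev2_alpha_beta
        (j := jMF Qbar M) (y := jMF Qbar M) (fun v hv => ordGe_of_le_ord hv)
        (w := ofAlgAut (swapW M hqM) • u) (by
          rw [zeroDivisor_apply, Place.ord_inv]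
          exact hw2)
      have h4 := h3.le_ord ((map_ne_zero _).2 hjne)
      rw [show betaMap Qbar M q (jMF Qbar M) =
          toRingAut (ofAlgAut (swapW M hqM)) (alphaMap Qbar M q (jMF Qbar M)) from
        (swapW_alpha M hqM _).symm] at h4
      rw [show (ofAlgAut (swapW M hqM) • u).ord
          (toRingAut (ofAlgAut (swapW M hqM)) (alphaMap Qbar M q (jMF Qbar M))) =
        u.ord (algebraMap (MF Qbar M) (MF Qbar (M * q)) (jMF Qbar M)) from ord_smul _ u _,
        Place.ord_restrict] at h4
      have h5 : (0 : ℤ) < u.ramificationIndex (MF Qbar M) := by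
        exact_mod_cast u.ramificationIndex_pos
      nlinarith
  refine ⟨_, nsmul_nonneg (zeroDivisor_nonneg _) n, fun i => ?_, hn⟩
  have hxi : X.x i ∈ crossingSet A hA hqM := hx ▸ Set.mem_range_self i
  show Finsupp.mapDomain X.R.r _ _ = 0
  rw [Finsupp.mapDomain_smul, Finsupp.smul_apply, mapDomain_polar_j_apply hA hqM X.R hxi.1,
    smul_zero]


/-- The swap as an exchange of the two reductions. -/
def auxSwap (perm : ι → ι) (hperm : ∀ i, X.x (perm i) = X.frP.symm (X.x i))
    (hinv : ∀ i, perm (perm i) = i) (hx : Set.range X.x = crossingSet A hA hqM)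
    (hG : ∀ P, X.G₁ P ≠ 0 → zeroDivisor (K := Qbar) (jMF Qbar M)⁻¹ P ≠ 0) : SwapAut X where
  w := ofAlgAut (swapW M hqM)
  red f z h := by
    show (redZero A hA M hqM).Red (swapW M hqM f) z
    rw [redZero_iff, swapW_swapW]; exact h
  red' f z h := (redZero_iff hA hqM).1 h
  perm := perm
  perm_x := hperm
  perm_perm := hinv
  pole := exists_swap_pole X hx hG

end FLTAgent.LevelLower
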