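import Fermat.Agent.LevelLower.AuxMap
import Fermat.Agent.Semistable.X0Node
import Fermat.Agent.Semistable.Count
import Fermat.Agent.Semistable.LevelAutFrob

/-!
# The exchange and a Frobenius on the crossing data of the auxiliary level
-/

set_option autoImplicit false
set_option linter.style.haveILetI false
set_option linter.unusedSectionVars false
set_option synthInstance.maxHeartbeats 100000

noncomputable section

open ModularCurve AlgebraicCurve SemilinearAut IsLocalRing

namespace FLTAgent.LevelLower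

open FLTAgent.GoodRed FLTAgent.GoodRed.RedDatum FLTAgent.Semistable FLTAgent.FunctionField
  FLTAgent.Hecke

local notation "Qbar" => AlgebraicClosure ℚ
local notation "Γℚ" => AlgebraicClosure ℚ ≃ₐ[ℚ] AlgebraicClosure ℚ

/-- Shortcut: the constants inside the function fields. -/
local instance (priority := high) instAlgebraMFLLInst {K : Type*} [Field K] [Algebra ℚ K] (N : ℕ) [NeZero N] :
    Algebra K (MF K N) :=
  SubalgebraClass.toAlgebra (MF K N)

/-- Shortcut: the constants inside the full function fields. -/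
local instance (priority := high) instAlgebraFullCLLInst {K : Type*} [Field K] (N : ℕ) [NeZero N] :
    Algebra K (modularFunctionFieldFullC K N) :=
  SubalgebraClass.toAlgebra (modularFunctionFieldFullC K N)

section numerics

theorem nuTwo_eq_zero_of {N d : ℕ} (hd : d ∣ N) (h : ∀ x : ZMod d, x ^ 2 + 1 ≠ 0) :
    nuTwo N = 0 := by
  have : IsEmpty {x : ZMod N // x ^ 2 + 1 = 0} := ⟨fun ⟨x, hx⟩ =>
    h (ZMod.castHom hd (ZMod d) x) (by
      rw [← map_pow, ← map_one (ZMod.castHom hd (ZMod d)), ← map_add, hx, map_zero])⟩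
  rw [nuTwo, Nat.card_eq_zero]
  exact Or.inl this

theorem nuThree_eq_zero_of {N d : ℕ} (hd : d ∣ N) (h : ∀ x : ZMod d, x ^ 2 + x + 1 ≠ 0) :
    nuThree N = 0 := by
  have : IsEmpty {x : ZMod N // x ^ 2 + x + 1 = 0} := ⟨fun ⟨x, hx⟩ =>
    h (ZMod.castHom hd (ZMod d) x) (by
      rw [← map_pow, ← map_one (ZMod.castHom hd (ZMod d)), ← map_add, ← map_add, hx, map_zero])⟩
  rw [nuThree, Nat.card_eq_zero]
  exact Or.inl this

theorem aux_conditions (M q : ℕ) :
    nuTwo (M * auxFactor q) = 0 ∧ nuThree (M * auxFactor q) = 0 ∧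
      (q = 2 → 3 ∣ M * auxFactor q) ∧ (q = 3 → 2 ∣ M * auxFactor q) := by
  unfold auxFactor
  split_ifs with h
  · exact ⟨nuTwo_eq_zero_of (d := 4) (dvd_mul_left 4 M) (by decide),
      nuThree_eq_zero_of (d := 4) (dvd_mul_left 4 M) (by decide),
      fun h2 => absurd h2 (by omega), fun _ => Dvd.dvd.mul_left (by norm_num) M⟩
  · exact ⟨nuTwo_eq_zero_of (d := 9) (dvd_mul_left 9 M) (by decide),
      nuThree_eq_zero_of (d := 9) (dvd_mul_left 9 M) (by decide),
      fun _ => Dvd.dvd.mul_left (by norm_num) M, fun h3 => absurd h3 h⟩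

end numerics

variable {A : ValuationSubring (AlgebraicClosure ℚ)} {q : ℕ} [Fact q.Prime]
  {hA : A.LiesOverPrime q} [CharP (ResidueField A) q] [IsAlgClosed (ResidueField A)]
  {M : ℕ} [NeZero M] {hqM : ¬ q ∣ M}
  [IsFunctionField (ResidueField A) (modularFunctionFieldFullC (ResidueField A) M)]

local instance instNeZeroQAuxInst : NeZero q := ⟨(Fact.out : q.Prime).ne_zero⟩
local instance instNeZeroLevelAuxInst : NeZero (M * q) :=
  ⟨Nat.mul_ne_zero (NeZero.ne M) (Fact.out : q.Prime).ne_zero⟩

local instance algAlphaAuxInst : Algebra (MF Qbar M) (MF Qbar (M * q)) :=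
  algebraAlong (alphaMap Qbar M q)

local instance towerAlphaAuxInst : IsScalarTower Qbar (MF Qbar M) (MF Qbar (M * q)) :=
  isScalarTower_along (alphaMap Qbar M q)

local instance finiteAlphaAuxInst : Module.Finite (MF Qbar M) (MF Qbar (M * q)) :=
  finite_alongAlpha M

variable {ι : Type*} [Fintype ι]
  (X : CrossData (x0Datum A hA M hqM) (redInf A hA M hqM) (redZero A hA M hqM)
    (frobC (K := ResidueField A) q M) q ι)

set_option maxHeartbeats 1600000 in
-- the statement mentions several large fields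
/-- The exchange pairs the crossings as a Frobenius at `q` does. -/
theorem exists_swap_frobenius (hfr : X.frP = frPlace q M)
    (hx : Set.range X.x = crossingSet A hA hqM)
    (hG₁ : ∀ σ : Γℚ, galAct M σ • X.G₁ = X.G₁) (hG₂ : ∀ σ : Γℚ, galAct M σ • X.G₂ = X.G₂)
    (hG : X.G₁ = zeroDivisor (K := Qbar) (jMF Qbar M)⁻¹) {φ : Γℚ} (hφ : A.IsFrobeniusAt φ q) :
    ∃ (W : SwapAut X) (T : NodeSystem.NodeAut X.nodeSystem), W.w = ofAlgAut (swapW M hqM) ∧
      T.s = galAct (M * q) φ ∧ T.perm = W.perm ∧ ∀ t, T.τ t = t ^ q := by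
  set g : A.decompositionSubgroup ℚ := ⟨φ, hφ.mem_decompositionSubgroup⟩
  have hτ : ∀ t : ResidueField A, residueAut g t = t ^ q := fun t => hφ.smul_residue_eq t
  have hτK : residueAut g = frobK (K := ResidueField A) q :=
    RingEquiv.ext fun t => (hτ t).trans (frobK_apply _ t).symm
  set T := levelAut hfr hx hG₁ hG₂ g
  have hsq : ∀ i, fullCAut M (residueAut g) • fullCAut M (residueAut g) • X.x i = X.x i := fun i => by
    have h := fullCAut_smul_crossing hA hqM X.R X.hE X.hC (residueAut g * residueAut g)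
      (fun t ht => by
        rw [RingAut.mul_apply, hτ, hτ, ← pow_mul, ← pow_two]
        exact ht)
      (hx ▸ Set.mem_range_self i)
    rwa [fullCAut_mul, mul_smul] at h
  have hp : ∀ i, X.x (T.perm i) = fullCAut M (residueAut g) • X.x i := fun i =>
    x_levelAut_perm hfr hx hG₁ hG₂ g i
  refine ⟨auxSwap X T.perm (fun i => ?_) (fun i => X.x_inj ?_) hx (fun P h => hG ▸ h), T, rfl, rfl,
    rfl, hτ⟩
  · rw [hp, frP_symm_eq hfr, ← hτK, eq_inv_smul_iff, hsq]
  · rw [hp, hp, hsq]

end FLTAgent.LevelLower
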