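import Fermat.Agent.LevelLower.Rational
import Fermat.Agent.Semistable.OldNull

/-!
# The relative scale of the two reductions

`Gap f n` says that `ϖ ^ n` times a scalar normalising `f` on the first component normalises it
on the second one.  Rational functions have a unique gap, and every gap is attained.
-/

set_option autoImplicit false
set_option linter.unusedSectionVars false

noncomputable section

namespace FLTAgent.LevelLower

open FLTAgent.GoodRed FLTAgent.GoodRed.RedDatum FLTAgent.Semistable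

variable {L k : Type*} [Field L] [Field k] {A : ValuationSubring L} {π : A →+* k}
  {F C C' : Type*} [Field F] [Algebra L F] [Field C] [Algebra k C] [Field C'] [Algebra k C']
  {D : RedDatum A π F C} {D' : RedDatum A π F C'}

namespace RatStr

variable (R : RatStr D D')

/-- The difference of the scales of `f` on the two components. -/
def Gap (f : F) (n : ℤ) : Prop :=
  ∃ (c : L) (z : C) (z' : C'), c ≠ 0 ∧ z ≠ 0 ∧ z' ≠ 0 ∧ D.Red (c • f) z ∧
    D'.Red ((c * R.ϖ ^ n) • f) z'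

variable {R}

theorem Gap.mul {f g : F} {n n' : ℤ} (h : R.Gap f n) (h' : R.Gap g n') :
    R.Gap (f * g) (n + n') := by
  obtain ⟨c, z, z', hc, hz, hz', hr, hr'⟩ := h
  obtain ⟨d, w, w', hd, hw, hw', hs, hs'⟩ := h'
  refine ⟨c * d, z * w, z' * w', mul_ne_zero hc hd, mul_ne_zero hz hw, mul_ne_zero hz' hw', ?_, ?_⟩
  · have := hr.mul hs
    rwa [smul_mul_smul_comm] at this
  · have := hr'.mul hs'
    rwa [smul_mul_smul_comm, mul_mul_mul_comm, ← zpow_add₀ R.ϖ_ne] at this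

theorem Gap.one : R.Gap 1 0 :=
  ⟨1, 1, 1, one_ne_zero, one_ne_zero, one_ne_zero, by rw [one_smul]; exact red_one,
    by rw [zpow_zero, mul_one, one_smul]; exact red_one⟩

theorem Gap.pow {f : F} {n : ℤ} (h : R.Gap f n) (i : ℕ) : R.Gap (f ^ i) ((i : ℤ) * n) := by
  induction i with
  | zero => simpa using Gap.one
  | succ i ih => rw [pow_succ, Nat.cast_succ, add_mul, one_mul]; exact ih.mul h

theorem Gap.inv {f : F} {n : ℤ} (h : R.Gap f n) : R.Gap f⁻¹ (-n) := by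
  obtain ⟨c, z, z', hc, hz, hz', hr, hr'⟩ := h
  refine ⟨c⁻¹, z⁻¹, z'⁻¹, inv_ne_zero hc, inv_ne_zero hz, inv_ne_zero hz', ?_, ?_⟩
  · have := hr.inv hz
    rwa [smul_inv₀] at this
  · have := hr'.inv hz'
    rwa [smul_inv₀, mul_inv, ← zpow_neg] at this

theorem Gap.smul {f : F} {n : ℤ} (h : R.Gap f n) {t : L} (ht : t ≠ 0) : R.Gap (t • f) n := by
  obtain ⟨c, z, z', hc, hz, hz', hr, hr'⟩ := h
  refine ⟨c / t, z, z', div_ne_zero hc ht, hz, hz', ?_, ?_⟩
  · rwa [smul_smul, div_mul_cancel₀ _ ht]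
  · rwa [smul_smul, div_mul_eq_mul_div, div_mul_cancel₀ _ ht]

theorem valuation_eq_of_red {G : Type*} [Field G] [Algebra k G] {Eo : RedDatum A π F G} {f : F}
    {c d : L} {z w : G} (hc : c ≠ 0) (hd : d ≠ 0) (hz : z ≠ 0) (hw : w ≠ 0)
    (hr : Eo.Red (c • f) z) (hs : Eo.Red (d • f) w) : A.valuation c = A.valuation d := by
  have key : ∀ {c d : L} {z w : G}, c ≠ 0 → z ≠ 0 → Eo.Red (c • f) z → Eo.Red (d • f) w →
      A.valuation d ≤ A.valuation c := by
    intro c d z w hc hz hr hs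
    have := mem_of_smul_mem_of_red Eo hr hz (a := d / c) (by
      rw [smul_smul, div_mul_cancel₀ _ hc]; exact hs.mem)
    rw [← A.valuation_le_one_iff, map_div₀,
      div_le_one₀ (zero_lt_iff.2 ((map_ne_zero _).2 hc))] at this
    exact this
  exact le_antisymm (key hd hw hs hr) (key hc hz hr hs)

theorem valuation_zpow_eq {a b : ℤ} (h : A.valuation (R.ϖ ^ a) = A.valuation (R.ϖ ^ b)) :
    a = b := by
  have key : ∀ {j : ℤ}, 0 < j → A.valuation (R.ϖ ^ j) ≠ 1 := by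
    intro j hj
    obtain ⟨i, rfl⟩ := Int.eq_ofNat_of_zero_le hj.le
    rw [zpow_natCast, map_pow]
    exact (pow_lt_one₀ zero_le (A.mem_nonunits_iff.1 R.ϖ_nonunit) (by omega)).ne
  have h0 : ∀ j : ℤ, A.valuation (R.ϖ ^ j) ≠ 0 :=
    fun j => (map_ne_zero _).2 (zpow_ne_zero j R.ϖ_ne)
  rcases lt_trichotomy a b with hab | hab | hab
  · exact absurd (by rw [zpow_sub₀ R.ϖ_ne, map_div₀, h, div_self (h0 b)])
      (key (sub_pos.2 hab))
  · exact hab
  · exact absurd (by rw [zpow_sub₀ R.ϖ_ne, map_div₀, h, div_self (h0 b)])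
      (key (sub_pos.2 hab))

theorem Gap.unique {f : F} {n n' : ℤ} (h : R.Gap f n) (h' : R.Gap f n') : n = n' := by
  obtain ⟨c, z, z', hc, hz, hz', hr, hr'⟩ := h
  obtain ⟨d, w, w', hd, hw, hw', hs, hs'⟩ := h'
  have h1 := valuation_eq_of_red hc hd hz hw hr hs
  have h2 := valuation_eq_of_red (mul_ne_zero hc (zpow_ne_zero _ R.ϖ_ne))
    (mul_ne_zero hd (zpow_ne_zero _ R.ϖ_ne)) hz' hw' hr' hs'
  rw [map_mul, map_mul, h1] at h2
  exact valuation_zpow_eq (mul_left_cancel₀ ((map_ne_zero _).2 hd) h2)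

variable (R)

/-- The valuation of a rational constant is a power of that of `ϖ`. -/
theorem exists_zpow (hA : IsRankOne A) {a : L} (ha : a ∈ R.K) (ha0 : a ≠ 0) :
    ∃ n : ℤ, A.valuation a = A.valuation (R.ϖ ^ n) := by
  have main : ∀ (M : ℕ) (a : L), a ∈ R.K → a ≠ 0 → a ∈ A →
      A.valuation R.ϖ ^ M ≤ A.valuation a → ∃ n : ℤ, A.valuation a = A.valuation (R.ϖ ^ n) := by
    intro M
    induction M with
    | zero =>
      intro a _ _ haA hle
      refine ⟨0, ?_⟩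
      rw [zpow_zero, map_one]
      exact le_antisymm ((A.valuation_le_one_iff a).2 haA) (by simpa using hle)
    | succ M ih =>
      intro a haK ha0 haA hle
      by_cases hn : a ∈ A.nonunits
      · have hpos : 0 < A.valuation R.ϖ := zero_lt_iff.2 ((map_ne_zero _).2 R.ϖ_ne)
        obtain ⟨n, hn'⟩ := ih (a / R.ϖ) (_root_.div_mem haK R.ϖ_mem) (div_ne_zero ha0 R.ϖ_ne)
          (R.gap a haK hn) (by rwa [map_div₀, le_div_iff₀ hpos, ← pow_succ])
        refine ⟨n + 1, ?_⟩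
        rw [zpow_add₀ R.ϖ_ne, zpow_one, map_mul, ← hn', ← map_mul, div_mul_cancel₀ _ R.ϖ_ne]
      · refine ⟨0, ?_⟩
        rw [zpow_zero, map_one]
        exact le_antisymm ((A.valuation_le_one_iff a).2 haA)
          (not_lt.1 fun h => hn (A.mem_nonunits_iff.2 h))
  rcases A.mem_or_inv_mem a with h | h
  · obtain ⟨M, hM⟩ := hA a R.ϖ ha0 R.ϖ_nonunit
    exact main M a ha ha0 h hM
  · obtain ⟨M, hM⟩ := hA a⁻¹ R.ϖ (inv_ne_zero ha0) R.ϖ_nonunit
    obtain ⟨n, hn⟩ := main M a⁻¹ (inv_mem ha) (inv_ne_zero ha0) h hM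
    exact ⟨-n, by rw [zpow_neg, map_inv₀, ← hn, map_inv₀, inv_inv]⟩

/-- A rational function has a gap, normalised by a rational scalar. -/
theorem exists_gap (hA : IsRankOne A) {f : F} (hf : f ∈ R.FK) (hf0 : f ≠ 0) :
    ∃ (c : L) (n : ℤ) (z : C) (z' : C'), c ∈ R.K ∧ c ≠ 0 ∧ z ≠ 0 ∧ z' ≠ 0 ∧ D.Red (c • f) z ∧
      D'.Red ((c * R.ϖ ^ n) • f) z' := by
  obtain ⟨c, hcK, hc, z, hz, hr⟩ := R.scale f hf hf0
  obtain ⟨c', hcK', hc', z', hz', hr'⟩ := R.scale' f hf hf0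
  obtain ⟨n, hn⟩ := R.exists_zpow hA (_root_.div_mem hcK' hcK) (div_ne_zero hc' hc)
  have hp : R.ϖ ^ n ≠ 0 := zpow_ne_zero _ R.ϖ_ne
  have hval : A.valuation (c * R.ϖ ^ n / c') = 1 := by
    rw [map_div₀, map_mul, ← hn, map_div₀, mul_div_cancel₀ _ ((map_ne_zero _).2 hc),
      div_self ((map_ne_zero _).2 hc')]
  set u : A := ⟨c * R.ϖ ^ n / c', (A.valuation_le_one_iff _).1 hval.le⟩
  have hu : π u ≠ 0 := (D'.isResidue.ne_zero_iff u).2 hval
  refine ⟨c, n, z, π u • z', hcK, hc, hz, smul_ne_zero hu hz', hr, ?_⟩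
  have := red_smul u hr'
  rwa [smul_smul, div_mul_cancel₀ _ hc'] at this

/-- Every gap is attained by a rational function. -/
theorem exists_of_gap (e : F) (heK : e ∈ R.FK) (he : D.Red e 1) (he' : D'.Red e 0) (n : ℤ) :
    ∃ f ∈ R.FK, f ≠ 0 ∧ R.Gap f n := by
  have key : ∀ i : ℕ, ∃ f ∈ R.FK, f ≠ 0 ∧ R.Gap f (i + 1 : ℕ) := by
    intro i
    set p : A := ⟨R.ϖ, A.nonunits_subset R.ϖ_nonunit⟩
    have hp : π p = 0 := (D.isResidue.eq_zero_iff _).2 R.ϖ_nonunit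
    have hw : D.Red (1 - e) 0 := by simpa using red_one.sub he
    have hw' : D'.Red (1 - e) 1 := by simpa using red_one.sub he'
    obtain ⟨c, hcK, hc, z, hz, hr⟩ := R.scale (1 - e) (sub_mem (one_mem _) heK)
      (hw'.ne_zero one_ne_zero)
    obtain ⟨w, hwr⟩ := exists_red (R.div_mem_aux D hcK hc hz hr hw)
    set f : F := algebraMap L F (R.ϖ ^ (i + 1)) + (1 - e) ^ (i + 2) with hf
    have h1 : D'.Red f 1 := by
      have hz0 : D'.Red (algebraMap L F (R.ϖ ^ (i + 1))) 0 := by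
        have := (red_algebraMap (D := D') p).pow (i + 1)
        rw [hp, map_zero, zero_pow (by omega), ← map_pow] at this
        exact this
      rw [hf]
      simpa using hz0.add (hw'.pow (i + 2))
    have h0 : D.Red ((R.ϖ ^ (i + 1))⁻¹ • f) 1 := by
      have hm : D.Red ((p : L) • ((R.ϖ⁻¹ • (1 - e)) ^ (i + 2))) 0 := by
        simpa [hp] using red_smul p (hwr.pow (i + 2))
      convert red_one.add hm using 1
      · rw [hf, smul_add, Algebra.smul_def, ← map_mul,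
          inv_mul_cancel₀ (pow_ne_zero _ R.ϖ_ne), map_one, smul_pow, smul_smul]
        congr 2
        show _ = R.ϖ * R.ϖ⁻¹ ^ (i + 2)
        rw [inv_pow, pow_succ' R.ϖ (i + 1), mul_inv, ← mul_assoc, mul_inv_cancel₀ R.ϖ_ne, one_mul]
      · rw [add_zero]
    refine ⟨f, add_mem (R.algebraMap_mem _ (pow_mem R.ϖ_mem _))
        (pow_mem (sub_mem (one_mem _) heK) _), h1.ne_zero one_ne_zero,
      (R.ϖ ^ (i + 1))⁻¹, 1, 1, inv_ne_zero (pow_ne_zero _ R.ϖ_ne), one_ne_zero, one_ne_zero,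
      h0, ?_⟩
    rw [zpow_natCast, inv_mul_cancel₀ (pow_ne_zero _ R.ϖ_ne), one_smul]
    exact h1
  rcases lt_trichotomy n 0 with hn | hn | hn
  · obtain ⟨i, hi⟩ : ∃ i : ℕ, n = -((i + 1 : ℕ) : ℤ) := ⟨(-n).toNat - 1, by omega⟩
    obtain ⟨f, hfK, hf0, hf⟩ := key i
    exact ⟨f⁻¹, inv_mem hfK, inv_ne_zero hf0, hi ▸ hf.inv⟩
  · exact ⟨1, one_mem _, one_ne_zero, hn ▸ Gap.one⟩
  · obtain ⟨i, hi⟩ : ∃ i : ℕ, n = ((i + 1 : ℕ) : ℤ) := ⟨n.toNat - 1, by omega⟩
    obtain ⟨f, hfK, hf0, hf⟩ := key i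
    exact ⟨f, hfK, hf0, hi ▸ hf⟩

end RatStr

end FLTAgent.LevelLower
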