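import Fermat.Agent.LevelLower.Counting
import Fermat.Agent.LevelLower.Scale

/-!
# Rational eigenclasses absent below are flat

A rational `m`-torsion class with principal image at the lower level, eigen for operators that
multiply the relative scale of the two components by their degree, can be moved so that both
reductions of its function are defined at the same scale.  If their orders are then multiples of
`m` (see `dvd_ord_of_norm`) and the component has no eigen `m`-torsion, the class is flat.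
-/

set_option autoImplicit false
set_option linter.unusedSectionVars false

noncomputable section

open AlgebraicCurve SemilinearAut

namespace FLTAgent.LevelLower

open FLTAgent.GoodRed FLTAgent.GoodRed.RedDatum FLTAgent.FunctionField FLTAgent.Semistable

variable {L k : Type*} [Field L] [Field k] {A : ValuationSubring L} {π : A →+* k}

/-- A norm operator on functions and its reduction. -/
structure HeckeOp {F C : Type*} [Field F] [Algebra L F] [Field C] [Algebra k C]
    [IsFunctionField L F] (D D' : RedDatum A π F C) (FK : Subfield F) where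
  /-- the operator -/
  T : F →*₀ F
  /-- its degree -/
  d : ℕ
  /-- its action on divisors -/
  Tdiv : Divisor L F →+ Divisor L F
  div_T : ∀ f, f ≠ 0 → divisorOf (T f) = Tdiv (divisorOf f)
  T_algebraMap : ∀ c : L, T (algebraMap L F c) = algebraMap L F (c ^ d)
  T_FK : ∀ f ∈ FK, T f ∈ FK
  /-- the operator on the component -/
  Tb : C →*₀ C
  red : ∀ f z, D.Red f z → z ≠ 0 → D.Red (T f) (Tb z)
  red' : ∀ f z, D'.Red f z → z ≠ 0 → D'.Red (T f) (Tb z)

theorem HeckeOp.T_smul {F C : Type*} [Field F] [Algebra L F] [Field C] [Algebra k C]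
    [IsFunctionField L F] {D D' : RedDatum A π F C} {FK : Subfield F}
    (H : HeckeOp D D' FK) (c : L) (f : F) : H.T (c • f) = c ^ H.d • H.T f := by
  rw [Algebra.smul_def, map_mul, H.T_algebraMap, Algebra.smul_def]

theorem divisorOf_pow {K G : Type*} [Field K] [Field G] [Algebra K G] [IsFunctionField K G]
    (f : G) (n : ℕ) : divisorOf (K := K) (f ^ n) = n • divisorOf (K := K) f := by
  ext v
  rw [divisorOf_apply, FunctionField.ord_pow, Finsupp.smul_apply, divisorOf_apply, nsmul_eq_mul]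

theorem divisorOf_smul {K G : Type*} [Field K] [Field G] [Algebra K G] [IsFunctionField K G]
    {c : K} (hc : c ≠ 0) {f : G} (hf : f ≠ 0) :
    divisorOf (K := K) (c • f) = divisorOf (K := K) f := by
  ext v
  rw [divisorOf_apply, Algebra.smul_def, v.ord_mul ((map_ne_zero _).2 hc) hf, ord_algebraMap,
    zero_add, divisorOf_apply]

theorem exists_smul_of_divisorOf_eq {K G : Type*} [Field K] [Field G] [Algebra K G]
    [IsFunctionField K G] [IsAlgClosed K] {f g : G} (hf : f ≠ 0) (hg : g ≠ 0)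
    (h : divisorOf (K := K) f = divisorOf g) : ∃ c : K, c ≠ 0 ∧ f = c • g := by
  obtain ⟨c, hc⟩ := exists_eq_algebraMap_of_divisorOf_eq_zero (K := K) (z := f / g)
    (Finsupp.ext fun v => by
      rw [divisorOf_apply, FunctionField.ord_div hf hg, ← divisorOf_apply (K := K) f,
        ← divisorOf_apply (K := K) g, h, sub_self, Finsupp.zero_apply])
  refine ⟨c, fun h0 => div_ne_zero hf hg (by rw [← hc, h0, map_zero]), ?_⟩
  rw [Algebra.smul_def, hc, div_mul_cancel₀ _ hg]

theorem nsmul_cancel {α : Type*} {m : ℕ} (hm : 0 < m) {X Y : α →₀ ℤ} (h : m • X = m • Y) :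
    X = Y := by
  ext v
  have := congrArg (fun Z : α →₀ ℤ => Z v) h
  simpa [nsmul_eq_mul, hm.ne'] using this

variable {E F C : Type*} [Field E] [Algebra L E] [Field F] [Algebra L F] [Algebra E F]
  [IsScalarTower L E F] [Field C] [Algebra k C]
  [IsFunctionField L E] [IsFunctionField L F] [IsFunctionField k C] [IsAlgClosed L]
  [IsAlgClosed k] [Module.Finite E F]
  {DE : RedDatum A π E C} {D D' : RedDatum A π F C} {frob : C →ₐ[k] C} {q : ℕ}

/-- The reduction of an eigenfunction is eigen up to `m`-th powers. -/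
theorem powConst_eigen {FK : Subfield F} (H : HeckeOp D D' FK) (Dx : RedDatum A π F C)
    (hred : ∀ f z, Dx.Red f z → z ≠ 0 → Dx.Red (H.T f) (H.Tb z)) {m : ℕ} {X : Divisor L F}
    {G : F} (hdiv : divisorOf G = m • X) {a : C} (ha : Dx.Red G a) (ha0 : a ≠ 0) {c : ℕ} {e : F}
    (he : e ≠ 0) (heig : H.Tdiv X - c • X = divisorOf e) :
    PowConst k m (H.Tb a / a ^ c) := by
  have hG : G ≠ 0 := ha.ne_zero ha0
  obtain ⟨s, w, hs, hw, hr⟩ := Dx.exists_scale he
  have hTG : H.T G ≠ 0 := (map_ne_zero H.T).2 hG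
  have hne : G ^ c * (s • e) ^ m ≠ 0 :=
    mul_ne_zero (pow_ne_zero _ hG) (pow_ne_zero _ (smul_ne_zero hs he))
  obtain ⟨t, -, ht⟩ := exists_smul_of_divisorOf_eq (K := L) hTG hne (by
    rw [H.div_T G hG, hdiv, map_nsmul, divisorOf_mul (pow_ne_zero _ hG)
      (pow_ne_zero _ (smul_ne_zero hs he)), divisorOf_pow, divisorOf_pow, divisorOf_smul hs he,
      hdiv, ← heig, smul_sub, smul_comm c m]
    abel)
  have h1 := hred G a ha ha0
  rw [ht] at h1
  obtain ⟨u, hu, hueq⟩ := exists_unit_smul_red Dx ((ha.pow c).mul (hr.pow m))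
    (mul_ne_zero (pow_ne_zero _ ha0) (pow_ne_zero _ hw)) h1 ((map_ne_zero H.Tb).2 ha0)
  refine ⟨u, w, hu, hw, ?_⟩
  rw [hueq, Algebra.smul_def]
  field_simp

/-- A rational torsion eigenclass with principal image below, absent from the component, is
flat. -/
theorem exists_flat (hS : OneSide DE D D' frob q) (hpow : ∀ z : C, ∃ w, frob w = z ^ q)
    [CharP C q] (R : GalStr D D') (hA : IsRankOne A) {esep : F} (hesK : esep ∈ R.FK)
    (hes : D.Red esep 1) (hes' : D'.Red esep 0) {m : ℕ} (hm : 0 < m) {X : Divisor L F}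
    (hX : Divisor.degree X = 0) (hXfix : ∀ γ, R.act γ • X = X) {g : F} (hgK : g ∈ R.FK)
    (hg : g ≠ 0) (hdiv : divisorOf g = m • X) (hpush : (Divisor.pushforward E X).IsPrincipal)
    {Λ : Type*} (H : Λ → HeckeOp D D' R.FK) (c : Λ → ℕ)
    (heig : ∀ l, ∃ e, e ≠ 0 ∧ (H l).Tdiv X - c l • X = divisorOf e)
    (hne : ∃ l, IsCoprime (((H l).d : ℤ) - c l) m)
    (hdvd : ∀ (G : F) (Y : Divisor L F) (a b w : C), G ∈ R.FK → Divisor.degree Y = 0 →
      (∀ γ, R.act γ • Y = Y) → divisorOf G = m • Y → D.Red G a → D'.Red G b → a ≠ 0 → b ≠ 0 →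
      frob w = b ^ q → PowConst k m (a * w) →
        ∀ v : Place k C, (m : ℤ) ∣ v.ord a ∧ (m : ℤ) ∣ v.ord b)
    (hkill : ∀ a : C, a ≠ 0 → (∀ v : Place k C, (m : ℤ) ∣ v.ord a) →
      (∀ l, PowConst k m ((H l).Tb a / a ^ c l)) → PowConst k m a) :
    ∃ h : F, h ≠ 0 ∧ NodeSystem.IsFlat (D := D) (D' := D') m (X - divisorOf h) := by
  -- the gap of `g` is divisible by `m`
  obtain ⟨c₀, n, z₀, z₀', -, hc₀, hz₀, hz₀', hr₀, hr₀'⟩ := R.exists_gap hA hgK hg
  have hgap : R.Gap g n := ⟨c₀, z₀, z₀', hc₀, hz₀, hz₀', hr₀, hr₀'⟩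
  obtain ⟨l, hl⟩ := hne
  obtain ⟨e, he, heq⟩ := heig l
  have hTgK : (H l).T g ∈ R.FK := (H l).T_FK g hgK
  have hTg : (H l).T g ≠ 0 := (map_ne_zero (H l).T).2 hg
  have hdivT : divisorOf ((H l).T g) = m • (c l • X + divisorOf e) := by
    rw [(H l).div_T g hg, hdiv, map_nsmul, ← heq]
    abel_nf
  have hefix : ∀ γ, R.act γ • divisorOf (K := L) e = divisorOf e := fun γ => by
    refine nsmul_cancel hm ?_
    have h1 : R.act γ • (m • (c l • X + divisorOf e)) = m • (c l • X + divisorOf e) := by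
      rw [← hdivT, ← divisorOf_toRingAut, R.fix_FK γ _ hTgK]
    rw [smul_comm (R.act γ) m, smul_add, smul_comm (R.act γ) (c l), hXfix, smul_add, smul_add] at h1
    exact add_left_cancel h1
  obtain ⟨e', he'K, he', hdive'⟩ : ∃ e' ∈ R.FK, e' ≠ 0 ∧ divisorOf (K := L) e' = divisorOf e := by
    by_contra hall
    push Not at hall
    have hle := R.span_rat (-divisorOf e) fun γ => by rw [smul_neg, hefix]
    have hmem : e ∈ riemannRochSpace (-divisorOf (K := L) e) :=
      mem_rr_iff.2 fun v => ordGe_of_le_ord (by simp)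
    have hzero : Submodule.span L
        ((riemannRochSpace (-divisorOf (K := L) e) : Set F) ∩ R.FK) = ⊥ := by
      refine Submodule.span_eq_bot.2 fun f ⟨hf, hfK⟩ => ?_
      by_contra hf0
      refine hall f hfK hf0 (FLTAgent.GoodRed.eq_of_le_of_degree_eq (fun v => ?_)
        (by rw [degree_divisorOf, degree_divisorOf])).symm
      have := (mem_rr_iff.1 hf v).le_ord hf0
      simpa using this
    rw [hzero] at hle
    exact he (Submodule.mem_bot L |>.1 (hle hmem))
  obtain ⟨ce, ne, we, we', -, hce, hwe, hwe', hre, hre'⟩ := R.exists_gap hA he'K he'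
  have hgape : R.Gap e' ne := ⟨ce, we, we', hce, hwe, hwe', hre, hre'⟩
  obtain ⟨t, ht, hteq⟩ := exists_smul_of_divisorOf_eq (K := L) hTg
    (mul_ne_zero (pow_ne_zero (c l) hg) (pow_ne_zero m he')) (by
      rw [hdivT, divisorOf_mul (pow_ne_zero _ hg) (pow_ne_zero _ he'), divisorOf_pow,
        divisorOf_pow, hdiv, hdive', smul_add, smul_comm m (c l)])
  have hTgap : R.Gap ((H l).T g) (((H l).d : ℤ) * n) := by
    refine ⟨c₀ ^ (H l).d, (H l).Tb z₀, (H l).Tb z₀', pow_ne_zero _ hc₀,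
      (map_ne_zero _).2 hz₀, (map_ne_zero _).2 hz₀', ?_, ?_⟩
    · rw [← (H l).T_smul]; exact (H l).red _ _ hr₀ hz₀
    · rw [mul_comm ((H l).d : ℤ) n, zpow_mul, zpow_natCast, ← mul_pow, ← (H l).T_smul]
      exact (H l).red' _ _ hr₀' hz₀'
  have hsum := hTgap.unique (hteq ▸ (((hgap.pow (c l)).mul (hgape.pow m)).smul ht))
  have hdvd : (m : ℤ) ∣ n :=
    hl.symm.dvd_of_dvd_mul_left ⟨ne, by linear_combination hsum⟩
  obtain ⟨j, rfl⟩ := hdvd
  -- normalise
  obtain ⟨Hf, hHK, hH, hHgap⟩ := R.exists_of_gap esep hesK hes hes' (-j)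
  have hgK' : g * Hf ^ m ∈ R.FK := mul_mem hgK (pow_mem hHK _)
  have hg' : g * Hf ^ m ≠ 0 := mul_ne_zero hg (pow_ne_zero _ hH)
  have hgap' : R.Gap (g * Hf ^ m) 0 := by
    have := hgap.mul (hHgap.pow m)
    rwa [show (m : ℤ) * j + (m : ℤ) * -j = 0 by ring] at this
  obtain ⟨s, n', a, b, hsK, hs, ha0, hb0, ha, hb⟩ := R.exists_gap hA hgK' hg'
  have hn' : n' = 0 := RatStr.Gap.unique ⟨s, a, b, hs, ha0, hb0, ha, hb⟩ hgap'
  rw [hn', zpow_zero, mul_one] at hb
  set G := s • (g * Hf ^ m) with hG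
  set X' := X + divisorOf (K := L) Hf with hX'
  have hX'deg : Divisor.degree X' = 0 := by rw [hX', map_add, hX, degree_divisorOf, add_zero]
  have hX'fix : ∀ γ, R.act γ • X' = X' := fun γ => by
    rw [hX', smul_add, hXfix, ← divisorOf_toRingAut, R.fix_FK γ _ hHK]
  have hdiv' : divisorOf G = m • X' := by
    rw [hG, divisorOf_smul hs hg', divisorOf_mul hg (pow_ne_zero _ hH), divisorOf_pow, hdiv,
      ← smul_add]
  have hpush' : (Divisor.pushforward E X').IsPrincipal := by
    rw [hX', map_add]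
    exact Divisor.principal.add_mem hpush
      (Divisor.isPrincipal_pushforward_of_normFormula pushforwardNormFormula
        ⟨Hf, hH, fun v => divisorOf_apply _ _⟩)
  obtain ⟨w, hw⟩ := hpow b
  have hnorm := hS.powConst_norm hdiv' ha hb ha0 hb0 hw hpush'
  have hd := hdvd G X' a b w (R.smul_mem hsK hgK') hX'deg hX'fix hdiv' ha hb ha0 hb0 hw hnorm
  have heig' : ∀ l, ∃ e, e ≠ 0 ∧ (H l).Tdiv X' - c l • X' = divisorOf e := fun l => by
    obtain ⟨e, he, heq⟩ := heig l
    have h1 : (H l).T Hf ≠ 0 := (map_ne_zero (H l).T).2 hH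
    refine ⟨e * ((H l).T Hf * (Hf ^ c l)⁻¹),
      mul_ne_zero he (mul_ne_zero h1 (inv_ne_zero (pow_ne_zero _ hH))), ?_⟩
    rw [divisorOf_mul he (mul_ne_zero h1 (inv_ne_zero (pow_ne_zero _ hH))),
      divisorOf_mul h1 (inv_ne_zero (pow_ne_zero _ hH)), divisorOf_inv, divisorOf_pow,
      (H l).div_T _ hH, ← heq, hX', map_add, smul_add]
    abel
  have kill : ∀ (Dx : RedDatum A π F C)
      (_ : ∀ l f z, Dx.Red f z → z ≠ 0 → Dx.Red ((H l).T f) ((H l).Tb z)) (r : C),
      Dx.Red G r → r ≠ 0 → (∀ v : Place k C, (m : ℤ) ∣ v.ord r) → PowConst k m r := by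
    intro Dx hDx r hr hr0 hdv
    refine hkill r hr0 hdv fun l => ?_
    obtain ⟨e, he, heq⟩ := heig' l
    exact powConst_eigen (H l) Dx (hDx l) hdiv' hr hr0 he heq
  obtain ⟨h, hh, hflat⟩ := NodeSystem.exists_flat_of_powConst hA hes hes' hX'deg hdiv' ha hb
    (kill D (fun l => (H l).red) a ha ha0 fun v => (hd v).1)
    (kill D' (fun l => (H l).red') b hb hb0 fun v => (hd v).2)
  refine ⟨h / Hf, div_ne_zero hh hH, ?_⟩
  have hXX : X - divisorOf (K := L) (h / Hf) = X' - divisorOf h := by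
    rw [hX', div_eq_mul_inv, divisorOf_mul hh (inv_ne_zero hH), divisorOf_inv]
    abel
  rwa [hXX]

end FLTAgent.LevelLower
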