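import Fermat.Agent.LevelLower.Crossing
import Fermat.Agent.LevelLower.Flatten

/-!
# Divisibility through an auxiliary level

If the degree of the auxiliary covering is prime to `m`, the divisibility of the orders of the two
reductions at the auxiliary level gives it below.  Flatness passes up by pullback.
-/

set_option autoImplicit false
set_option linter.unusedSectionVars false

noncomputable section

open AlgebraicCurve SemilinearAut

namespace FLTAgent.LevelLower

open FLTAgent.GoodRed FLTAgent.GoodRed.RedDatum FLTAgent.FunctionField FLTAgent.Semistable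

section pullback

variable {K G G' : Type*} [Field K] [Field G] [Field G'] [Algebra K G] [Algebra K G']
  [Algebra G G'] [IsScalarTower K G G'] [IsFunctionField K G] [IsFunctionField K G']
  [IsAlgClosed K] [Module.Finite G G']

theorem divisorOf_algebraMap (f : G) :
    divisorOf (K := K) (algebraMap G G' f) = Divisor.pullback G' (divisorOf (K := K) f) := by
  ext w
  rw [divisorOf_apply, Divisor.pullback_apply_eq_ord (fun v => divisorOf_apply f v)]

theorem degree_pullback_eq_zero {X : Divisor K G} (h : Divisor.degree X = 0) :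
    Divisor.degree (Divisor.pullback G' X) = 0 := by
  rw [Divisor.degree_pullback, h, mul_zero]

/-- Divisibility of orders descends along coverings of degree prime to `m`. -/
theorem dvd_ord_of_map {m : ℕ} (hcop : Nat.Coprime m (Module.finrank G G')) {z : G}
    (h : ∀ w : Place K G', (m : ℤ) ∣ w.ord (algebraMap G G' z)) (v : Place K G) :
    (m : ℤ) ∣ v.ord z := by
  rcases eq_or_ne z 0 with rfl | hz
  · simp
  have h1 := ord_norm (F' := G') v ((map_ne_zero (algebraMap G G')).2 hz)
  rw [Algebra.norm_algebraMap, FunctionField.ord_pow] at h1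
  have h2 : (m : ℤ) ∣ (Module.finrank G G' : ℤ) * v.ord z :=
    h1 ▸ Finset.dvd_sum fun w _ => Dvd.dvd.mul_right (h w) _
  exact (Nat.isCoprime_iff_coprime.2 hcop).dvd_of_dvd_mul_left h2

end pullback

variable {L k : Type*} [Field L] [Field k] {A : ValuationSubring L} {π : A →+* k}
  {F C : Type*} [Field F] [Algebra L F] [Field C] [Algebra k C]
  [IsFunctionField L F] [IsFunctionField k C] [IsAlgClosed L] [IsAlgClosed k]
  {D D' : RedDatum A π F C} {frob : C →ₐ[k] C} {q : ℕ}
  {E₁ F₁ C₁ : Type*} [Field E₁] [Algebra L E₁] [Field F₁] [Algebra L F₁] [Algebra E₁ F₁]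
  [IsScalarTower L E₁ F₁] [Field C₁] [Algebra k C₁] [IsFunctionField L E₁] [IsFunctionField L F₁]
  [IsFunctionField k C₁] [Module.Finite E₁ F₁]
  [Algebra F F₁] [IsScalarTower L F F₁] [Algebra C C₁] [IsScalarTower k C C₁]
  {DE₁ : RedDatum A π E₁ C₁} {D₁ D₁' : RedDatum A π F₁ C₁} {frob₁ : C₁ →ₐ[k] C₁}
  {ι : Type*} [Fintype ι] (S : CrossData DE₁ D₁ D₁' frob₁ q ι) [CharP k q]
  [Module.Finite F F₁] [Module.Finite C C₁]

/-- A map of levels compatible with both reductions, rationality and Frobenius. -/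
structure LevelMap (GS : GalStr D D') (R : RatData S) (frob : C →ₐ[k] C) : Prop where
  red : ∀ f z, D.Red f z → D₁.Red (algebraMap F F₁ f) (algebraMap C C₁ z)
  red' : ∀ f z, D'.Red f z → D₁'.Red (algebraMap F F₁ f) (algebraMap C C₁ z)
  frob_comm : ∀ z, algebraMap C C₁ (frob z) = frob₁ (algebraMap C C₁ z)
  map_fix : ∀ X : Divisor L F, (∀ γ, GS.act γ • X = X) →
    ∀ γ, R.act γ • Divisor.pullback F₁ X = Divisor.pullback F₁ X

variable {S} {GS : GalStr D D'} {R : RatData S} (hmap : LevelMap S GS R frob)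
include hmap

/-- The divisibility hypothesis of `exists_flat` from an auxiliary level. -/
theorem LevelMap.dvd_ord (hA : IsRankOne A) {m : ℕ} (hm : 0 < m)
    (hcop : Nat.Coprime m (Module.finrank C C₁)) {G : F} {Y : Divisor L F} {a b w : C}
    (hY : Divisor.degree Y = 0) (hYfix : ∀ γ, GS.act γ • Y = Y)
    (hdiv : divisorOf G = m • Y) (ha : D.Red G a) (hb : D'.Red G b) (ha0 : a ≠ 0) (hb0 : b ≠ 0)
    (hw : frob w = b ^ q) (hp : PowConst k m (a * w)) (v : Place k C) :
    (m : ℤ) ∣ v.ord a ∧ (m : ℤ) ∣ v.ord b := by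
  have ha1 : algebraMap C C₁ a ≠ 0 := (map_ne_zero _).2 ha0
  have hb1 : algebraMap C C₁ b ≠ 0 := (map_ne_zero _).2 hb0
  have hp1 : PowConst k m (algebraMap C C₁ a * algebraMap C C₁ w) := by
    obtain ⟨t, z, ht, hz, hh⟩ := hp
    refine ⟨t, algebraMap C C₁ z, ht, (map_ne_zero _).2 hz, ?_⟩
    rw [← map_mul, hh, map_mul, map_pow, ← IsScalarTower.algebraMap_apply]
  have h := fun u : Place k C₁ => dvd_ord_of_norm S R hA hm (degree_pullback_eq_zero hY)
    (hmap.map_fix Y hYfix) ((map_ne_zero _).2 (ha.ne_zero ha0))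
    (by rw [divisorOf_algebraMap, hdiv, map_nsmul]) (hmap.red _ _ ha) (hmap.red' _ _ hb) ha1 hb1
    (by rw [← hmap.frob_comm, hw, map_pow]) hp1 u
  exact ⟨dvd_ord_of_map hcop (fun u => (h u).1) v, dvd_ord_of_map hcop (fun u => (h u).2) v⟩

/-- Flatness passes to the auxiliary level. -/
theorem LevelMap.isFlat_pullback {m : ℕ} {X : Divisor L F}
    (h : NodeSystem.IsFlat (D := D) (D' := D') m X) :
    NodeSystem.IsFlat (D := D₁) (D' := D₁') m (Divisor.pullback F₁ X) := by
  obtain ⟨hX, f, hf, hdiv, t, t', ht, ht', hr, hr'⟩ := h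
  refine ⟨degree_pullback_eq_zero hX, algebraMap F F₁ f, (map_ne_zero _).2 hf,
    by rw [divisorOf_algebraMap, hdiv, map_nsmul], t, t', ht, ht', ?_, ?_⟩
  · rw [IsScalarTower.algebraMap_apply k C C₁]; exact hmap.red _ _ hr
  · rw [IsScalarTower.algebraMap_apply k C C₁]; exact hmap.red' _ _ hr'

end FLTAgent.LevelLower
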