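import Fermat.Agent.LevelLower.AuxData
import Fermat.Agent.LevelLower.Descend
import Fermat.Agent.GoodRed.X0Degeneracy
import Fermat.Agent.Hecke.PsiMul

/-!
# The map to an auxiliary level `M' q`, `M ∣ M'`
-/

set_option autoImplicit false
set_option linter.style.haveILetI false
set_option linter.unusedSectionVars false
set_option synthInstance.maxHeartbeats 100000

noncomputable section

open ModularCurve AlgebraicCurve SemilinearAut IsLocalRing

namespace FLTAgent.LevelLower

open FLTAgent.GoodRed FLTAgent.GoodRed.RedDatum FLTAgent.Semistable FLTAgent.FunctionField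
  FLTAgent.Hecke

local notation "Qbar" => AlgebraicClosure ℚ
local notation "Γℚ" => AlgebraicClosure ℚ ≃ₐ[ℚ] AlgebraicClosure ℚ

/-- Shortcut: the constants inside the function fields. -/
local instance (priority := high) instAlgebraMFLLMap {K : Type*} [Field K] [Algebra ℚ K] (N : ℕ) [NeZero N] :
    Algebra K (MF K N) :=
  SubalgebraClass.toAlgebra (MF K N)

/-- Shortcut: the constants inside the full function fields. -/
local instance (priority := high) instAlgebraFullCLLMap {K : Type*} [Field K] (N : ℕ) [NeZero N] :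
    Algebra K (modularFunctionFieldFullC K N) :=
  SubalgebraClass.toAlgebra (modularFunctionFieldFullC K N)

section factor

/-- The auxiliary factor removing the elliptic points. -/
def auxFactor (q : ℕ) : ℕ := if q = 3 then 4 else 9

theorem not_dvd_auxFactor {q : ℕ} (hq : q.Prime) : ¬ q ∣ auxFactor q := by
  unfold auxFactor
  split_ifs with h
  · subst h; norm_num
  · intro hd
    exact h ((Nat.prime_dvd_prime_iff_eq hq Nat.prime_three).1
      (hq.dvd_of_dvd_pow (m := 3) (n := 2) (by norm_num; exact hd)))

theorem auxFactor_ne_zero (q : ℕ) : auxFactor q ≠ 0 := by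
  unfold auxFactor; split_ifs <;> norm_num

theorem coprime_psi_step {M r p : ℕ} (hM : M ≠ 0) (hr : r.Prime) (hr3 : r ≤ 3) (hp : p.Prime)
    (hp5 : 5 ≤ p) : ∃ a, Nat.Coprime p a ∧ dedekindPsi (M * r) = a * dedekindPsi M := by
  have key : ∀ a, 0 < a → a < 5 → Nat.Coprime p a := fun a h0 h5 =>
    (hp.coprime_iff_not_dvd).2 fun hd => by
      have := Nat.le_of_dvd h0 hd
      omega
  have := hr.two_le
  by_cases h : r ∣ M
  · exact ⟨r, key r hr.pos (by omega), dedekindPsi_mul_prime_of_dvd hM hr h⟩
  · exact ⟨r + 1, key _ (by omega) (by omega), dedekindPsi_mul_prime_of_not_dvd hM hr h⟩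

theorem coprime_psi_aux {M p q : ℕ} (hM : M ≠ 0) (hp : p.Prime) (hp5 : 5 ≤ p) :
    ∃ a, Nat.Coprime p a ∧ dedekindPsi (M * auxFactor q) = a * dedekindPsi M := by
  obtain ⟨r, hr, hr3, hrq⟩ : ∃ r : ℕ, r.Prime ∧ r ≤ 3 ∧ auxFactor q = r * r := by
    unfold auxFactor
    split_ifs
    · exact ⟨2, Nat.prime_two, by norm_num, rfl⟩
    · exact ⟨3, Nat.prime_three, le_rfl, rfl⟩
  obtain ⟨a, ha, e⟩ := coprime_psi_step hM hr hr3 hp hp5
  obtain ⟨b, hb, e'⟩ := coprime_psi_step (mul_ne_zero hM hr.ne_zero) hr hr3 hp hp5
  exact ⟨b * a, hb.mul_right ha, by rw [hrq, ← mul_assoc, e', e, mul_assoc]⟩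

end factor

section map

variable {A : ValuationSubring (AlgebraicClosure ℚ)} {q : ℕ} [Fact q.Prime]
  {M M' : ℕ} [NeZero M] [NeZero M']

local instance instNeZeroQAuxMap : NeZero q := ⟨(Fact.out : q.Prime).ne_zero⟩
local instance instNeZeroLevelAuxMap : NeZero (M * q) :=
  ⟨Nat.mul_ne_zero (NeZero.ne M) (Fact.out : q.Prime).ne_zero⟩
local instance instNeZeroLevelAuxMap' : NeZero (M' * q) :=
  ⟨Nat.mul_ne_zero (NeZero.ne M') (Fact.out : q.Prime).ne_zero⟩

variable (q) in
/-- The pullback of functions to the auxiliary level. -/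
def upMap (h : M ∣ M') : MF Qbar (M * q) →ₐ[Qbar] MF Qbar (M' * q) :=
  degMap Qbar 1 (by rw [mul_one]; exact Nat.mul_dvd_mul_right h q)

/-- The same on the reductions. -/
def upBar (K : Type*) [Field K] (h : M ∣ M') :
    modularFunctionFieldFullC K M →ₐ[K] modularFunctionFieldFullC K M' :=
  degBarK K 1 (by rw [mul_one]; exact h)

theorem coe_upMap (h : M ∣ M') (x : MF Qbar (M * q)) :
    (upMap q h x : LaurentSeries Qbar) = (x : LaurentSeries Qbar) := by
  rw [upMap, coe_degMap, qExpand_one_apply]

theorem coe_upBar (K : Type*) [Field K] (h : M ∣ M') (x : modularFunctionFieldFullC K M) :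
    (upBar K h x : LaurentSeries K) = (x : LaurentSeries K) := by
  rw [upBar, coe_degBarK, qExpand_one_apply]

theorem upMap_galAct (h : M ∣ M') (σ : Γℚ) (u : MF Qbar (M * q)) :
    toRingAut (galAct (M' * q) σ) (upMap q h u) = upMap q h (toRingAut (galAct (M * q) σ) u) :=
  galAct_degMap (d := 1) _ σ u

theorem upMap_swapW (h : M ∣ M') (hqM : ¬ q ∣ M) (hqM' : ¬ q ∣ M') (u : MF Qbar (M * q)) :
    upMap q h (swapW M hqM u) = swapW M' hqM' (upMap q h u) := by
  refine DFunLike.congr_fun (algHom_ext_alpha_beta M (q := q)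
    (φ := (upMap q h).comp (swapW M hqM).toAlgHom)
    (ψ := (swapW M' hqM').toAlgHom.comp (upMap q h)) (fun v => ?_) fun v => ?_) u
  · have e : upMap q h (alphaMap Qbar M q v) =
        alphaMap Qbar M' q (degMap Qbar 1 (by rw [mul_one]; exact h) v) :=
      Subtype.ext (by rw [coe_upMap, coe_alphaMap, coe_alphaMap, coe_degMap, qExpand_one_apply])
    show upMap q h (swapW M hqM (alphaMap Qbar M q v)) =
      swapW M' hqM' (upMap q h (alphaMap Qbar M q v))
    rw [e, swapW_alpha, swapW_alpha]
    exact Subtype.ext (by rw [coe_upMap, coe_betaMap, coe_betaMap, coe_degMap, qExpand_one_apply])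
  · have e : upMap q h (betaMap Qbar M q v) =
        betaMap Qbar M' q (degMap Qbar 1 (by rw [mul_one]; exact h) v) :=
      Subtype.ext (by rw [coe_upMap, coe_betaMap, coe_betaMap, coe_degMap, qExpand_one_apply])
    show upMap q h (swapW M hqM (betaMap Qbar M q v)) =
      swapW M' hqM' (upMap q h (betaMap Qbar M q v))
    rw [e, swapW_beta, swapW_beta]
    exact Subtype.ext (by rw [coe_upMap, coe_alphaMap, coe_alphaMap, coe_degMap, qExpand_one_apply])

theorem finrankAlong_upBar (hA : A.LiesOverPrime q) (h : M ∣ M') (hqM : ¬ q ∣ M)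
    (hqM' : ¬ q ∣ M') :
    dedekindPsi M * finrankAlong (ResidueField A) (upBar (ResidueField A) h) =
      dedekindPsi M' := by
  have e := noDefect_degeneracy A hA hqM hqM' 1 (Or.inl rfl)
    (degMap Qbar 1 (show M * 1 ∣ M' by rw [mul_one]; exact h)) (upBar (ResidueField A) h)
    (fun y => coe_degMap _ _ _ y) (fun z => coe_degBarK _ _ _ z)
  rw [← finrankAlong_degMap (degreeFacts Qbar) (show M * 1 ∣ M' by rw [mul_one]; exact h)]
  exact congrArg (dedekindPsi M * ·) e

variable {hA : A.LiesOverPrime q} [CharP (ResidueField A) q] [IsAlgClosed (ResidueField A)]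
  {hqM : ¬ q ∣ M} {hqM' : ¬ q ∣ M'}
  [IsFunctionField (ResidueField A) (modularFunctionFieldFullC (ResidueField A) M)]
  [IsFunctionField (ResidueField A) (modularFunctionFieldFullC (ResidueField A) M')]

/-- `F_{M' q}` as an extension of `F_{M'}` along the first degeneracy map. -/
local instance algAlphaAuxMap : Algebra (MF Qbar M') (MF Qbar (M' * q)) :=
  algebraAlong (alphaMap Qbar M' q)

local instance towerAlphaAuxMap : IsScalarTower Qbar (MF Qbar M') (MF Qbar (M' * q)) :=
  isScalarTower_along (alphaMap Qbar M' q)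

local instance finiteAlphaAuxMap : Module.Finite (MF Qbar M') (MF Qbar (M' * q)) :=
  finite_alongAlpha M'

variable {ι : Type*} [Fintype ι]
  (X : CrossData (x0Datum A hA M' hqM') (redInf A hA M' hqM') (redZero A hA M' hqM')
    (frobC (K := ResidueField A) q M') q ι)

set_option maxHeartbeats 1600000 in
-- the statement mentions several large fields
/-- The map of levels. -/
theorem auxLevelMap (h : M ∣ M') (hx : Set.range X.x = crossingSet A hA hqM')
    (hG : ∀ σ : Γℚ, galAct M' σ • X.G₁ = X.G₁) :
    letI := algebraAlong (upMap q h)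
    letI := algebraAlong (upBar (ResidueField A) h)
    haveI := isScalarTower_along (upMap q h)
    haveI := isScalarTower_along (upBar (ResidueField A) h)
    haveI : Module.Finite (MF Qbar (M * q)) (MF Qbar (M' * q)) :=
      finiteAlong_of_isFunctionField (upMap q h)
    haveI : Module.Finite (modularFunctionFieldFullC (ResidueField A) M)
      (modularFunctionFieldFullC (ResidueField A) M') :=
      finiteAlong_of_isFunctionField (upBar (ResidueField A) h)
    LevelMap X (levelRat A hA M hqM) (auxRat X hx hG) (frobC (K := ResidueField A) q M) := by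
  letI := algebraAlong (upMap q h)
  letI := algebraAlong (upBar (ResidueField A) h)
  haveI := isScalarTower_along (upMap q h)
  haveI := isScalarTower_along (upBar (ResidueField A) h)
  haveI : Module.Finite (MF Qbar (M * q)) (MF Qbar (M' * q)) :=
    finiteAlong_of_isFunctionField (upMap q h)
  have red : ∀ f z, (redInf A hA M hqM).Red f z →
      (redInf A hA M' hqM').Red (upMap q h f) (upBar (ResidueField A) h z) := fun f z hr => by
    rw [redInf_iff, coe_upMap, coe_upBar, ← redInf_iff hA hqM]
    exact hr
  refine { red := red, red' := fun f z hr => ?_, frob_comm := fun z => ?_, map_fix := fun Y hY γ => ?_ }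
  · show (redZero A hA M' hqM').Red (upMap q h f) (upBar (ResidueField A) h z)
    rw [redZero_iff, ← upMap_swapW h hqM hqM']
    exact red _ _ ((redZero_iff hA hqM).1 hr)
  · refine Subtype.ext ?_
    show (upBar (ResidueField A) h (frobC (K := ResidueField A) q M z) : LaurentSeries (ResidueField A)) = _
    rw [coe_upBar]
    show _ = (frobC (K := ResidueField A) q M' (upBar (ResidueField A) h z) : LaurentSeries (ResidueField A))
    rw [coe_frobC, coe_frobC, coe_upBar]
  · show galAct (M' * q) γ.1 • Divisor.pullback (MF Qbar (M' * q)) Y = _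
    rw [pullback_smul_of_intertwines (galAct (M * q) γ.1) (galAct (M' * q) γ.1) (upMap_galAct h γ.1)]
    exact congrArg _ (hY γ)

end map

end FLTAgent.LevelLower
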