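import Fermat.Agent.Semistable.Nodal
import Fermat.Agent.FunctionField.RiemannRoch

/-!
# Orders of the two reductions of a function with divisor divisible by `m`

If `div g = m • X` and the orders of the two reductions of `g` at corresponding places add up to
multiples of `m`, then a dimension count on `L(n B + X)` shows that these orders are multiples of
`m` away from the crossings, and produces, for every other crossing, a function of `L(n B + X)`
whose reductions have the smallest possible orders there.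
-/

set_option autoImplicit false
set_option linter.unusedSectionVars false
set_option linter.style.haveILetI false

noncomputable section

open AlgebraicCurve

namespace FLTAgent.LevelLower

open FLTAgent.GoodRed FLTAgent.GoodRed.RedDatum FLTAgent.FunctionField FLTAgent.Semistable

section floorDiv

variable {K G : Type*} [Field K] [Field G] [Algebra K G] [IsFunctionField K G]

/-- The largest divisor whose multiple by `m` is below the divisor of `a`. -/
def floorDiv (m : ℕ) (a : G) : Divisor K G :=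
  Finsupp.mapRange (fun z : ℤ => z / (m : ℤ)) (Int.zero_ediv _) (divisorOf a)

theorem floorDiv_apply (m : ℕ) (a : G) (v : Place K G) :
    (floorDiv m a : Divisor K G) v = v.ord a / (m : ℤ) := by
  rw [floorDiv, Finsupp.mapRange_apply, divisorOf_apply]

theorem floorDiv_support_subset (m : ℕ) (a : G) :
    (floorDiv (K := K) m a).support ⊆ (divisorOf (K := K) a).support :=
  Finsupp.support_mapRange

theorem pow_mul_mem_iff {m : ℕ} (hm : 0 < m) {P : Divisor K G} {a z : G} (ha : a ≠ 0)
    (h : z ^ m * a ∈ riemannRochSpace (m • P)) :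
    z ∈ riemannRochSpace (P + floorDiv m a) := by
  rw [mem_rr_iff] at h ⊢
  intro v
  rcases eq_or_ne z 0 with rfl | hz
  · exact ordGe_zero _
  refine ordGe_of_le_ord ?_
  have h1 := (h v).le_ord (mul_ne_zero (pow_ne_zero m hz) ha)
  rw [v.ord_mul (pow_ne_zero m hz) ha, FunctionField.ord_pow, Finsupp.smul_apply,
    nsmul_eq_mul] at h1
  have hm' : (0 : ℤ) < m := by exact_mod_cast hm
  have h2 : -v.ord z - P v ≤ v.ord a / (m : ℤ) := (Int.le_ediv_iff_mul_le hm').2 (by linarith)
  rw [Finsupp.add_apply, floorDiv_apply]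
  linarith

end floorDiv

section bound

variable {k C : Type*} [Field k] [Field C] [Algebra k C] [IsFunctionField k C] [IsAlgClosed k]

/-- Prescribed leading values in a Riemann-Roch space. -/
theorem exists_leading {ι : Type*} [Fintype ι] {gC c : ℤ} (hk : RRLarge k C gC c)
    {x : ι → Place k C} (hx : Function.Injective x) {P : Divisor k C}
    (hd : c + Fintype.card ι ≤ Divisor.degree P) {u : ι → C} (hu0 : ∀ i, u i ≠ 0)
    (hu : ∀ i, (x i).ord (u i) = P (x i)) (t : ι → k) :
    ∃ f ∈ riemannRochSpace P, ∀ i, valAt (x i) (f * u i) = t i := by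
  classical
  have hreg : ∀ i, ∀ f ∈ riemannRochSpace P, OrdGe (x i) 0 (f * u i) := fun i f hf =>
    ((mem_rr_iff.1 hf (x i)).mul (ordGe_ord (u i))).mono (by rw [hu]; omega)
  have hone : ∀ i, ∃ f ∈ riemannRochSpace P, valAt (x i) (f * u i) ≠ 0 ∧
      ∀ j, j ≠ i → valAt (x j) (f * u j) = 0 := by
    intro i
    set E : Divisor k C := ∑ j ∈ Finset.univ.erase i, Finsupp.single (x j) 1 with hE
    have hEdeg : Divisor.degree E = (Fintype.card ι : ℤ) - 1 := by
      have hpos : 1 ≤ Fintype.card ι := Fintype.card_pos_iff.2 ⟨i⟩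
      rw [hE, map_sum, Finset.sum_congr rfl fun j _ => degree_single_one (x j), Finset.sum_const,
        Finset.card_erase_of_mem (Finset.mem_univ i), Finset.card_univ]
      simp [Nat.cast_sub hpos]
    have hEx : ∀ j, E (x j) = if j = i then 0 else 1 := fun j => by
      rw [hE, Finset.sum_apply']
      simp only [Finsupp.single_apply, hx.eq_iff, Finset.sum_ite_eq', Finset.mem_erase,
        Finset.mem_univ, and_true]
      split <;> simp_all
    have hE0 : 0 ≤ E := Finset.sum_nonneg fun j _ => Finsupp.single_nonneg.2 zero_le_one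
    obtain ⟨f, hf, hf0, hord⟩ := hk.exists_ord_eq_neg (D := P - E)
      (by rw [map_sub, hEdeg]; omega) (x i)
    rw [Finsupp.sub_apply, hEx, if_pos rfl, sub_zero] at hord
    refine ⟨f, riemannRochSpace_mono (sub_le_self P hE0) hf, fun h0 => ?_,
      fun j hj => valAt_eq ?_⟩
    · have hmul := (x i).ord_mul hf0 (hu0 i)
      rw [hord, hu, neg_add_cancel] at hmul
      have h1 := valAt_spec (v := x i) (f := f * u i) (ordGe_of_le_ord (by omega))
      rw [h0, map_zero, sub_zero] at h1
      have := h1.le_ord (mul_ne_zero hf0 (hu0 i))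
      omega
    · rw [map_zero, sub_zero]
      refine ((mem_rr_iff.1 hf (x j)).mul (ordGe_ord (u j))).mono ?_
      rw [Finsupp.sub_apply, hu, hEx, if_neg hj]
      omega
  choose f hf hne hzero using hone
  refine ⟨∑ i, (t i / valAt (x i) (f i * u i)) • f i,
    Submodule.sum_mem _ fun i _ => Submodule.smul_mem _ _ (hf i), fun i => ?_⟩
  rw [Finset.sum_mul, valAt_sum _ fun j _ => hreg i _ (Submodule.smul_mem _ _ (hf j)),
    Finset.sum_eq_single i]
  · rw [smul_mul_assoc, valAt_smul _ (hreg i _ (hf i)), div_mul_cancel₀ _ (hne i)]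
  · intro j _ hj
    rw [smul_mul_assoc, valAt_smul _ (hreg i _ (hf j)), hzero j i (Ne.symm hj), mul_zero]
  · exact fun h => absurd (Finset.mem_univ i) h

/-- Two regular linear functions with proportional `m`-th powers are proportional. -/
theorem exists_ratio {V : Type*} [AddCommGroup V] [Module k V] (α β : V →ₗ[k] k) {m : ℕ}
    (hm : 0 < m) {c : k} (h : ∀ v, β v ^ m = c * α v ^ m) :
    ∃ ζ : k, ∀ v, β v = ζ * α v := by
  by_cases hall : ∀ v, α v = 0
  · refine ⟨0, fun v => ?_⟩
    rw [zero_mul]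
    refine eq_zero_of_pow_eq_zero (n := m) ?_
    rw [h, hall, zero_pow hm.ne', mul_zero]
  push Not at hall
  obtain ⟨v₀, hv₀⟩ := hall
  refine ⟨β v₀ / α v₀, fun v => ?_⟩
  have h1 := h (v - (α v / α v₀) • v₀)
  rw [map_sub, map_sub, map_smul, map_smul, smul_eq_mul, smul_eq_mul,
    div_mul_cancel₀ _ hv₀, sub_self, zero_pow hm.ne', mul_zero] at h1
  have h2 := sub_eq_zero.1 (eq_zero_of_pow_eq_zero h1)
  rw [h2]
  field_simp

end bound

variable {L k : Type*} [Field L] [Field k] {A : ValuationSubring L} {π : A →+* k}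
  {F C C' : Type*} [Field F] [Algebra L F] [Field C] [Algebra k C] [Field C'] [Algebra k C']
  [IsFunctionField L F] [IsFunctionField k C] [IsFunctionField k C'] [IsAlgClosed L]
  [IsAlgClosed k] {D : RedDatum A π F C} {D' : RedDatum A π F C'} {ι : Type*} [Fintype ι]
  (N : NodeSystem D D' ι)

/-- The `m`-th power times `g` of a function of `L(n B + X)`. -/
theorem pow_mul_mem {m : ℕ} (hm : 0 < m) {X : Divisor L F} {g : F} (hg : g ≠ 0)
    (hdiv : divisorOf g = m • X) (n : ℕ) {f : F}
    (hf : f ∈ riemannRochSpace (N.Bd n 0 + X)) :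
    f ^ m * g ∈ riemannRochSpace (N.Bd (m * n) (m * 0)) := by
  rw [N.Bd_mul, mem_rr_iff]
  intro v
  have h1 : OrdGe v ((m : ℤ) * (-(N.Bd n 0 + X) v)) (f ^ m) := by
    rcases eq_or_ne f 0 with rfl | hf0
    · rw [zero_pow hm.ne']; exact ordGe_zero _
    refine ordGe_of_le_ord ?_
    rw [FunctionField.ord_pow]
    exact mul_le_mul_of_nonneg_left ((mem_rr_iff.1 hf v).le_ord hf0) (Nat.cast_nonneg m)
  have h2 : v.ord g = (m : ℤ) * X v := by
    simpa using congrArg (fun Y : Divisor L F => Y v) hdiv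
  refine (h1.mul (ordGe_ord g)).mono ?_
  simp only [Finsupp.add_apply, Finsupp.smul_apply, nsmul_eq_mul, h2]
  linarith

/-- The pairs of reductions of `L(n B + X)` are bounded by the orders of the reductions of `g`. -/
theorem pairSpace_bound {m : ℕ} (hm : 0 < m) {X : Divisor L F} {g : F} (hg : g ≠ 0)
    (hdiv : divisorOf g = m • X) {a : C} {b : C'} (ha : D.Red g a) (hb : D'.Red g b) (ha0 : a ≠ 0)
    (hb0 : b ≠ 0) (n : ℕ) {p : C × C'}
    (hp : p ∈ pairSpace D D' (riemannRochSpace (N.Bd n 0 + X))) :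
    p.1 ∈ riemannRochSpace (N.Pd n 0 + floorDiv m a) ∧
      p.2 ∈ riemannRochSpace (N.Qd n 0 + floorDiv m b) ∧
      ∀ i, valAt (N.x i) (p.1 ^ m * a) = valAt (N.y i) (p.2 ^ m * b) := by
  obtain ⟨f, hf, hfa, hfb⟩ := hp
  have hmem := pow_mul_mem N hm hg hdiv n hf
  have hra := (hfa.pow m).mul ha
  have hrb := (hfb.pow m).mul hb
  obtain ⟨hA, hB⟩ := N.red_mem _ _ _ _ _ hmem hra hrb
  refine ⟨pow_mul_mem_iff hm ha0 ?_, pow_mul_mem_iff hm hb0 ?_,
    fun i => N.agree _ _ _ _ _ hmem hra hrb i⟩
  · rw [← N.Pd_mul]; exact hA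
  · rw [← N.Qd_mul]; exact hB

theorem sum_floor {m : ℕ} (hm : 0 < m) {a : C} {b : C'} (φ : Place k C ≃ Place k C')
    (hpair : ∀ v, (m : ℤ) ∣ v.ord a + (φ v).ord b) :
    ∃ T : Finset (Place k C), (∀ v, v ∈ T ↔ ¬(m : ℤ) ∣ v.ord a) ∧
      Divisor.degree (floorDiv m a : Divisor k C) + Divisor.degree (floorDiv m b : Divisor k C')
        = -(T.card : ℤ) := by
  classical
  set U : Finset (Place k C) := (divisorOf (K := k) a).support ∪
    ((divisorOf (K := k) b).support.map φ.symm.toEmbedding) with hU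
  have hsum : ∀ {E : Divisor k C}, E.support ⊆ U → Divisor.degree E = ∑ v ∈ U, E v := by
    intro E hE
    rw [degree_eq_sum_apply]
    exact Finset.sum_subset hE fun v _ hv => Finsupp.notMem_support_iff.1 hv
  have hsum' : ∀ {E : Divisor k C'}, E.support ⊆ (divisorOf (K := k) b).support →
      Divisor.degree E = ∑ v ∈ U, E (φ v) := by
    intro E hE
    rw [degree_eq_sum_apply, show (∑ v ∈ U, E (φ v)) = ∑ w ∈ U.map φ.toEmbedding, E w from
      (Finset.sum_map U φ.toEmbedding (fun w => E w)).symm]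
    refine Finset.sum_subset (fun w hw => ?_) fun w _ hw => Finsupp.notMem_support_iff.1 hw
    refine Finset.mem_map.2 ⟨φ.symm w, Finset.mem_union_right _ ?_, φ.apply_symm_apply w⟩
    exact Finset.mem_map.2 ⟨w, hE hw, rfl⟩
  set T := U.filter fun v => ¬(m : ℤ) ∣ v.ord a with hT
  refine ⟨T, fun v => ?_, ?_⟩
  · simp only [hT, Finset.mem_filter, and_iff_right_iff_imp]
    intro hv
    refine Finset.mem_union_left _ (Finsupp.mem_support_iff.2 fun h0 => hv ?_)
    rw [divisorOf_apply] at h0
    rw [h0]; exact dvd_zero _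
  have h0a : ∑ v ∈ U, v.ord a = 0 := by
    have := hsum (E := divisorOf a) Finset.subset_union_left
    rw [degree_divisorOf] at this
    simpa [divisorOf_apply] using this.symm
  have h0b : ∑ v ∈ U, (φ v).ord b = 0 := by
    have := hsum' (E := divisorOf b) subset_rfl
    rw [degree_divisorOf] at this
    simpa [divisorOf_apply] using this.symm
  have key : ∀ v, (m : ℤ) * (v.ord a / (m : ℤ) + (φ v).ord b / (m : ℤ))
      = v.ord a + (φ v).ord b - (m : ℤ) * (if ¬(m : ℤ) ∣ v.ord a then 1 else 0) := by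
    intro v
    have hm' : (0 : ℤ) < m := by exact_mod_cast hm
    have h1 := Int.emod_add_mul_ediv (v.ord a) (m : ℤ)
    have h2 := Int.emod_add_mul_ediv ((φ v).ord b) (m : ℤ)
    have h3 := Int.emod_nonneg (v.ord a) hm'.ne'
    have h4 := Int.emod_nonneg ((φ v).ord b) hm'.ne'
    have h5 := Int.emod_lt_of_pos (v.ord a) hm'
    have h6 := Int.emod_lt_of_pos ((φ v).ord b) hm'
    have h7 : (m : ℤ) ∣ v.ord a % m + (φ v).ord b % m := by
      have : v.ord a % (m : ℤ) + (φ v).ord b % (m : ℤ)
          = (v.ord a + (φ v).ord b) - (m : ℤ) * (v.ord a / (m : ℤ) + (φ v).ord b / (m : ℤ)) := by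
        linarith
      rw [this]
      exact dvd_sub (hpair v) (dvd_mul_right _ _)
    obtain ⟨e, he⟩ := h7
    by_cases hd : (m : ℤ) ∣ v.ord a
    · rw [if_neg (not_not.2 hd)]
      have h8 : v.ord a % (m : ℤ) = 0 := Int.emod_eq_zero_of_dvd hd
      have h9 : e = 0 := by
        rcases lt_trichotomy e 0 with he0 | he0 | he0
        · nlinarith
        · exact he0
        · nlinarith
      rw [h9, mul_zero, h8, zero_add] at he
      linarith
    · rw [if_pos hd]
      have h8 : 0 < v.ord a % (m : ℤ) := lt_of_le_of_ne h3 fun h0 =>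
        hd (Int.dvd_of_emod_eq_zero h0.symm)
      have h9 : e = 1 := by
        rcases lt_trichotomy e 1 with he0 | he0 | he0
        · have : (m : ℤ) * e ≤ 0 := mul_nonpos_of_nonneg_of_nonpos hm'.le (by omega)
          linarith
        · exact he0
        · nlinarith
      rw [h9, mul_one] at he
      linarith
  have hm0 : (m : ℤ) ≠ 0 := by exact_mod_cast hm.ne'
  refine mul_left_cancel₀ hm0 ?_
  rw [hsum ((floorDiv_support_subset m a).trans Finset.subset_union_left),
    hsum' (floorDiv_support_subset m b), ← Finset.sum_add_distrib, Finset.mul_sum]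
  simp only [floorDiv_apply]
  rw [Finset.sum_congr rfl fun v _ => key v, Finset.sum_sub_distrib, Finset.sum_add_distrib, h0a,
    h0b, ← Finset.mul_sum, Finset.sum_boole]
  simp [hT]

/-- The count.  `φ` extends the pairing of the crossings. -/
theorem dvd_ord_and_exists_minimal {m : ℕ} (hm : 0 < m) {X : Divisor L F}
    (hX : Divisor.degree X = 0) {g : F} (hg : g ≠ 0) (hdiv : divisorOf g = m • X) {a : C} {b : C'}
    (ha : D.Red g a) (hb : D'.Red g b) (ha0 : a ≠ 0) (hb0 : b ≠ 0) (φ : Place k C ≃ Place k C')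
    (hφ : ∀ i, φ (N.x i) = N.y i) (hpair : ∀ v, (m : ℤ) ∣ v.ord a + (φ v).ord b) :
    (∀ v, (∀ i, N.x i ≠ v) → (m : ℤ) ∣ v.ord a) ∧
      ∃ n : ℕ, ∀ i, ¬(m : ℤ) ∣ (N.x i).ord a →
        ∃ p ∈ pairSpace D D' (riemannRochSpace (N.Bd n 0 + X)), p.1 ≠ 0 ∧ p.2 ≠ 0 ∧
          (N.x i).ord p.1 = -((N.x i).ord a / (m : ℤ)) ∧
          (N.y i).ord p.2 = -((N.y i).ord b / (m : ℤ)) := by
  classical
  set fa : Divisor k C := floorDiv m a with hfa
  set fb : Divisor k C' := floorDiv m b with hfb
  obtain ⟨n, hna, hnb, hn0⟩ : ∃ n : ℕ,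
      (N.c : ℤ) + Fintype.card ι + 1 ≤ n + Divisor.degree fa ∧
      (N.c : ℤ) + Fintype.card ι + 1 ≤ n + Divisor.degree fb ∧
      N.c + Fintype.card ι + 1 ≤ n :=
    ⟨N.c + Fintype.card ι + 1 + (Divisor.degree fa).natAbs + (Divisor.degree fb).natAbs,
      by omega, by omega, by omega⟩
  set W := riemannRochSpace (N.Bd n 0 + X)
  set P := N.Pd n 0 + fa with hP
  set Q := N.Qd n 0 + fb with hQ
  let S := {i : ι // (m : ℤ) ∣ (N.x i).ord a}
  have hdegP : (N.c : ℤ) + Fintype.card ι + 1 ≤ Divisor.degree P := by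
    rw [hP, map_add]; have := N.degree_Pd_le n 0; omega
  have hdegQ : (N.c : ℤ) + Fintype.card ι + 1 ≤ Divisor.degree Q := by
    rw [hQ, map_add]; have := N.degree_Qd_le n 0; omega
  have hS : Fintype.card S ≤ Fintype.card ι := Fintype.card_subtype_le _
  have hSb : ∀ j : S, (m : ℤ) ∣ (N.y j.1).ord b := fun j => by
    have h1 := hpair (N.x j.1)
    rw [hφ] at h1
    exact (dvd_add_right j.2).1 h1
  choose u hu0 hu using fun j : S => FunctionField.exists_ord_eq (N.x j.1) ((N.x j.1).ord a / (m : ℤ))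
  choose u' hu'0 hu' using fun j : S =>
    FunctionField.exists_ord_eq (N.y j.1) ((N.y j.1).ord b / (m : ℤ))
  have hPx : ∀ i, P (N.x i) = (N.x i).ord a / (m : ℤ) := fun i => by
    rw [hP, Finsupp.add_apply, N.Pd_x, zero_add, hfa, floorDiv_apply]
  have hQy : ∀ i, Q (N.y i) = (N.y i).ord b / (m : ℤ) := fun i => by
    rw [hQ, Finsupp.add_apply, N.Qd_y, zero_add, hfb, floorDiv_apply]
  have hregP : ∀ (j : S), ∀ f ∈ riemannRochSpace P, OrdGe (N.x j.1) 0 (f * u j) := fun j f hf =>
    ((mem_rr_iff.1 hf _).mul (ordGe_ord (u j))).mono (by rw [hu, hPx]; omega)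
  have hregQ : ∀ (j : S), ∀ f ∈ riemannRochSpace Q, OrdGe (N.y j.1) 0 (f * u' j) := fun j f hf =>
    ((mem_rr_iff.1 hf _).mul (ordGe_ord (u' j))).mono (by rw [hu', hQy]; omega)
  -- the leading values
  let α : S → riemannRochSpace P →ₗ[k] k := fun j =>
    { toFun := fun f => valAt (N.x j.1) ((f : C) * u j)
      map_add' := fun f f' => by
        rw [Submodule.coe_add, add_mul, valAt_add (hregP j _ f.2) (hregP j _ f'.2)]
      map_smul' := fun t f => by
        rw [Submodule.coe_smul, smul_mul_assoc, valAt_smul _ (hregP j _ f.2), RingHom.id_apply,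
          smul_eq_mul] }
  let β : S → riemannRochSpace Q →ₗ[k] k := fun j =>
    { toFun := fun f => valAt (N.y j.1) ((f : C') * u' j)
      map_add' := fun f f' => by
        rw [Submodule.coe_add, add_mul, valAt_add (hregQ j _ f.2) (hregQ j _ f'.2)]
      map_smul' := fun t f => by
        rw [Submodule.coe_smul, smul_mul_assoc, valAt_smul _ (hregQ j _ f.2), RingHom.id_apply,
          smul_eq_mul] }
  have hle : ∀ p ∈ pairSpace D D' W, p.1 ∈ riemannRochSpace P ∧ p.2 ∈ riemannRochSpace Q ∧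
      ∀ i, valAt (N.x i) (p.1 ^ m * a) = valAt (N.y i) (p.2 ^ m * b) :=
    fun p hp => pairSpace_bound N hm hg hdiv ha hb ha0 hb0 n hp
  let ψ : pairSpace D D' W →ₗ[k] riemannRochSpace P × riemannRochSpace Q :=
    { toFun := fun p => (⟨p.1.1, (hle p.1 p.2).1⟩, ⟨p.1.2, (hle p.1 p.2).2.1⟩)
      map_add' := fun _ _ => rfl
      map_smul' := fun _ _ => rfl }
  have hψ : Function.Injective ψ := fun p r h => by
    have h1 := congrArg (fun z => (z.1 : C)) h
    have h2 := congrArg (fun z => (z.2 : C')) h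
    exact Subtype.ext (Prod.ext h1 h2)
  have hratio : ∀ j : S, ∃ ζ : k, ∀ p, β j (ψ p).2 = ζ * α j (ψ p).1 := by
    intro j
    have hu1 : (N.x j.1).ord (a / u j ^ m) = 0 := by
      rw [FunctionField.ord_div ha0 (pow_ne_zero _ (hu0 j)), FunctionField.ord_pow, hu,
        Int.mul_ediv_cancel' j.2, sub_self]
    have hu2 : (N.y j.1).ord (b / u' j ^ m) = 0 := by
      rw [FunctionField.ord_div hb0 (pow_ne_zero _ (hu'0 j)), FunctionField.ord_pow, hu',
        Int.mul_ediv_cancel' (hSb j), sub_self]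
    have hr1 : OrdGe (N.x j.1) 0 (a / u j ^ m) := ordGe_of_le_ord hu1.ge
    have hr2 : OrdGe (N.y j.1) 0 (b / u' j ^ m) := ordGe_of_le_ord hu2.ge
    have hne : valAt (N.y j.1) (b / u' j ^ m) ≠ 0 := fun h0 => by
      have h1 := valAt_spec hr2
      rw [h0, map_zero, sub_zero] at h1
      have := h1.le_ord (div_ne_zero hb0 (pow_ne_zero _ (hu'0 j)))
      omega
    refine exists_ratio ((α j).comp ((LinearMap.fst k _ _).comp ψ))
      ((β j).comp ((LinearMap.snd k _ _).comp ψ)) hm
      (c := valAt (N.x j.1) (a / u j ^ m) / valAt (N.y j.1) (b / u' j ^ m)) fun p => ?_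
    obtain ⟨hp1, hp2, hp3⟩ := hle p.1 p.2
    have e1 : p.1.1 ^ m * a = (p.1.1 * u j) ^ m * (a / u j ^ m) := by
      rw [mul_pow, mul_assoc, mul_div_cancel₀ _ (pow_ne_zero _ (hu0 j))]
    have e2 : p.1.2 ^ m * b = (p.1.2 * u' j) ^ m * (b / u' j ^ m) := by
      rw [mul_pow, mul_assoc, mul_div_cancel₀ _ (pow_ne_zero _ (hu'0 j))]
    have h := hp3 j.1
    rw [e1, e2, valAt_mul (valAt_pow (hregP j _ hp1) m).1 hr1, (valAt_pow (hregP j _ hp1) m).2,
      valAt_mul (valAt_pow (hregQ j _ hp2) m).1 hr2, (valAt_pow (hregQ j _ hp2) m).2] at h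
    change valAt (N.y j.1) (p.1.2 * u' j) ^ m = _ * valAt (N.x j.1) (p.1.1 * u j) ^ m
    field_simp
    linear_combination -h
  choose ζ hζ using hratio
  let Φ : (riemannRochSpace P × riemannRochSpace Q) →ₗ[k] (S → k) :=
    LinearMap.pi fun j => (β j).comp (LinearMap.snd k _ _) - ζ j • (α j).comp (LinearMap.fst k _ _)
  have hΦ : ∀ p j, Φ p j = β j p.2 - ζ j * α j p.1 := fun p j => rfl
  have hrange : LinearMap.range ψ ≤ LinearMap.ker Φ := by
    rintro _ ⟨p, rfl⟩
    exact LinearMap.mem_ker.2 (funext fun j => by rw [hΦ, hζ, sub_self]; rfl)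
  have hsurj : LinearMap.range Φ = ⊤ := LinearMap.range_eq_top.2 fun t => by
    obtain ⟨f, hf, hft⟩ := exists_leading N.hk' (x := fun j : S => N.y j.1)
      (N.y_inj.comp Subtype.val_injective) (P := Q) (by omega) hu'0
      (fun j => by rw [hu', hQy]) t
    refine ⟨(0, ⟨f, hf⟩), funext fun j => ?_⟩
    rw [hΦ, map_zero, mul_zero, sub_zero]
    exact hft j
  haveI := finite_riemannRochSpace P
  haveI := finite_riemannRochSpace Q
  haveI := finite_riemannRochSpace (N.Bd n 0 + X)
  have hrank := Φ.finrank_range_add_finrank_ker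
  rw [hsurj, finrank_top, Module.finrank_pi, Module.finrank_prod] at hrank
  have h1 : Module.finrank k (pairSpace D D' W) = Module.finrank L W := finrank_pairSpace D D' W
  have h2 := LinearMap.finrank_range_of_inj hψ
  have h3 := Submodule.finrank_mono hrange
  have h4 : (Module.finrank L W : ℤ) = _ := N.hL (N.Bd n 0 + X) (by
    have h4a := N.degree_Pd_add_Qd_le n 0
    have h4b := N.degree_Pd_le n 0
    have h4c := N.degree_Qd_le n 0
    rw [map_add, hX]; omega)
  have h5 : (Module.finrank k (riemannRochSpace P) : ℤ) = _ := N.hk P (by omega)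
  have h6 : (Module.finrank k (riemannRochSpace Q) : ℤ) = _ := N.hk' Q (by omega)
  obtain ⟨T, hT, hTdeg⟩ := sum_floor hm φ hpair
  -- the crossings with indivisible order lie in `T`
  set R : Finset (Place k C) :=
    (Finset.univ.filter fun i => ¬(m : ℤ) ∣ (N.x i).ord a).map ⟨N.x, N.x_inj⟩ with hR
  have hRT : R ⊆ T := by
    intro v hv
    obtain ⟨i, hi, rfl⟩ := Finset.mem_map.1 hv
    exact (hT _).2 (Finset.mem_filter.1 hi).2
  have hRcard : R.card = Fintype.card ι - Fintype.card S := by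
    rw [hR, Finset.card_map, Fintype.card_subtype]
    have h := Finset.card_filter_add_card_filter_not (s := (Finset.univ : Finset ι))
      (fun i => (m : ℤ) ∣ (N.x i).ord a)
    rw [Finset.card_univ] at h
    omega
  have hg := N.genus_le
  have hd := N.degree_Pd_add_Qd_le n 0
  have hdP : Divisor.degree P = Divisor.degree (N.Pd n 0) + Divisor.degree fa := map_add _ _ _
  have hdQ : Divisor.degree Q = Divisor.degree (N.Qd n 0) + Divisor.degree fb := map_add _ _ _
  have hdX : Divisor.degree (N.Bd n 0 + X) = Divisor.degree (N.Bd n 0) := by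
    rw [map_add, hX, add_zero]
  rw [← hfa, ← hfb] at hTdeg
  have h7 : T.card ≤ R.card := by omega
  have hTR : T = R := (Finset.eq_of_subset_of_card_le hRT h7).symm
  have hker : LinearMap.range ψ = LinearMap.ker Φ := by
    refine Submodule.eq_of_le_of_finrank_le hrange ?_
    have h8 : T.card = R.card := by rw [hTR]
    omega
  refine ⟨fun v hv => ?_, n, fun i hi => ?_⟩
  · by_contra hnd
    obtain ⟨i, -, hi⟩ := Finset.mem_map.1 (hTR ▸ (hT v).2 hnd : v ∈ R)
    exact hv i hi
  -- vanishing leading values at all divisible crossings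
  set EP : Divisor k C := ∑ j : S, Finsupp.single (N.x j.1) 1
  set EQ : Divisor k C' := ∑ j : S, Finsupp.single (N.y j.1) 1
  have hEP : Divisor.degree EP = Fintype.card S := by
    rw [map_sum, Finset.sum_congr rfl fun j _ => degree_single_one _, Finset.sum_const,
      Finset.card_univ]; simp
  have hEQ : Divisor.degree EQ = Fintype.card S := by
    rw [map_sum, Finset.sum_congr rfl fun j _ => degree_single_one _, Finset.sum_const,
      Finset.card_univ]; simp
  obtain ⟨p₁, hp₁, hp₁0, hp₁o⟩ := N.hk.exists_ord_eq_neg (D := P - EP)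
    (by rw [map_sub, hEP]; omega) (N.x i)
  obtain ⟨p₂, hp₂, hp₂0, hp₂o⟩ := N.hk'.exists_ord_eq_neg (D := Q - EQ)
    (by rw [map_sub, hEQ]; omega) (N.y i)
  have hnn : ∀ {κ : Type _} [Fintype κ] (z : κ → Place k C), 0 ≤ ∑ j, Finsupp.single (z j) (1 : ℤ) :=
    fun z => Finset.sum_nonneg fun j _ => Finsupp.single_nonneg.2 zero_le_one
  have hnn' : ∀ {κ : Type _} [Fintype κ] (z : κ → Place k C'), 0 ≤ ∑ j, Finsupp.single (z j) (1 : ℤ) :=
    fun z => Finset.sum_nonneg fun j _ => Finsupp.single_nonneg.2 zero_le_one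
  have hm₁ := riemannRochSpace_mono (sub_le_self P (hnn fun j : S => N.x j.1)) hp₁
  have hm₂ := riemannRochSpace_mono (sub_le_self Q (hnn' fun j : S => N.y j.1)) hp₂
  have hin : ((⟨p₁, hm₁⟩, ⟨p₂, hm₂⟩) : riemannRochSpace P × riemannRochSpace Q) ∈ LinearMap.range ψ := by
    rw [hker]
    refine LinearMap.mem_ker.2 (funext fun j => ?_)
    have hz1 : α j ⟨p₁, hm₁⟩ = 0 := valAt_eq (by
      rw [map_zero, sub_zero]
      refine ((mem_rr_iff.1 hp₁ (N.x j.1)).mul (ordGe_ord (u j))).mono ?_
      have : (1 : ℤ) ≤ EP (N.x j.1) := by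
        rw [Finset.sum_apply']
        refine le_trans (by rw [Finsupp.single_eq_same]) (Finset.single_le_sum
          (f := fun j' : S => (Finsupp.single (N.x j'.1) (1 : ℤ)) (N.x j.1))
          (fun j' _ => ?_) (Finset.mem_univ j))
        exact Finsupp.single_nonneg.2 zero_le_one _
      rw [Finsupp.sub_apply, hu, hPx]
      omega)
    have hz2 : β j ⟨p₂, hm₂⟩ = 0 := valAt_eq (by
      rw [map_zero, sub_zero]
      refine ((mem_rr_iff.1 hp₂ (N.y j.1)).mul (ordGe_ord (u' j))).mono ?_
      have : (1 : ℤ) ≤ EQ (N.y j.1) := by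
        rw [Finset.sum_apply']
        refine le_trans (by rw [Finsupp.single_eq_same]) (Finset.single_le_sum
          (f := fun j' : S => (Finsupp.single (N.y j'.1) (1 : ℤ)) (N.y j.1))
          (fun j' _ => ?_) (Finset.mem_univ j))
        exact Finsupp.single_nonneg.2 zero_le_one _
      rw [Finsupp.sub_apply, hu', hQy]
      omega)
    rw [hΦ, hz1, hz2, mul_zero, sub_zero]
    rfl
  obtain ⟨p, hp⟩ := hin
  have e1 : (p : C × C').1 = p₁ := congrArg (fun z => (z.1 : C)) hp
  have e2 : (p : C × C').2 = p₂ := congrArg (fun z => (z.2 : C')) hp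
  have hx0 : EP (N.x i) = 0 := by
    rw [Finset.sum_apply']
    exact Finset.sum_eq_zero fun j _ => Finsupp.single_eq_of_ne fun h => hi (by
      rw [N.x_inj h]; exact j.2)
  have hy0 : EQ (N.y i) = 0 := by
    rw [Finset.sum_apply']
    exact Finset.sum_eq_zero fun j _ => Finsupp.single_eq_of_ne fun h => hi (by
      rw [N.y_inj h]; exact j.2)
  exact ⟨p, p.2, e1 ▸ hp₁0, e2 ▸ hp₂0, by rw [e1, hp₁o, Finsupp.sub_apply, hPx, hx0, sub_zero],
    by rw [e2, hp₂o, Finsupp.sub_apply, hQy, hy0, sub_zero]⟩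

end FLTAgent.LevelLower
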