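import Fermat.Agent.LevelLower.HeckeRed
import Mathlib.RingTheory.Norm.Basic

/-!
# Hecke norms commute with the swap and with the Galois action
-/

set_option autoImplicit false
set_option linter.style.haveILetI false

noncomputable section

open ModularCurve AlgebraicCurve

namespace FLTAgent.LevelLower

open FLTAgent.Hecke FLTAgent.Semistable

local notation "Qbar" => AlgebraicClosure ℚ

/-- Norms along embeddings commute with compatible automorphisms. -/
theorem normAlong_equiv {L F B : Type*} [Field L] [Field F] [Field B] [Algebra L F] [Algebra L B]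
    (φ : F →ₐ[L] B) (e₁ : F ≃+* F) (e₂ : B ≃+* B) (h : ∀ u, e₂ (φ u) = φ (e₁ u)) (x : B) :
    normAlong φ (e₂ x) = e₁ (normAlong φ x) := by
  let _ := algebraAlong φ
  have h1 := Algebra.norm_eq_of_equiv_equiv (A₁ := F) (A₂ := F) (B₁ := B) (B₂ := B) e₁ e₂
    (RingHom.ext fun u => (h u).symm) x
  show Algebra.norm F (e₂ x) = e₁ (Algebra.norm F x)
  rw [h1, RingEquiv.apply_symm_apply]

variable {N l : ℕ} [NeZero N] [NeZero l]

/-- The norm commutes with a compatible pair of automorphisms. -/
theorem heckeFun_equiv (e₁ : modularFunctionFieldBar N ≃+* modularFunctionFieldBar N)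
    (e₂ : modularFunctionFieldBar (N * l) ≃+* modularFunctionFieldBar (N * l))
    (hα : ∀ u, e₂ (heckeAlphaBar Qbar N l u) = heckeAlphaBar Qbar N l (e₁ u))
    (hβ : ∀ u, e₂ (heckeBetaBar Qbar N l u) = heckeBetaBar Qbar N l (e₁ u))
    (f : modularFunctionFieldBar N) : heckeFun N l (e₁ f) = e₁ (heckeFun N l f) := by
  rw [heckeFun_apply, heckeFun_apply, ← hβ, normAlong_equiv _ e₁ e₂ hα]

/-- The norm commutes with the Galois action on coefficients. -/
theorem heckeFun_galois (σ : Qbar ≃ₐ[ℚ] Qbar) (f : modularFunctionFieldBar N) :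
    heckeFun N l (SemilinearAut.toRingAut (arithmeticGalois (modularFunctionFieldFull N) σ) f) =
      SemilinearAut.toRingAut (arithmeticGalois (modularFunctionFieldFull N) σ)
        (heckeFun N l f) := by
  have h1 : ∀ (d : ℕ) [NeZero d] (hd : N * d ∣ N * l) (u : modularFunctionFieldBar N),
      SemilinearAut.toRingAut (arithmeticGalois (modularFunctionFieldFull (N * l)) σ)
          (degMap Qbar d hd u) =
        degMap Qbar d hd
          (SemilinearAut.toRingAut (arithmeticGalois (modularFunctionFieldFull N) σ) u) :=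
    fun d _ hd u => Subtype.ext
      (congrArg Subtype.val (intertwines_degMap (L := Qbar) d hd σ u))
  refine heckeFun_equiv _
    (SemilinearAut.toRingAut (arithmeticGalois (modularFunctionFieldFull (N * l)) σ))
    (fun u => ?_) (fun u => ?_) f
  · rw [heckeAlphaBar_eq_degMap]
    exact h1 1 _ u
  · rw [heckeBetaBar_eq_degMap]
    exact h1 l _ u

section swap

variable (M : ℕ) [NeZero M] {q : ℕ} [Fact q.Prime] (hqM : ¬ q ∣ M)

local instance instNeZeroQ : NeZero q := ⟨(Fact.out : q.Prime).ne_zero⟩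
local instance instNeZeroLevelSwap : NeZero (M * q) :=
  ⟨Nat.mul_ne_zero (NeZero.ne M) (NeZero.ne q)⟩

/-- Automorphisms agreeing on both images of the lower level are equal. -/
theorem algHom_ext_alpha_beta {T : Type*} [Field T] [Algebra Qbar T]
    {φ ψ : MF Qbar (M * q) →ₐ[Qbar] T}
    (hα : ∀ u, φ (alphaMap Qbar M q u) = ψ (alphaMap Qbar M q u))
    (hβ : ∀ u, φ (betaMap Qbar M q u) = ψ (betaMap Qbar M q u)) : φ = ψ := by
  refine AlgHom.ext fun z => ?_
  let S : IntermediateField Qbar (MF Qbar (M * q)) :=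
    { (AlgHom.equalizer φ ψ) with
      inv_mem' := fun a (ha : φ a = ψ a) =>
        (map_inv₀ φ.toRingHom a).trans ((congrArg Inv.inv ha).trans (map_inv₀ ψ.toRingHom a).symm) }
  refine mem_of_alphaMap_mem Qbar M q S hα ?_ z
  have e : (⟨jd Qbar (M * q), jd_mem Qbar dvd_rfl⟩ : MF Qbar (M * q)) =
      betaMap Qbar M q ⟨jd Qbar M, jd_mem Qbar dvd_rfl⟩ := by
    refine Subtype.ext ?_
    rw [coe_betaMap]
    show jd Qbar (M * q) = qExpand Qbar q (jd Qbar M)
    rw [jd, jd, qExpand_qExpand]
    exact qExpand_congr (mul_comm M q) _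
  show φ _ = ψ _
  rw [e]
  exact hβ _

include hqM in
theorem exists_swap_above (hlq : ¬ q ∣ l) (K : ℕ) (hK : M * l * q = K) :
    ∃ w' : MF Qbar K ≃ₐ[Qbar] MF Qbar K,
      ∀ (d : ℕ) [NeZero d] (hd : M * q * d ∣ K) (_ : M * d ∣ M * l) (u : MF Qbar (M * q)),
        w' (degMap Qbar d hd u) = degMap Qbar d hd (swapW M hqM u) := by
  subst hK
  haveI : NeZero (M * l) := ⟨Nat.mul_ne_zero (NeZero.ne M) (NeZero.ne l)⟩
  have hqMl : ¬ q ∣ M * l := fun h => ((Fact.out : q.Prime).dvd_mul.1 h).elim hqM hlq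
  refine ⟨swapW (M * l) hqMl, fun d _ hd hd' => ?_⟩
  have ea : ∀ u, degMap Qbar d hd (alphaMap Qbar M q u) =
      alphaMap Qbar (M * l) q (degMap Qbar d hd' u) := fun u => Subtype.ext (by
    rw [coe_alphaMap, coe_degMap, coe_degMap, coe_alphaMap])
  have eb : ∀ u, degMap Qbar d hd (betaMap Qbar M q u) =
      betaMap Qbar (M * l) q (degMap Qbar d hd' u) := fun u => Subtype.ext (by
    rw [coe_betaMap, coe_degMap, coe_degMap, coe_betaMap, qExpand_qExpand, qExpand_qExpand]
    exact qExpand_congr (mul_comm _ _) _)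
  refine DFunLike.congr_fun (algHom_ext_alpha_beta M (q := q)
    (φ := (swapW (M * l) hqMl).toAlgHom.comp (degMap Qbar d hd))
    (ψ := (degMap Qbar d hd).comp (swapW M hqM).toAlgHom) (fun u => ?_) (fun u => ?_))
  · refine (congrArg (swapW (M * l) hqMl) (ea u)).trans ?_
    refine (swapW_alpha (M * l) hqMl _).trans ?_
    exact (eb u).symm.trans (congrArg (degMap Qbar d hd) (swapW_alpha M hqM u).symm)
  · refine (congrArg (swapW (M * l) hqMl) (eb u)).trans ?_
    refine (swapW_beta (M * l) hqMl _).trans ?_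
    exact (ea u).symm.trans (congrArg (degMap Qbar d hd) (swapW_beta M hqM u).symm)

include hqM in
/-- Hecke norms at primes prime to the level commute with the swap. -/
theorem heckeFun_swapW (hlq : ¬ q ∣ l) (f : modularFunctionFieldBar (M * q)) :
    heckeFun (M * q) l (swapW M hqM f) = swapW M hqM (heckeFun (M * q) l f) := by
  obtain ⟨w', key⟩ := exists_swap_above (l := l) M hqM hlq (M * q * l) (mul_right_comm M l q)
  refine heckeFun_equiv (swapW M hqM).toRingEquiv w'.toRingEquiv (fun u => ?_) (fun u => ?_) f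
  · rw [heckeAlphaBar_eq_degMap]
    exact key 1 _ (mul_dvd_mul_left M (one_dvd l)) u
  · rw [heckeBetaBar_eq_degMap]
    exact key l dvd_rfl dvd_rfl u

end swap

end FLTAgent.LevelLower
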