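import Fermat.Agent.LevelLower.RatInst
import Fermat.Agent.LevelLower.Flatten

/-!
# The Hecke operators of level `M q` as operators on the two reductions
-/

set_option autoImplicit false
set_option linter.style.haveILetI false
set_option linter.unusedSectionVars false
set_option synthInstance.maxHeartbeats 100000

noncomputable section

open ModularCurve AlgebraicCurve IsLocalRing

namespace FLTAgent.LevelLower

open FLTAgent.GoodRed FLTAgent.GoodRed.RedDatum FLTAgent.Semistable FLTAgent.FunctionField

local notation "Qbar" => AlgebraicClosure ℚ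

theorem normAlong_algebraMap {L F B : Type*} [Field L] [Field F] [Field B] [Algebra L F]
    [Algebra L B] (φ : F →ₐ[L] B) (c : L) :
    Hecke.normAlong φ (algebraMap L B c) = algebraMap L F (c ^ finrankAlong L φ) := by
  let _ := algebraAlong φ
  show Algebra.norm F (algebraMap L B c) = _
  rw [map_pow, ← φ.commutes c]
  exact Algebra.norm_algebraMap (S := B) (algebraMap L F c)

variable {N l : ℕ} [NeZero N] [NeZero l] [HasPrincipalDivisors Qbar (Hecke.MF Qbar (N * l))]

variable (N l) in
/-- The divisor map of `T l` at level `N`. -/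
def heckeDiv : Divisor Qbar (modularFunctionFieldBar N) →+ Divisor Qbar (modularFunctionFieldBar N) :=
  heckeDivBar (Hecke.alphaBarIntegral_of_facts (Hecke.levelFacts Qbar) N l)
    (Hecke.betaBarIntegral_of_facts (Hecke.levelFacts Qbar) N l)

theorem divisorOf_heckeFun (f : modularFunctionFieldBar N) (hf : f ≠ 0) :
    divisorOf (K := Qbar) (heckeFun N l f) = heckeDiv N l (divisorOf (K := Qbar) f) := by
  obtain ⟨_, _, _, hfin, -, hN⟩ := Hecke.heckeInputsAlong Qbar N l
  refine Finsupp.ext fun v => ?_
  rw [divisorOf_apply, heckeFun_apply]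
  exact (Hecke.heckeDivBar_apply_of_apply_eq_ord N l _ _ hfin hN hf
    (D := divisorOf (K := Qbar) f) (fun w => divisorOf_apply f w) v).symm

theorem heckeFun_algebraMap (hl : l.Prime) (hlN : ¬ l ∣ N) (c : Qbar) :
    heckeFun N l (algebraMap Qbar (modularFunctionFieldBar N) c) =
      algebraMap Qbar (modularFunctionFieldBar N) (c ^ (l + 1)) := by
  rw [heckeFun_apply, AlgHom.commutes, normAlong_algebraMap, JTors.finrank_heckeAlphaBar hl hlN]

section level

variable (A : ValuationSubring (AlgebraicClosure ℚ)) {q : ℕ} [Fact q.Prime]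
  (hA : A.LiesOverPrime q) [CharP (ResidueField A) q] [IsAlgClosed (ResidueField A)]
  (M : ℕ) [NeZero M] (hqM : ¬ q ∣ M)
  (l : ℕ) [NeZero l] (hl : l.Prime) (hlM : ¬ l ∣ M) (hlq : l ≠ q)

local instance instNeZeroLevelInst : NeZero (M * q) :=
  ⟨Nat.mul_ne_zero (NeZero.ne M) (Fact.out : q.Prime).ne_zero⟩

include hl hlM hlq in
theorem not_dvd_level : ¬ l ∣ M * q := fun h => (hl.dvd_mul.1 h).elim hlM fun h' =>
  hlq ((Nat.prime_dvd_prime_iff_eq hl Fact.out).1 h')

/-- The operator `T l` at level `M q`. -/
def levelHecke [HasPrincipalDivisors Qbar (Hecke.MF Qbar (M * q * l))] :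
    HeckeOp (redInf A hA M hqM) (redZero A hA M hqM) (levelRat A hA M hqM).FK where
  T := heckeFun (M * q) l
  d := l + 1
  Tdiv := heckeDiv (M * q) l
  div_T := divisorOf_heckeFun
  T_algebraMap := heckeFun_algebraMap hl (not_dvd_level M l hl hlM hlq)
  T_FK _ hf := heckeFun_mem_ratFun hf
  Tb := heckeC A hA M hqM l hl hlM
  red f z h hz := redInf_red_heckeFun A hA M hqM l hl hlM (not_dvd_level M l hl hlM hlq) h hz
  red' f z h hz := by
    rw [redZero_iff] at h ⊢
    rw [← heckeFun_swapW M hqM fun hd =>
      hlq ((Nat.prime_dvd_prime_iff_eq Fact.out hl).1 hd).symm]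
    exact redInf_red_heckeFun A hA M hqM l hl hlM (not_dvd_level M l hl hlM hlq) h hz

end level

end FLTAgent.LevelLower
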