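import Fermat.Agent.LevelLower.HeckeSeries
import Fermat.Agent.Semistable.LevelDatum

/-!
# Reductions of Hecke norms

At a place over `q ≠ l` the reduction of `T f` is determined by that of `f`, through the series
`z (X ^ (l * l)) * ∏ j, z (ζ ^ j X)`; this gives the operator `heckeC` on the component.
-/

set_option autoImplicit false
set_option linter.style.haveILetI false
set_option linter.unusedSectionVars false

noncomputable section

open ModularCurve AlgebraicCurve IsLocalRing

namespace FLTAgent.LevelLower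

open FLTAgent.GoodRed FLTAgent.GoodRed.RedDatum FLTAgent.Semistable FLTAgent.ModPoly

local notation "Qbar" => AlgebraicClosure ℚ

section general

variable {L k : Type*} [Field L] [Field k] {A : ValuationSubring L} {π : A →+* k}

/-- Reduction of a twist by a unit. -/
theorem sRed_twist {y : LaurentSeries L} {z : LaurentSeries k} (h : SRed π y z) (u : Aˣ) :
    SRed π (twist (Units.map (A.subtype : A →* L) u) y) (twist (Units.map (π : A →* k) u) z) := by
  obtain ⟨a, b, hb, hy, hz⟩ := h
  refine ⟨twist u a, twist u b, ?_, ?_, ?_⟩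
  · rw [coeffMap_twist]
    exact (map_ne_zero_iff _ (twist (Units.map (π : A →* k) u)).injective).2 hb
  · rw [coeffMap_twist, coeffMap_twist, ← map_mul, hy]
  · rw [coeffMap_twist, coeffMap_twist, ← map_mul, hz]

/-- Products of reductions. -/
theorem sRed_prod {ι : Type*} (s : Finset ι) {f : ι → LaurentSeries L} {g : ι → LaurentSeries k}
    (h : ∀ i ∈ s, SRed π (f i) (g i)) : SRed π (∏ i ∈ s, f i) (∏ i ∈ s, g i) := by
  classical
  induction s using Finset.induction with
  | empty => simpa using sRed_one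
  | insert a s ha ih =>
    rw [Finset.prod_insert ha, Finset.prod_insert ha]
    exact (h a (Finset.mem_insert_self a s)).mul
      (ih fun i hi => h i (Finset.mem_insert_of_mem hi))

theorem coe_smul_eq {K : Type*} [Field K] {G : IntermediateField K (LaurentSeries K)} (c : K)
    (y : G) : ((c • y : G) : LaurentSeries K) = algebraMap K (LaurentSeries K) c * y := by
  rw [Algebra.smul_def]
  rfl

theorem qExpand_smul_series {K : Type*} [Field K] (n : ℕ) [NeZero n] (c : K)
    (y : LaurentSeries K) : qExpand K n (c • y) = c • qExpand K n y := by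
  rw [smul_series, smul_series, map_mul, algebraMap_laurentSeries_eq_single, qExpand_single,
    mul_zero]

/-- Two nonzero reductions of multiples differ by a scalar. -/
theorem exists_smul_eq (hπ : IsResidueMap A π) {c : L} {y : LaurentSeries L}
    {z w : LaurentSeries k} (h : SRed π y z) (hz : z ≠ 0) (hc : SRed π (c • y) w) (hw : w ≠ 0) :
    ∃ t : k, t • w = z := by
  have hy := h.ne_zero hz
  have hc0 : c ≠ 0 := by
    rintro rfl
    rw [zero_smul] at hc
    exact hw (hc.unique sRed_zero)
  rcases A.mem_or_inv_mem c with hcA | hcA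
  · have hu : π ⟨c, hcA⟩ ≠ 0 := fun h0 => by
      have h1 := h.smul ⟨c, hcA⟩
      rw [h0, zero_smul] at h1
      exact hw (hc.unique h1)
    refine ⟨(π ⟨c, hcA⟩)⁻¹, ?_⟩
    rw [hc.unique (h.smul ⟨c, hcA⟩), smul_smul, inv_mul_cancel₀ hu, one_smul]
  · refine ⟨π ⟨c⁻¹, hcA⟩, ?_⟩
    have h1 := hc.smul ⟨c⁻¹, hcA⟩
    change SRed π (c⁻¹ • c • y) _ at h1
    rw [smul_smul, inv_mul_cancel₀ hc0, one_smul] at h1
    exact h1.unique h

/-- A reduction of `y (X ^ n)` comes from one of `y`. -/
theorem exists_sRed_of_qExpand (hπ : IsResidueMap A π) {F : IntermediateField L (LaurentSeries L)}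
    (horth : HasOrth π F) {n : ℕ} [NeZero n] {y : LaurentSeries L} (hy : y ∈ F)
    {P : LaurentSeries k} (h : SRed π (qExpand L n y) P) (hP : P ≠ 0) :
    ∃ z, SRed π y z ∧ qExpand k n z = P := by
  have hy0 : y ≠ 0 := fun h0 => hP (by rw [h0, map_zero] at h; exact h.unique sRed_zero)
  obtain ⟨c, w, hc, hw, hr⟩ := horth.exists_scale hy hy0
  have hE := hr.qExpand n
  rw [qExpand_smul_series] at hE
  have hcA : c ∈ A := by
    by_contra hn
    have hinv : c⁻¹ ∈ A.nonunits := by
      rw [ValuationSubring.inv_mem_nonunits_iff]; exact Or.inr hn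
    have h1 := hE.smul ⟨c⁻¹, A.nonunits_subset hinv⟩
    rw [(hπ.eq_zero_iff _).2 hinv, zero_smul] at h1
    change SRed π (c⁻¹ • c • qExpand L n y) 0 at h1
    rw [smul_smul, inv_mul_cancel₀ hc, one_smul] at h1
    exact hP (h.unique h1)
  have hu : π ⟨c, hcA⟩ ≠ 0 := fun h0 => by
    have h1 := h.smul ⟨c, hcA⟩
    rw [h0, zero_smul] at h1
    exact (map_ne_zero_iff _ (qExpand_injective n)).2 hw (hE.unique h1)
  have hiA : c⁻¹ ∈ A := by
    by_contra hn
    refine hu ((hπ.eq_zero_iff ⟨c, hcA⟩).2 ?_)
    rw [A.mem_nonunits_iff_or]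
    exact Or.inr hn
  have h2 : SRed π y (π ⟨c⁻¹, hiA⟩ • w) := by
    have := hr.smul ⟨c⁻¹, hiA⟩
    change SRed π (c⁻¹ • c • y) _ at this
    rwa [smul_smul, inv_mul_cancel₀ hc, one_smul] at this
  exact ⟨_, h2, ((h2.qExpand n).unique h)⟩

end general

variable (A : ValuationSubring (AlgebraicClosure ℚ))

local notation "kA" => ResidueField A

section roots

variable (l : ℕ) [NeZero l]

theorem rootExp_mem : ((rootExp l : Qbarˣ) : Qbar) ∈ A := by
  refine A.valuation_le_one_iff _ |>.1 (le_of_eq ?_)
  refine (pow_eq_one_iff_left (NeZero.ne l)).1 ?_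
  rw [← map_pow, rootExp_pow, map_one]

/-- The root of unity as a unit of `A`. -/
def rootA : Aˣ :=
  Units.mkOfMulEqOne ⟨_, rootExp_mem A l⟩ (⟨_, rootExp_mem A l⟩ ^ (l - 1)) (Subtype.ext (by
    show ((rootExp l : Qbarˣ) : Qbar) * ((rootExp l : Qbarˣ) : Qbar) ^ (l - 1) = 1
    rw [← pow_succ', Nat.sub_add_cancel (NeZero.pos l), rootExp_pow]))

theorem map_rootA : Units.map (A.subtype : A →* Qbar) (rootA A l) = rootExp l := Units.ext rfl

/-- The series of the reduction of a Hecke norm. -/
def heckePoly : LaurentSeries (ResidueField A) →*₀ LaurentSeries (ResidueField A) where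
  toFun z := letI : NeZero (l * l) := ⟨Nat.mul_ne_zero (NeZero.ne l) (NeZero.ne l)⟩
    qExpand (ResidueField A) (l * l) z *
      ∏ j : ZMod l, twist (Units.map (residue A : A →* kA) (rootA A l ^ j.val)) z
  map_zero' := by simp
  map_one' := by simp
  map_mul' z w := by simp only [map_mul, Finset.prod_mul_distrib]; ring

theorem heckePoly_apply [NeZero (l * l)] (z : LaurentSeries (ResidueField A)) :
    heckePoly A l z = qExpand (ResidueField A) (l * l) z *
      ∏ j : ZMod l, twist (Units.map (residue A : A →* kA) (rootA A l ^ j.val)) z := rfl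

theorem heckePoly_ne_zero {z : LaurentSeries (ResidueField A)} (hz : z ≠ 0) :
    heckePoly A l z ≠ 0 := by
  haveI : NeZero (l * l) := ⟨Nat.mul_ne_zero (NeZero.ne l) (NeZero.ne l)⟩
  rw [heckePoly_apply]
  exact mul_ne_zero ((map_ne_zero_iff _ (qExpand_injective _)).2 hz)
    (Finset.prod_ne_zero_iff.2 fun j _ => (map_ne_zero_iff _ (RingHom.injective _)).2 hz)

/-- Reduction of the series of a Hecke norm. -/
theorem sRed_series_heckeFun {N : ℕ} [NeZero N] (hl : l.Prime) (hlN : ¬ l ∣ N)
    {f : modularFunctionFieldBar N} {z : LaurentSeries (ResidueField A)}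
    (h : SRed (residue A) (f : LaurentSeries Qbar) z) :
    SRed (residue A) (qExpand Qbar l (heckeFun N l f : LaurentSeries Qbar)) (heckePoly A l z) := by
  haveI : NeZero (l * l) := ⟨Nat.mul_ne_zero (NeZero.ne l) (NeZero.ne l)⟩
  rw [series_heckeFun hl hlN, heckePoly_apply]
  refine (h.qExpand _).mul (sRed_prod _ fun j _ => ?_)
  have := sRed_twist h (rootA A l ^ j.val)
  rwa [map_pow, map_rootA] at this

end roots

variable {q : ℕ} [Fact q.Prime] (hA : A.LiesOverPrime q) [CharP (ResidueField A) q]
  [IsAlgClosed (ResidueField A)] (M : ℕ) [NeZero M] (hqM : ¬ q ∣ M)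
  (l : ℕ) [NeZero l] (hl : l.Prime) (hlM : ¬ l ∣ M)

include hA in
/-- Reduction of a Hecke norm. -/
theorem exists_sRed_heckeFun {N : ℕ} [NeZero N] (hlN : ¬ l ∣ N) (hl : l.Prime)
    {f : modularFunctionFieldBar N} {z : LaurentSeries (ResidueField A)}
    (h : SRed (residue A) (f : LaurentSeries Qbar) z) (hz : z ≠ 0) :
    ∃ w, SRed (residue A) (heckeFun N l f : LaurentSeries Qbar) w ∧
      qExpand (ResidueField A) l w = heckePoly A l z :=
  exists_sRed_of_qExpand (isResidueMap_residue A) (hasOrth_MF A hA N) (heckeFun N l f).2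
    (sRed_series_heckeFun A l hl hlN h) (heckePoly_ne_zero A l hz)

set_option maxHeartbeats 400000 in
include hA hqM hl hlM in
theorem exists_heckeC (z : modularFunctionFieldFullC (ResidueField A) M) :
    ∃ w : modularFunctionFieldFullC (ResidueField A) M,
      qExpand (ResidueField A) l (w : LaurentSeries (ResidueField A)) =
        heckePoly A l (z : LaurentSeries (ResidueField A)) := by
  rcases eq_or_ne z 0 with rfl | hz
  · exact ⟨0, by simp⟩
  obtain ⟨f, hf⟩ := (x0Datum A hA M hqM).exists_lift z
  have hf' := (x0_red_iff A hA M hqM).1 hf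
  obtain ⟨w, hw, hwe⟩ := exists_sRed_heckeFun A hA l hlM hl hf' fun h => hz (Subtype.ext h)
  have hw0 : w ≠ 0 := fun h0 => heckePoly_ne_zero A l (fun h => hz (Subtype.ext h))
    (by rw [← hwe, h0, map_zero])
  have hTf : (heckeFun M l f : modularFunctionFieldBar M) ≠ 0 := fun h0 =>
    hw.ne_zero hw0 (congrArg Subtype.val h0)
  obtain ⟨c, w', -, hw', hr⟩ := (x0Datum A hA M hqM).exists_scale (f := heckeFun M l f) hTf
  have hr' : SRed (residue A) (c • ((heckeFun M l f : modularFunctionFieldBar M) :
      LaurentSeries Qbar)) (w' : LaurentSeries (ResidueField A)) :=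
    (smul_series c ((heckeFun M l f : modularFunctionFieldBar M) : LaurentSeries Qbar)).symm ▸
      (show SRed (residue A) (algebraMap Qbar (LaurentSeries Qbar) c *
        ((heckeFun M l f : modularFunctionFieldBar M) : LaurentSeries Qbar)) _ from
        coe_smul_eq c (heckeFun M l f) ▸ (x0_red_iff A hA M hqM).1 hr)
  obtain ⟨t, ht⟩ := exists_smul_eq (isResidueMap_residue A) hw hw0 hr'
    (fun h => hw' (Subtype.ext h))
  refine ⟨algebraMap (ResidueField A) (modularFunctionFieldFullC (ResidueField A) M) t * w', ?_⟩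
  rw [← hwe, ← ht, smul_series]
  rfl

end FLTAgent.LevelLower
namespace FLTAgent.LevelLower

open FLTAgent.GoodRed FLTAgent.GoodRed.RedDatum FLTAgent.Semistable FLTAgent.ModPoly

local notation "Qbar" => AlgebraicClosure ℚ

variable (A : ValuationSubring (AlgebraicClosure ℚ))

local notation "kA" => ResidueField A

variable {q : ℕ} [Fact q.Prime] (hA : A.LiesOverPrime q) [CharP (ResidueField A) q]
  [IsAlgClosed (ResidueField A)] (M : ℕ) [NeZero M] (hqM : ¬ q ∣ M)
  (l : ℕ) [NeZero l] (hl : l.Prime) (hlM : ¬ l ∣ M)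

local instance instNeZeroLevelRed : NeZero (M * q) :=
  ⟨Nat.mul_ne_zero (NeZero.ne M) (Fact.out : q.Prime).ne_zero⟩

/-- The Hecke operator on the component. -/
def heckeC : modularFunctionFieldFullC (ResidueField A) M →*₀
    modularFunctionFieldFullC (ResidueField A) M where
  toFun z := (exists_heckeC A hA M hqM l hl hlM z).choose
  map_zero' := Subtype.ext ((qExpand (ResidueField A) l).injective (by
    refine ((exists_heckeC A hA M hqM l hl hlM 0).choose_spec).trans ?_
    simp))
  map_one' := Subtype.ext ((qExpand (ResidueField A) l).injective (by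
    refine ((exists_heckeC A hA M hqM l hl hlM 1).choose_spec).trans ?_
    simp))
  map_mul' z w := Subtype.ext ((qExpand (ResidueField A) l).injective (by
    refine ((exists_heckeC A hA M hqM l hl hlM (z * w)).choose_spec).trans ?_
    rw [MulMemClass.coe_mul, MulMemClass.coe_mul, map_mul (qExpand (ResidueField A) l),
      (exists_heckeC A hA M hqM l hl hlM z).choose_spec,
      (exists_heckeC A hA M hqM l hl hlM w).choose_spec, map_mul]))

theorem qExpand_heckeC (z : modularFunctionFieldFullC (ResidueField A) M) :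
    qExpand (ResidueField A) l (heckeC A hA M hqM l hl hlM z : LaurentSeries (ResidueField A)) =
      heckePoly A l (z : LaurentSeries (ResidueField A)) :=
  (exists_heckeC A hA M hqM l hl hlM z).choose_spec

/-- The norm at a multiple of the level reduces to the operator on the component. -/
theorem sRed_heckeFun_heckeC {N : ℕ} [NeZero N] (hlN : ¬ l ∣ N) {f : modularFunctionFieldBar N}
    {z : modularFunctionFieldFullC (ResidueField A) M}
    (h : SRed (residue A) (f : LaurentSeries Qbar) (z : LaurentSeries (ResidueField A)))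
    (hz : z ≠ 0) :
    SRed (residue A) (heckeFun N l f : LaurentSeries Qbar)
      (heckeC A hA M hqM l hl hlM z : LaurentSeries (ResidueField A)) := by
  obtain ⟨w, hw, hwe⟩ := exists_sRed_heckeFun A hA l hlN hl h fun h0 => hz (Subtype.ext h0)
  rw [← qExpand_injective l (hwe.trans (qExpand_heckeC A hA M hqM l hl hlM z).symm)]
  exact hw

theorem x0_red_heckeFun {f : modularFunctionFieldBar M}
    {z : modularFunctionFieldFullC (ResidueField A) M}
    (h : (x0Datum A hA M hqM).Red f z) (hz : z ≠ 0) :
    (x0Datum A hA M hqM).Red (heckeFun M l f) (heckeC A hA M hqM l hl hlM z) :=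
  (x0_red_iff A hA M hqM).2
    (sRed_heckeFun_heckeC A hA M hqM l hl hlM hlM ((x0_red_iff A hA M hqM).1 h) hz)

theorem redInf_red_heckeFun (hlMq : ¬ l ∣ M * q) {f : modularFunctionFieldBar (M * q)}
    {z : modularFunctionFieldFullC (ResidueField A) M}
    (h : (redInf A hA M hqM).Red f z) (hz : z ≠ 0) :
    (redInf A hA M hqM).Red (heckeFun (M * q) l f) (heckeC A hA M hqM l hl hlM z) :=
  (redInf_iff hA hqM).2
    (sRed_heckeFun_heckeC A hA M hqM l hl hlM hlMq ((redInf_iff hA hqM).1 h) hz)

end FLTAgent.LevelLower
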