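import Fermat.Agent.JTors.HeckeChar
import Fermat.Agent.Semistable.Series
import Mathlib.RingTheory.RootsOfUnity.Complex

/-!
# The series of a Hecke norm

For a prime `l ∤ N` and `T f = N(α) (β f)` on functions of level `N`, the series satisfy
`(T f)(X ^ l) = f (X ^ (l * l)) * ∏ j, f (ζ ^ j X)`.
-/

set_option autoImplicit false
set_option linter.style.haveILetI false

noncomputable section

open ModularCurve AlgebraicCurve UpperHalfPlane CongruenceSubgroup Filter
open scoped MatrixGroups Manifold

namespace FLTAgent.LevelLower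

open FLTAgent.JTors FLTAgent.ModPoly FLTAgent.Semistable FLTAgent.Periods

local notation "Qbar" => AlgebraicClosure ℚ
local notation "𝕢" => Function.Periodic.qParam

variable {N l : ℕ} [NeZero N] [NeZero l]

local instance instNeZeroLevelMulLL : NeZero (N * l) := neZero_mul_level

theorem finite_alongHeckeAlpha :
    letI := algebraAlong (heckeAlphaBar Qbar N l)
    Module.Finite (modularFunctionFieldBar N) (modularFunctionFieldBar (N * l)) :=
  Hecke.alphaBar_finiteAlong_of_facts (Hecke.levelFacts Qbar) N l

variable (N l) in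
/-- The Hecke norm on functions. -/
def heckeFun : modularFunctionFieldBar N →*₀ modularFunctionFieldBar N where
  toFun f := Hecke.normAlong (heckeAlphaBar Qbar N l) (heckeBetaBar Qbar N l f)
  map_zero' := by
    letI := algebraAlong (heckeAlphaBar Qbar N l)
    haveI := finite_alongHeckeAlpha (N := N) (l := l)
    show Algebra.norm _ (heckeBetaBar Qbar N l 0) = 0
    rw [map_zero, Algebra.norm_zero]
  map_one' := by simp
  map_mul' f g := by simp

theorem heckeFun_apply (f : modularFunctionFieldBar N) :
    heckeFun N l f = Hecke.normAlong (heckeAlphaBar Qbar N l) (heckeBetaBar Qbar N l f) := rfl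

theorem expands_comp_some (g : modFunRing N) (j : ZMod l) :
    Expands l (fun z : ℍ => (g : ℍ → ℂ) (tRep l (some j) • z))
      (twist (Units.mk0 (Complex.exp (2 * Real.pi * Complex.I / l)) (Complex.exp_ne_zero _) ^ j.val)
        (qL N g)) := by
  have hl := NeZero.ne l
  have hl' : (l : ℂ) ≠ 0 := Nat.cast_ne_zero.2 hl
  have hφ : Tendsto (fun z : ℍ => tRep l (some j) • z) atImInfty atImInfty := by
    rw [atImInfty, tendsto_comap_iff]
    refine ((tendsto_comap (f := UpperHalfPlane.im) (x := atTop)).const_mul_atTop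
      (r := (1 : ℝ) / l) (div_pos one_pos (by exact_mod_cast NeZero.pos l))).congr fun z => ?_
    show (1 : ℝ) / l * z.im = ((tRep l (some j) • z : ℍ) : ℂ).im
    rw [coe_tRep_some_smul hl, ← Complex.ofReal_natCast l, Complex.div_ofReal_im]
    simp [-ZMod.natCast_val]
    ring
  have h := (expands_qL g).comp_scale (h' := l) (k := 1)
    (Units.mk0 (Complex.exp (2 * Real.pi * Complex.I / l)) (Complex.exp_ne_zero _) ^ j.val) hφ
    fun z => by
      rw [coe_tRep_some_smul hl, Units.val_pow_eq_pow_val, Units.val_mk0, pow_one,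
        Function.Periodic.qParam, Function.Periodic.qParam, ← Complex.exp_nat_mul, ← Complex.exp_add]
      congr 1
      push_cast
      field_simp
      ring
  simpa [qExpand_one_apply] using h

theorem qLaurentHom_tExp_none (g : modFunRing N) :
    qLaurentHom (N * l) (tExp g none) = qExpand ℂ (N * l) (qExpand ℂ l (qL N g)) := by
  rw [qLaurentHom_apply]
  have h := (expands_comp_none (l := l) g).width_mul (k := N * l)
  rw [one_mul] at h
  exact (expands_expSeries (tExp (l := l) g none)).unique h

theorem qLaurentHom_tExp_some (g : modFunRing N) (j : ZMod l) :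
    qLaurentHom (N * l) (tExp g (some j)) = qExpand ℂ N
      (twist (Units.mk0 (Complex.exp (2 * Real.pi * Complex.I / l)) (Complex.exp_ne_zero _) ^ j.val)
        (qL N g)) := by
  rw [qLaurentHom_apply]
  have h := (expands_comp_some g j).width_mul (k := N)
  have : l * N = N * l := mul_comm l N
  refine (expands_expSeries (tExp (l := l) g (some j))).unique ?_
  revert h
  generalize hM : l * N = M
  intro h
  rw [this] at hM
  subst hM
  exact h

theorem embC_injective : Function.Injective (JTors.embC) := JTors.embC.injective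

theorem twist_map_series {R S : Type*} [CommRing R] [CommRing S] (f : R →+* S) (c : Rˣ) (d : Sˣ)
    (h : f c = d) (x : LaurentSeries R) : coeffMap f (twist c x) = twist d (coeffMap f x) := by
  rw [coeffMap_twist, show Units.map (f : R →* S) c = d from Units.ext h]

theorem exists_rootExp (l : ℕ) [NeZero l] :
    ∃ ζ : Qbarˣ, JTors.embC ζ = Complex.exp (2 * Real.pi * Complex.I / l) := by
  have hl0 := NeZero.ne l
  haveI : NeZero (l : Qbar) := ⟨Nat.cast_ne_zero.2 hl0⟩
  obtain ⟨η, hη⟩ := (IsAlgClosed.exists_root (Polynomial.cyclotomic l Qbar)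
    (Polynomial.degree_cyclotomic_pos l Qbar (NeZero.pos l)).ne')
  have hη' : IsPrimitiveRoot η l := Polynomial.isRoot_cyclotomic_iff.1 hη
  have hC := Complex.isPrimitiveRoot_exp l hl0
  obtain ⟨i, -, hi⟩ := (hη'.map_of_injective embC_injective).eq_pow_of_pow_eq_one hC.pow_eq_one
  rw [← map_pow] at hi
  refine ⟨Units.mk0 (η ^ i) fun h => ?_, hi⟩
  rw [h, map_zero] at hi
  exact Complex.exp_ne_zero _ hi.symm

/-- The root of unity `exp (2 π i / l)` in `ℚ̄`. -/
def rootExp (l : ℕ) [NeZero l] : Qbarˣ := (exists_rootExp l).choose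

theorem embC_rootExp (l : ℕ) [NeZero l] :
    JTors.embC (rootExp l) = Complex.exp (2 * Real.pi * Complex.I / l) :=
  (exists_rootExp l).choose_spec

theorem rootExp_pow (l : ℕ) [NeZero l] : ((rootExp l : Qbarˣ) : Qbar) ^ l = 1 :=
  embC_injective (by rw [map_pow, embC_rootExp, (Complex.isPrimitiveRoot_exp l (NeZero.ne l)).pow_eq_one,
    map_one])

/-- The series of a Hecke norm. -/
theorem series_heckeFun (hl : l.Prime) (hlN : ¬ l ∣ N) (f : modularFunctionFieldBar N) :
    qExpand Qbar l (heckeFun N l f : LaurentSeries Qbar) =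
      qExpand Qbar (l * l) (f : LaurentSeries Qbar) *
        ∏ j : ZMod l, twist (rootExp l ^ j.val) (f : LaurentSeries Qbar) := by
  have hl0 := hl.ne_zero
  have hi := embC_rootExp l
  obtain ⟨δ, γ, hδ, hinj⟩ := exists_gamma0_tRep (N := N) hl hlN
  obtain ⟨g, b, hb, hgb⟩ := exists_frac N f
  have hgb' : toC N f * qL N b ^ 1 = qL N g := by rw [pow_one]; exact hgb
  haveI : NeZero (l * l) := ⟨Nat.mul_ne_zero hl0 hl0⟩
  set e : ℂˣ := Units.mk0 (Complex.exp (2 * Real.pi * Complex.I / l)) (Complex.exp_ne_zero _)
  have hnone : levelEmb (δ none) (heckeBetaBar Qbar N l f) =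
      qExpand ℂ (N * l) (qExpand ℂ l (toC N f)) := by
    have h := levelEmb_beta_mul hgb' hδ none
    rw [pow_one, qLaurentHom_tExp_none, qLaurentHom_tExp_none, ← hgb, map_mul, map_mul] at h
    exact mul_right_cancel₀ ((map_ne_zero_iff _ (qExpand ℂ (N * l)).injective).2
      ((map_ne_zero_iff _ (qExpand ℂ l).injective).2 ((map_ne_zero_iff _ qL_injective).2 hb))) h
  have hsome : ∀ j : ZMod l, levelEmb (δ (some j)) (heckeBetaBar Qbar N l f) =
      qExpand ℂ N (twist (e ^ j.val) (toC N f)) := fun j => by
    have h := levelEmb_beta_mul hgb' hδ (some j)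
    rw [pow_one, qLaurentHom_tExp_some, qLaurentHom_tExp_some, ← hgb, map_mul, map_mul] at h
    exact mul_right_cancel₀ ((map_ne_zero_iff _ (qExpand ℂ N).injective).2
      ((map_ne_zero_iff _ (twist (e ^ j.val)).injective).2
        ((map_ne_zero_iff _ qL_injective).2 hb))) h
  have hmain := qExpand_toC_normAlong hl hlN hinj (heckeBetaBar Qbar N l f)
  rw [Fintype.prod_option, hnone, ← heckeFun_apply] at hmain
  simp only [hsome] at hmain
  have hNl : ∀ z : LaurentSeries ℂ, qExpand ℂ (N * l) z = qExpand ℂ N (qExpand ℂ l z) := fun z =>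
    (qExpand_qExpand l N z).symm
  rw [← map_prod, hNl, hNl, qExpand_qExpand l l, ← map_mul] at hmain
  have hC' : qExpand ℂ l (toC N (heckeFun N l f)) =
      qExpand ℂ (l * l) (toC N f) * ∏ j : ZMod l, twist (e ^ j.val) (toC N f) :=
    (qExpand ℂ N).injective hmain
  have hinjC : Function.Injective (coeffMap JTors.embC) := fun x y h =>
    HahnSeries.ext (funext fun n => embC_injective
      (congrArg (fun s : LaurentSeries ℂ => s.coeff n) h))
  refine hinjC ?_
  rw [coeffMap_qExpand, map_mul, coeffMap_qExpand, map_prod, ← toC_apply, ← toC_apply, hC']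
  congr 1
  refine Finset.prod_congr rfl fun j _ => ?_
  rw [twist_map_series JTors.embC _ (e ^ j.val) (by simp [e, hi]), toC_apply]

end FLTAgent.LevelLower
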