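import Fermat.Agent.LevelLower.HeckeInst
import Fermat.Agent.LevelSq.RamField
import Fermat.Agent.GoodRed.X0Inputs
import Fermat.Agent.PicTorsion.CurveFinite
import Fermat.Agent.PicTorsion.Torsion
import Fermat.Agent.TW.Flat.Unramified
import Fermat.Agent.Semistable.OldNull

/-!
# Eigen torsion classes of the component lift to the level below

Reduction is bijective on `p`-torsion, so a torsion class of the component which is eigen for the
reductions of the Hecke norms comes from an eigen torsion class in characteristic zero.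
-/

set_option autoImplicit false
set_option linter.style.haveILetI false
set_option linter.unusedSectionVars false
set_option synthInstance.maxHeartbeats 100000

noncomputable section

open ModularCurve AlgebraicCurve IsLocalRing

namespace FLTAgent.LevelLower

open FLTAgent.GoodRed FLTAgent.GoodRed.RedDatum FLTAgent.Semistable FLTAgent.FunctionField

local notation "Qbar" => AlgebraicClosure ℚ

/-- Shortcut: the constants inside the function fields. -/
local instance (priority := high) instAlgebraBarLLKill (N : ℕ) [NeZero N] :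
    Algebra Qbar (modularFunctionFieldBar N) :=
  SubalgebraClass.toAlgebra (modularFunctionFieldBar N)

/-- Shortcut: the constants inside the full function fields. -/
local instance (priority := high) instAlgebraFullCLLKill {K : Type*} [Field K] (N : ℕ) [NeZero N] :
    Algebra K (modularFunctionFieldFullC K N) :=
  SubalgebraClass.toAlgebra (modularFunctionFieldFullC K N)

variable {A : ValuationSubring (AlgebraicClosure ℚ)} {q : ℕ} [Fact q.Prime]
  (hA : A.LiesOverPrime q) [CharP (ResidueField A) q] [IsAlgClosed (ResidueField A)]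
  {M : ℕ} [NeZero M] (hqM : ¬ q ∣ M)

include hA in
theorem isAlgebraic_residue :
    letI := ZMod.algebra (ResidueField A) q
    Algebra.IsAlgebraic (ZMod q) (ResidueField A) := by
  obtain ⟨𝔓, rfl, -⟩ := LevelSq.exists_nm hA
  letI := ZMod.algebra (ResidueField 𝔓.P) q
  exact ⟨fun a => (𝔓.isIntegral_residue a).isAlgebraic⟩

include hA hqM in
theorem natCard_torsion_residue (p : ℕ) [Fact p.Prime] (hpq : p ≠ q) :
    Finite (Pic0.torsion (ResidueField A) (modularFunctionFieldFullC (ResidueField A) M) p) ∧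
      Nat.card (Pic0.torsion (ResidueField A) (modularFunctionFieldFullC (ResidueField A) M) p) =
        Nat.card (Pic0.torsion Qbar (modularFunctionFieldBar M) p) := by
  haveI := isFunctionField_fullC A hA M hqM
  letI := ZMod.algebra (ResidueField A) q
  haveI := isAlgebraic_residue hA (q := q)
  obtain ⟨h1, h2⟩ := PicTorsion.natCard_pic0_torsion_of_algebraic_zmod
    (k := ResidueField A) (C := modularFunctionFieldFullC (ResidueField A) M) q p hpq 1
  have h3 := PicTorsion.natCard_pic0_torsion (K := Qbar) (F := modularFunctionFieldBar M) p 1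
  rw [pow_one] at h1 h2 h3
  exact ⟨h2, by rw [h1, h3, genusFF_eq_x0 A hA M hqM]⟩

include hA hqM in
/-- Torsion classes of the component lift. -/
theorem exists_torsion_lift (p : ℕ) [Fact p.Prime] (hpq : p ≠ q)
    [IsFunctionField (ResidueField A) (modularFunctionFieldFullC (ResidueField A) M)]
    {y : Pic0 (ResidueField A) (modularFunctionFieldFullC (ResidueField A) M)}
    (hy : p • y = 0) : ∃ x : JZero M, p • x = 0 ∧ reductionModL A M x = y := by
  have h := reductionInputsModL_x0 hA hqM
  have hmem : ∀ x : Pic0.torsion Qbar (modularFunctionFieldBar M) p,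
      reductionModL A M x ∈ Pic0.torsion (ResidueField A)
        (modularFunctionFieldFullC (ResidueField A) M) p := fun x => by
    rw [Pic0.mem_torsion, ← map_zsmul, Pic0.mem_torsion.1 x.2, map_zero]
  let f : Pic0.torsion Qbar (modularFunctionFieldBar M) p →
      Pic0.torsion (ResidueField A) (modularFunctionFieldFullC (ResidueField A) M) p :=
    fun x => ⟨reductionModL A M x, hmem x⟩
  have hf : Function.Injective f := fun a b hab => by
    refine Subtype.ext (sub_eq_zero.1 (eq_zero_of_reductionModL_eq_zero hA hqM h p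
      (fun hd => hpq ((Nat.prime_dvd_prime_iff_eq Fact.out Fact.out).1 hd).symm) _ ?_ ?_))
    · rw [← natCast_zsmul, zsmul_sub, Pic0.mem_torsion.1 a.2, Pic0.mem_torsion.1 b.2, sub_zero]
    · rw [map_sub, sub_eq_zero]
      exact congrArg Subtype.val hab
  obtain ⟨hfin, hcard⟩ := natCard_torsion_residue hA hqM p hpq
  obtain ⟨x, hx⟩ := (hf.bijective_of_nat_card_le hcard.le).2
    ⟨y, Pic0.mem_torsion.2 (by rw [natCast_zsmul]; exact hy)⟩
  exact ⟨x, by rw [← natCast_zsmul]; exact Pic0.mem_torsion.1 x.2, congrArg Subtype.val hx⟩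

section algebra

variable {k C : Type*} [Field k] [Field C] [Algebra k C] [IsFunctionField k C]

theorem divisorOf_inv' (f : C) : divisorOf (K := k) f⁻¹ = -divisorOf (K := k) f :=
  Finsupp.ext fun v => by
    rw [divisorOf_apply, Place.ord_inv, Finsupp.neg_apply, divisorOf_apply]

/-- The divisor of the image of `t • (a * w ^ p)` when `a` is eigen up to powers. -/
theorem divisorOf_map_eigen (T : C →*₀ C) {p c : ℕ} {t u : k} {a w w₀ : C} (ht : t ≠ 0)
    (hu : u ≠ 0) (ha : a ≠ 0) (hw : w ≠ 0) (hw₀ : w₀ ≠ 0)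
    (hTt : divisorOf (K := k) (T (algebraMap k C t)) = 0)
    (he : T a / a ^ c = algebraMap k C u * w₀ ^ p) :
    divisorOf (K := k) (T (t • (a * w ^ p))) =
      p • divisorOf (w₀ * T w) + c • divisorOf (K := k) a := by
  have hTa : T a = algebraMap k C u * w₀ ^ p * a ^ c := by
    rw [← he, div_mul_cancel₀ _ (pow_ne_zero _ ha)]
  have hw1 : T w ≠ 0 := (map_ne_zero T).2 hw
  have ht1 : T (algebraMap k C t) ≠ 0 := (map_ne_zero T).2 ((map_ne_zero _).2 ht)
  have hne : (w₀ * T w) ^ p * a ^ c ≠ 0 :=
    mul_ne_zero (pow_ne_zero _ (mul_ne_zero hw₀ hw1)) (pow_ne_zero _ ha)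
  rw [Algebra.smul_def, map_mul, map_mul, map_pow, hTa,
    show algebraMap k C u * w₀ ^ p * a ^ c * T w ^ p = u • ((w₀ * T w) ^ p * a ^ c) by
      rw [Algebra.smul_def, mul_pow]; ring,
    divisorOf_mul ht1 (smul_ne_zero hu hne), hTt, zero_add, divisorOf_smul hu hne,
    divisorOf_mul (pow_ne_zero _ (mul_ne_zero hw₀ hw1)) (pow_ne_zero _ ha), divisorOf_pow,
    divisorOf_pow]

omit [Field k] [Field C] [Algebra k C] [IsFunctionField k C] in
theorem eigen_aux {G : Type*} [AddCommGroup G] (p c : ℕ) {H r Y W V a : G} (hY : p • Y = a)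
    (h1 : p • H = p • V + c • a) (hr : r = Y + W) : p • (H - c • r) = p • (V - c • W) := by
  rw [nsmul_sub, nsmul_sub, h1, hr, nsmul_add, nsmul_add, ← hY, ← mul_nsmul', mul_comm c p,
    mul_nsmul']
  abel

theorem divisorOf_eigen_quot {c : ℕ} {g w : C} (hg : g ≠ 0) (hw : w ≠ 0) :
    divisorOf (K := k) (g / w ^ c) = divisorOf g - c • divisorOf (K := k) w := by
  rw [div_eq_mul_inv, divisorOf_mul hg (inv_ne_zero (pow_ne_zero _ hw)), divisorOf_inv',
    divisorOf_pow, sub_eq_add_neg]

end algebra

include hA hqM in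
/-- The reduced operator sends constants to constants. -/
theorem divisorOf_heckeC_algebraMap
    [IsFunctionField (ResidueField A) (modularFunctionFieldFullC (ResidueField A) M)]
    (l : ℕ) [NeZero l] (hl : l.Prime) (hlM : ¬ l ∣ M) {t : ResidueField A} (ht : t ≠ 0) :
    divisorOf (K := ResidueField A) (heckeC A hA M hqM l hl hlM
      (algebraMap (ResidueField A) (modularFunctionFieldFullC (ResidueField A) M) t)) = 0 := by
  obtain ⟨t₀, rfl⟩ := residue_surjective t
  have h1 := x0_red_heckeFun A hA M hqM l hl hlM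
    (RedDatum.red_algebraMap (D := x0Datum A hA M hqM) t₀) ((map_ne_zero _).2 ht)
  rw [heckeFun_algebraMap hl hlM] at h1
  rw [h1.unique (RedDatum.red_algebraMap (D := x0Datum A hA M hqM)
    (t₀ ^ (l + 1)))]
  exact Finsupp.ext fun v => by rw [divisorOf_apply, ord_algebraMap]; rfl

omit [CharP (ResidueField A) q] in
theorem coe_degZero_nsmul {K F : Type*} [Field K] [Field F] [Algebra K F]
    [HasPrincipalDivisors K F] (n : ℕ) (X : Divisor.degZero (K := K) (F := F)) :
    ((n • X : Divisor.degZero (K := K) (F := F)) : Divisor K F) = n • (X : Divisor K F) :=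
  map_nsmul (Divisor.degZero (K := K) (F := F)).subtype n X

set_option maxHeartbeats 400000 in
include hA hqM in
/-- A torsion class whose Hecke defect has principal reduction is eigen. -/
theorem heckeOperatorBar_eq_of_principal (p : ℕ) [Fact p.Prime] (hpq : p ≠ q) (l : Nat.Primes)
    (c : ℕ) [IsFunctionField (ResidueField A) (modularFunctionFieldFullC (ResidueField A) M)]
    (h : ReductionInputsModL A M) (R : PlaceRed (x0Datum A hA M hqM))
    (hR : R.r = placeReductionModL h)
    (X : Divisor.degZero (K := Qbar) (F := modularFunctionFieldBar M))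
    (hxp : p • Pic0.mk X = 0)
    {g : modularFunctionFieldFullC (ResidueField A) M} (hg : g ≠ 0)
    (hgdiv : haveI : NeZero (l : ℕ) := ⟨l.2.ne_zero⟩
      haveI := Hecke.hasPrincipalDivisors_level Qbar (M * (l : ℕ))
      Finsupp.mapDomain R.r
      (heckeDiv M (l : ℕ) (X : Divisor Qbar (modularFunctionFieldBar M)) -
        c • (X : Divisor Qbar (modularFunctionFieldBar M))) = divisorOf g) :
    heckeOperatorBar M l (Pic0.mk X) = c • Pic0.mk X := by
  haveI : NeZero (l : ℕ) := ⟨l.2.ne_zero⟩
  haveI := Hecke.hasPrincipalDivisors_level Qbar (M * (l : ℕ))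
  have hα := Hecke.alphaBarIntegral_of_facts (Hecke.levelFacts Qbar) M (l : ℕ)
  have hβ := Hecke.betaBarIntegral_of_facts (Hecke.levelFacts Qbar) M (l : ℕ)
  have hdmem := Hecke.heckeDivBar_mem_degZero (Hecke.levelFacts Qbar) M (l : ℕ) hα hβ X
  have hop : heckeOperatorBar M l (Pic0.mk X) = Pic0.mk ⟨_, hdmem⟩ :=
    Hecke.heckeOperatorAlong_mk (Hecke.levelFacts Qbar) M (l : ℕ) X hα hβ hdmem
  set d : Divisor.degZero (K := Qbar) (F := modularFunctionFieldBar M) :=
    ⟨_, hdmem⟩ - c • X with hd
  have hdiff : heckeOperatorBar M l (Pic0.mk X) - c • Pic0.mk X = Pic0.mk d := by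
    rw [hop, hd]
    exact (congrArg _ (QuotientAddGroup.mk_nsmul _ X c).symm).trans
      (QuotientAddGroup.mk_sub _ _ _).symm
  refine sub_eq_zero.1 (eq_zero_of_reductionModL_eq_zero hA hqM h p
    (fun hd => hpq ((Nat.prime_dvd_prime_iff_eq Fact.out Fact.out).1 hd).symm) _ ?_ ?_)
  · rw [nsmul_sub, ← mul_nsmul', mul_comm p c, mul_nsmul', hxp, nsmul_zero, sub_zero]
    exact (map_nsmul (heckeOperatorBar M l) p (Pic0.mk X)).symm.trans (by rw [hxp, map_zero])
  · rw [hdiff, reductionModL_mk h]
    refine (QuotientAddGroup.eq_zero_iff _).2 ⟨g, hg, fun v => ?_⟩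
    show Finsupp.mapDomain (placeReductionModL h) (d : Divisor Qbar (modularFunctionFieldBar M)) v
      = _
    rw [← hR, hd, AddSubgroupClass.coe_sub, coe_degZero_nsmul]
    exact (congrArg (fun E : Divisor (ResidueField A) _ => E v) hgdiv).trans (divisorOf_apply g v)

set_option maxHeartbeats 1600000 in
include hA hqM in
/-- A function on the component with orders divisible by `p`, eigen for the reduced operators,
is a constant times a power, if there is no eigen torsion class at level `M`. -/
theorem powConst_of_eigen (p : ℕ) [Fact p.Prime] (hpq : p ≠ q) {Λ : Type*} (ℓ : Λ → Nat.Primes)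
    (hℓ : ∀ i, ¬ (ℓ i : ℕ) ∣ M) (c : Λ → ℕ)
    (habs : ∀ x : JZero M, p • x = 0 →
      (∀ i, heckeOperatorBar M (ℓ i) x = c i • x) → x = 0)
    {a : modularFunctionFieldFullC (ResidueField A) M} (ha : a ≠ 0)
    (hdvd : ∀ v : Place (ResidueField A) (modularFunctionFieldFullC (ResidueField A) M),
      (p : ℤ) ∣ v.ord a)
    (heig : ∀ i, PowConst (ResidueField A) p
      ((haveI : NeZero (ℓ i : ℕ) := ⟨(ℓ i).2.ne_zero⟩
        heckeC A hA M hqM (ℓ i) (ℓ i).2 (hℓ i) a) / a ^ c i)) :
    PowConst (ResidueField A) p a := by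
  haveI := isFunctionField_fullC A hA M hqM
  haveI : IsAlgClosed Qbar := inferInstance
  have hp : 0 < p := (Fact.out : p.Prime).pos
  have h := reductionInputsModL_x0 hA hqM
  obtain ⟨R, hR⟩ := exists_placeRed_of_isPlaceReductionModL hA hqM
    (isPlaceReductionModL_placeReductionModL h)
  set Y : Divisor (ResidueField A) (modularFunctionFieldFullC (ResidueField A) M) :=
    floorDiv p a with hYdef
  have hY : p • Y = divisorOf a := Finsupp.ext fun v => by
    rw [Finsupp.smul_apply, hYdef, floorDiv_apply, divisorOf_apply, nsmul_eq_mul]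
    exact Int.mul_ediv_cancel' (hdvd v)
  have hYdeg : Divisor.degree Y = 0 := by
    have := congrArg Divisor.degree hY
    rw [map_nsmul, degree_divisorOf, nsmul_eq_mul] at this
    exact (mul_eq_zero.1 this).resolve_left (by exact_mod_cast hp.ne')
  set y : Divisor.degZero (K := ResidueField A)
      (F := modularFunctionFieldFullC (ResidueField A) M) := ⟨Y, Divisor.mem_degZero.2 hYdeg⟩
  have hyp : p • Pic0.mk y = 0 := by
    refine (QuotientAddGroup.mk_nsmul _ y p).symm.trans ((QuotientAddGroup.eq_zero_iff _).2 ?_)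
    exact ⟨a, ha, fun v => by
      show ((p • y : Divisor.degZero (K := ResidueField A)
        (F := modularFunctionFieldFullC (ResidueField A) M)) : Divisor (ResidueField A)
        (modularFunctionFieldFullC (ResidueField A) M)) v = _
      rw [coe_degZero_nsmul]
      exact (congrArg (fun E : Divisor (ResidueField A) _ => E v) hY).trans (divisorOf_apply a v)⟩
  obtain ⟨x, hxp, hxy⟩ := exists_torsion_lift hA hqM p hpq hyp
  obtain ⟨X, rfl⟩ := Pic0.mk_surjective x
  rw [reductionModL_mk h] at hxy
  obtain ⟨f, hf, hdiv⟩ := (QuotientAddGroup.eq_zero_iff (p • X)).1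
    ((QuotientAddGroup.mk_nsmul _ X p).trans hxp)
  obtain ⟨w, hw, hdivw⟩ := (QuotientAddGroup.eq_iff_sub_mem).1 hxy
  have hfX : divisorOf f = p • (X : Divisor Qbar (modularFunctionFieldBar M)) :=
    Finsupp.ext fun v => (divisorOf_apply f v).trans ((hdiv v).symm.trans
      (congrArg (fun E : Divisor Qbar (modularFunctionFieldBar M) => E v) (coe_degZero_nsmul p X)))
  have hXY : Finsupp.mapDomain R.r (X : Divisor Qbar (modularFunctionFieldBar M)) =
      Y + divisorOf w := by
    refine Finsupp.ext fun v => ?_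
    have h1 := hdivw v
    rw [hR]
    change (Finsupp.mapDomain (placeReductionModL h) (X : Divisor Qbar (modularFunctionFieldBar M))
      - Y) v = v.ord w at h1
    rw [Finsupp.sub_apply] at h1
    rw [Finsupp.add_apply, divisorOf_apply]
    omega
  obtain ⟨s, z, hs, hz, hr⟩ := (x0Datum A hA M hqM).exists_scale hf
  have hsf : s • f ≠ 0 := hr.ne_zero hz
  have hdivsf : divisorOf (K := Qbar) (s • f) = p • (X : Divisor Qbar (modularFunctionFieldBar M)) := by
    rw [divisorOf_smul hs hf, hfX]
  have hzdiv : divisorOf (K := ResidueField A) z = divisorOf (a * w ^ p) := by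
    rw [← R.map_divisorOf _ _ hr hz, hdivsf, Finsupp.mapDomain_smul, hXY, smul_add, hY,
      divisorOf_mul ha (pow_ne_zero _ hw), divisorOf_pow]
  obtain ⟨t, ht, hzt⟩ := exists_smul_of_divisorOf_eq hz (mul_ne_zero ha (pow_ne_zero _ hw)) hzdiv
  have hx : ∀ i, heckeOperatorBar M (ℓ i) (Pic0.mk X) = c i • Pic0.mk X := by
    intro i
    haveI : NeZero (ℓ i : ℕ) := ⟨(ℓ i).2.ne_zero⟩
    haveI := Hecke.hasPrincipalDivisors_level Qbar (M * (ℓ i : ℕ))
    obtain ⟨u, w₀, hu, hw₀, he⟩ := heig i
    have hTw : heckeC A hA M hqM (ℓ i) (ℓ i).2 (hℓ i) w ≠ 0 :=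
      (map_ne_zero (heckeC A hA M hqM (ℓ i) (ℓ i).2 (hℓ i))).2 hw
    refine heckeOperatorBar_eq_of_principal hA hqM p hpq (ℓ i) (c i) h R hR X hxp
      (div_ne_zero (mul_ne_zero hw₀ hTw) (pow_ne_zero (c i) hw)) (nsmul_cancel hp ?_)
    have hTr := x0_red_heckeFun A hA M hqM (ℓ i) (ℓ i).2 (hℓ i) hr hz
    have h1 := R.map_divisorOf _ _ hTr ((map_ne_zero _).2 hz)
    rw [divisorOf_heckeFun (N := M) (l := (ℓ i : ℕ)) _ hsf, hdivsf, map_nsmul,
      Finsupp.mapDomain_smul] at h1
    have h2 := divisorOf_map_eigen (heckeC A hA M hqM (ℓ i) (ℓ i).2 (hℓ i)) ht hu ha hw hw₀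
      (divisorOf_heckeC_algebraMap hA hqM (ℓ i) (ℓ i).2 (hℓ i) ht) he
    rw [← hzt] at h2
    have h3 := eigen_aux p (c i) hY (h1.trans h2) hXY
    refine Eq.trans ?_ (h3.trans (congrArg (p • ·)
      (divisorOf_eigen_quot (c := c i) (mul_ne_zero hw₀ hTw) hw).symm))
    rw [Finsupp.mapDomain_sub, Finsupp.mapDomain_smul]
  obtain ⟨g, hg, hgdiv⟩ := (QuotientAddGroup.eq_zero_iff _).1 (habs _ hxp hx)
  obtain ⟨s', g', hs', hg', hrg⟩ := (x0Datum A hA M hqM).exists_scale hg
  have hX : divisorOf (K := Qbar) (s' • g) = (X : Divisor Qbar (modularFunctionFieldBar M)) := by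
    rw [divisorOf_smul hs' hg]
    exact Finsupp.ext fun v => (divisorOf_apply g v).trans (hgdiv v).symm
  have hY' : Y = divisorOf (g' / w) := by
    have h1 := R.map_divisorOf _ _ hrg hg'
    rw [hX, hXY] at h1
    rw [eq_sub_of_add_eq h1]
    exact Finsupp.ext fun v => by
      rw [Finsupp.sub_apply, divisorOf_apply, divisorOf_apply, divisorOf_apply,
        FunctionField.ord_div hg' hw]
  have hdv : divisorOf (K := ResidueField A) a = divisorOf (K := ResidueField A) ((g' / w) ^ p) :=
    hY.symm.trans ((congrArg (p • ·) hY').trans (divisorOf_pow (g' / w) p).symm)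
  obtain ⟨r, hr0, hra⟩ := exists_smul_of_divisorOf_eq (K := ResidueField A) ha
    (pow_ne_zero p (div_ne_zero hg' hw)) hdv
  exact ⟨r, g' / w, hr0, div_ne_zero hg' hw, hra.trans (Algebra.smul_def _ _)⟩

end FLTAgent.LevelLower
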