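import Mathlib.LinearAlgebra.Matrix.Adjugate
import Mathlib.LinearAlgebra.Matrix.NonsingularInverse
import Mathlib.LinearAlgebra.Matrix.Trace
import Mathlib.GroupTheory.PGroup
import Mathlib.Algebra.MonoidAlgebra.Basic
import Mathlib.Algebra.CharP.Lemmas
import Mathlib.Algebra.CharP.Algebra
import Mathlib.RingTheory.Nilpotent.Basic
import Mathlib.Tactic

/-!
# Modules annihilated by the characteristic polynomials of a plane representation

If `W` is a finite module in characteristic `p` on which every `g` is killed by the characteristic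
polynomial of `ρ g`, then some nonzero stable submodule factors through `ρ`.  If `g` acts on such a
nonzero submodule by a scalar and `ρ` spans all matrices, then `ρ g` is this scalar.
-/

set_option autoImplicit false

noncomputable section

namespace FLTAgent.LevelLower

open Matrix

variable {K : Type*} [Field K] {G : Type*} [Group G] (ρ : G →* Matrix (Fin 2) (Fin 2) K)

/-- `σ g` is killed by the characteristic polynomial of `ρ g`. -/
def KilledBy {W : Type*} [AddCommGroup W] [Module K W] (σ : G →* Module.End K W) : Prop :=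
  ∀ g w, σ g (σ g w) - (ρ g).trace • σ g w + (ρ g).det • w = 0

theorem det_ne_zero (g : G) : (ρ g).det ≠ 0 := fun h => by
  have : (ρ g).det * (ρ g⁻¹).det = 1 := by rw [← det_mul, ← map_mul, mul_inv_cancel, map_one, det_one]
  rw [h, zero_mul] at this
  exact zero_ne_one this

theorem trace_adjugate_mul (N g : Matrix (Fin 2) (Fin 2) K) (h₁ : N.trace = 0) (h₂ : N.det = 0) :
    (N * g * N * g.adjugate).trace = -((N * g).trace) ^ 2 := by
  rw [trace_fin_two] at h₁
  rw [det_fin_two] at h₂
  have e : N 1 1 = -N 0 0 := by linear_combination h₁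
  simp only [trace_fin_two, adjugate_fin_two, Matrix.mul_apply, Fin.sum_univ_two, of_apply,
    cons_val', cons_val_zero, cons_val_one, empty_val', cons_val_fin_one, e] at h₂ ⊢
  linear_combination (-(g 0 0) ^ 2 - (g 1 1) ^ 2 - 2 * g 0 1 * g 1 0) * h₂

variable {ρ}

/-- A scalar action on a submodule killed by the characteristic polynomials is a scalar of `ρ`. -/
theorem eq_scalar_of_killedBy (hspan : Submodule.span K (Set.range ρ) = ⊤) (h2 : (2 : K) ≠ 0)
    {V : Type*} [AddCommGroup V] [Module K V] [Nontrivial V] {σ : G →* Module.End K V}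
    (hσ : KilledBy ρ σ) {g₀ : G} {c : K} (hc : ∀ v, σ g₀ v = c • v) :
    ρ g₀ = c • 1 := by
  classical
  obtain ⟨v₀, hv₀⟩ := exists_ne (0 : V)
  have scalar_eq : ∀ {g : G} {a : K}, (∀ v, σ g v = a • v) →
      a ^ 2 - (ρ g).trace * a + (ρ g).det = 0 := by
    intro g a ha
    have h := hσ g v₀
    rw [ha, ha, smul_smul, smul_smul, ← sub_smul, ← add_smul] at h
    rw [pow_two]
    exact (smul_eq_zero.1 h).resolve_right hv₀
  have hns : ∃ g, ∀ a : K, ¬∀ v, σ g v = a • v := by
    by_contra hall
    push Not at hall
    choose χ hχ using hall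
    have hχ1 : χ 1 = 1 := by
      have h := hχ 1 v₀
      rw [map_one, Module.End.one_apply] at h
      refine (sub_eq_zero.1 ((smul_eq_zero.1 ?_).resolve_right hv₀)).symm
      rw [sub_smul, one_smul, ← h, sub_self]
    have hχm : ∀ a b, χ (a * b) = χ a * χ b := fun a b => by
      have h := hχ (a * b) v₀
      rw [map_mul, Module.End.mul_apply, hχ b, map_smul, hχ a, smul_smul, mul_comm (χ b)] at h
      refine (sub_eq_zero.1 ((smul_eq_zero.1 ?_).resolve_right hv₀)).symm
      rw [sub_smul, ← h, sub_self]
    let χh : G →* K := { toFun := χ, map_one' := hχ1, map_mul' := hχm }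
    let μ : G →* K :=
      { toFun := fun g => (ρ g).det * χ g⁻¹
        map_one' := by simp [hχ1]
        map_mul' := fun a b => by simp [det_mul, hχm, _root_.mul_inv_rev]; ring }
    have htr : ∀ g, (ρ g).trace = χ g + μ g := fun g => by
      have h := scalar_eq (hχ g)
      have hinv : χ g * χ g⁻¹ = 1 := by rw [← hχm, mul_inv_cancel, hχ1]
      change _ = χ g + (ρ g).det * χ g⁻¹
      linear_combination (-χ g⁻¹) * h + (χ g - (ρ g).trace) * hinv
    let P : MonoidAlgebra K G →ₐ[K] Matrix (Fin 2) (Fin 2) K := MonoidAlgebra.lift K _ G ρ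
    let X : MonoidAlgebra K G →ₐ[K] K := MonoidAlgebra.lift K K G χh
    let M : MonoidAlgebra K G →ₐ[K] K := MonoidAlgebra.lift K K G μ
    have hPof : ∀ g, P (MonoidAlgebra.of K G g) = ρ g := fun g => by simp [P]
    have hXof : ∀ g, X (MonoidAlgebra.of K G g) = χ g := fun g => by simp [X, χh]
    have hMof : ∀ g, M (MonoidAlgebra.of K G g) = μ g := fun g => by simp [M]
    have htrP : ∀ z, (P z).trace = X z + M z := fun z => by
      induction z using MonoidAlgebra.induction_on with
      | of g => rw [hPof, hXof, hMof, htr]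
      | add a b ha hb => rw [map_add, trace_add, ha, hb, map_add, map_add]; ring
      | smul r a ha => rw [map_smul, trace_smul, ha, map_smul, map_smul, smul_add]
    have hker : ∀ z, P z = 0 → X z = 0 := by
      intro z hz
      have hzx : ∀ g, X z * χ g + M z * μ g = 0 := fun g => by
        have h := htrP (z * MonoidAlgebra.of K G g)
        rwa [map_mul, hz, zero_mul, trace_zero, map_mul, map_mul, hXof, hMof, eq_comm] at h
      have h0 := hzx 1
      rw [hχ1, map_one, mul_one, mul_one] at h0
      by_cases hall : ∀ g, χ g = μ g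
      · have hXM : ∀ w, X w = M w := fun w => by
          induction w using MonoidAlgebra.induction_on with
          | of g => rw [hXof, hMof, hall]
          | add a b ha hb => rw [map_add, map_add, ha, hb]
          | smul r a ha => rw [map_smul, map_smul, ha]
        rw [← hXM z, ← two_mul] at h0
        exact (mul_eq_zero.1 h0).resolve_left h2
      · push Not at hall
        obtain ⟨g, hg⟩ := hall
        have h1 := hzx g
        have : X z * (χ g - μ g) = 0 := by linear_combination h1 - μ g * h0
        exact (mul_eq_zero.1 this).resolve_right (sub_ne_zero.2 hg)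
    have hsurj : ∀ m, ∃ z, P z = m := fun m => by
      have h : m ∈ Submodule.span K (Set.range ρ) := hspan ▸ Submodule.mem_top
      refine Submodule.span_le (p := LinearMap.range P.toLinearMap).2 ?_ h
      rintro _ ⟨g, rfl⟩
      exact ⟨_, hPof g⟩
    obtain ⟨a, ha⟩ := hsurj !![0, 1; 0, 0]
    obtain ⟨b, hb⟩ := hsurj !![0, 0; 1, 0]
    have ha0 : X a = 0 := by
      have := hker (a * a) (by
        rw [map_mul, ha]; ext i j
        fin_cases i <;> fin_cases j <;> simp [Matrix.mul_apply])
      rw [map_mul] at this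
      exact mul_self_eq_zero.1 this
    have h1 := hker (a * b + b * a - 1) (by
      rw [map_sub, map_add, map_mul, map_mul, map_one, ha, hb]; ext i j
      fin_cases i <;> fin_cases j <;> simp [Matrix.mul_apply])
    rw [map_sub, map_add, map_mul, map_mul, map_one, ha0, zero_mul, mul_zero, add_zero,
      zero_sub, neg_eq_zero] at h1
    exact one_ne_zero h1
  obtain ⟨g₁, hg₁⟩ := hns
  -- elements acting trivially have trivial image
  have hunip : ∀ h, σ h = 1 → (ρ h).trace = 2 ∧ (ρ h).det = 1 := by
    intro h hh
    have e : σ (h * g₁) = σ g₁ := by rw [map_mul, hh, one_mul]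
    have hkey : ∀ v, ((ρ g₁).trace - (ρ (h * g₁)).trace) • σ g₁ v
        = ((ρ g₁).det - (ρ (h * g₁)).det) • v := fun v => by
      have a1 := hσ (h * g₁) v
      rw [e] at a1
      have a2 := hσ g₁ v
      rw [sub_smul, sub_smul]
      have := sub_eq_zero.2 (a1.trans a2.symm)
      rw [← sub_eq_zero, ← this]
      abel
    have htr : (ρ g₁).trace - (ρ (h * g₁)).trace = 0 := by
      by_contra hne
      refine hg₁ (((ρ g₁).trace - (ρ (h * g₁)).trace)⁻¹ *
        ((ρ g₁).det - (ρ (h * g₁)).det)) fun v => ?_
      rw [← smul_smul, ← hkey, smul_smul, inv_mul_cancel₀ hne, one_smul]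
    have hdet : (ρ h).det = 1 := by
      have h3 := hkey v₀
      rw [htr, zero_smul] at h3
      have h4 := (smul_eq_zero.1 h3.symm).resolve_right hv₀
      rw [map_mul, det_mul] at h4
      exact mul_right_cancel₀ (det_ne_zero ρ g₁) (by linear_combination -h4)
    refine ⟨?_, hdet⟩
    have h5 := scalar_eq (g := h) (a := 1) fun v => by rw [hh, one_smul, Module.End.one_apply]
    rw [hdet] at h5
    linear_combination -h5
  have hsq : ∀ h, σ h = 1 → (ρ h - 1).trace = 0 ∧ (ρ h - 1).det = 0 := fun h hh => by
    obtain ⟨ht, hd⟩ := hunip h hh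
    refine ⟨by rw [trace_sub, ht, trace_one, Fintype.card_fin]; norm_num, ?_⟩
    rw [det_fin_two] at hd ⊢
    rw [trace_fin_two] at ht
    simp
    linear_combination hd - ht
  have htriv : ∀ h, σ h = 1 → ρ h = 1 := by
    intro h hh
    obtain ⟨hN1, hN2⟩ := hsq h hh
    set N := ρ h - 1 with hN
    have hNg : ∀ g, (N * ρ g).trace = 0 := by
      intro g
      have hc' : σ (g * h * g⁻¹) = 1 := by
        rw [map_mul, map_mul, hh, mul_one, ← map_mul, mul_inv_cancel, map_one]
      have hprod := (hunip (h * (g * h * g⁻¹)) (by rw [map_mul, hh, hc', one_mul])).1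
      have h' := (hunip h hh).1
      have h'' := (hunip _ hc').1
      have hkey : (N * ρ g * N * ρ g⁻¹).trace = 0 := by
        have e : N * ρ g * N * ρ g⁻¹ =
            ρ (h * (g * h * g⁻¹)) - ρ h - ρ (g * h * g⁻¹) + 1 := by
          have e1 : ρ g * ρ g⁻¹ = 1 := by rw [← map_mul, mul_inv_cancel, map_one]
          simp only [hN, map_mul, sub_mul, mul_sub, one_mul, mul_one, ← mul_assoc]
          rw [mul_assoc (ρ h) (ρ g) (ρ g⁻¹), e1, mul_one]
          abel
        rw [e, trace_add, trace_sub, trace_sub, hprod, h', h'', trace_one, Fintype.card_fin]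
        norm_num
      have hadj : (ρ g).adjugate = (ρ g).det • ρ g⁻¹ := by
        have e1 : ρ g * ρ g⁻¹ = 1 := by rw [← map_mul, mul_inv_cancel, map_one]
        calc (ρ g).adjugate = (ρ g).adjugate * (ρ g * ρ g⁻¹) := by rw [e1, mul_one]
          _ = (ρ g).det • ρ g⁻¹ := by rw [← mul_assoc, adjugate_mul, smul_mul, one_mul]
      have h3 := trace_adjugate_mul N (ρ g) hN1 hN2
      rw [hadj, Matrix.mul_smul, trace_smul, hkey, smul_zero, zero_eq_neg] at h3
      exact eq_zero_of_pow_eq_zero h3
    have hall : ∀ X, (N * X).trace = 0 := fun X => by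
      have hX : X ∈ Submodule.span K (Set.range ρ) := hspan ▸ Submodule.mem_top
      induction hX using Submodule.span_induction with
      | mem _ hy => obtain ⟨g, rfl⟩ := hy; exact hNg g
      | zero => simp
      | add x y _ _ hx hy => rw [mul_add, trace_add, hx, hy, add_zero]
      | smul a x _ hx => rw [Matrix.mul_smul, trace_smul, hx, smul_zero]
    have hz : N = 0 := by
      ext i j
      have := hall (Matrix.single j i 1)
      rwa [trace_fin_two, Matrix.mul_apply, Matrix.mul_apply, Fin.sum_univ_two, Fin.sum_univ_two,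
        show N 0 0 * Matrix.single j i (1 : K) 0 0 + N 0 1 * Matrix.single j i (1 : K) 1 0 +
          (N 1 0 * Matrix.single j i (1 : K) 0 1 + N 1 1 * Matrix.single j i (1 : K) 1 1) = N i j by
          fin_cases i <;> fin_cases j <;> simp [Matrix.single]] at this
    exact sub_eq_zero.1 hz
  -- `ρ g₀` is central
  have hcomm : ∀ g, ρ g₀ * ρ g = ρ g * ρ g₀ := fun g => by
    have hc'' : σ g₀ * σ g = σ g * σ g₀ := LinearMap.ext fun v => by
      rw [Module.End.mul_apply, Module.End.mul_apply, hc, hc, map_smul]
    have : σ (g₀ * g * (g * g₀)⁻¹) = 1 := by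
      rw [map_mul, map_mul, hc'', ← map_mul, ← map_mul, mul_inv_cancel, map_one]
    have h := htriv _ this
    calc ρ g₀ * ρ g = ρ (g₀ * g * (g * g₀)⁻¹) * ρ (g * g₀) := by
          rw [← map_mul, ← map_mul, inv_mul_cancel_right]
      _ = ρ g * ρ g₀ := by rw [h, one_mul, map_mul]
  have hall : ∀ X, ρ g₀ * X = X * ρ g₀ := fun X => by
    have hX : X ∈ Submodule.span K (Set.range ρ) := hspan ▸ Submodule.mem_top
    induction hX using Submodule.span_induction with
    | mem _ hy => obtain ⟨g, rfl⟩ := hy; exact hcomm g
    | zero => simp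
    | add x y _ _ hx hy => rw [mul_add, add_mul, hx, hy]
    | smul a x _ hx => rw [Matrix.mul_smul, smul_mul, hx]
  have e1 := hall !![0, 1; 0, 0]
  have e2 := hall !![0, 0; 1, 0]
  have f1 := congrFun (congrFun e1 0) 1
  have f2 := congrFun (congrFun e1 1) 1
  have f3 := congrFun (congrFun e2 0) 0
  simp [Matrix.mul_apply] at f1 f2 f3
  have hs := scalar_eq hc
  rw [trace_fin_two, det_fin_two, f2, f3] at hs
  rw [← f1] at hs
  have hca : c = ρ g₀ 0 0 := by
    refine sub_eq_zero.1 (eq_zero_of_pow_eq_zero (n := 2) ?_)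
    linear_combination hs
  ext i j
  fin_cases i <;> fin_cases j <;> simp [f2, f3, hca, ← f1]

/-- A nonzero stable submodule through which the action factors by `ρ`. -/
theorem exists_factor_submodule {p : ℕ} [hp : Fact p.Prime] [CharP K p] {W : Type*}
    [AddCommGroup W] [Module K W] [Finite W] [Nontrivial W] {σ : G →* Module.End K W}
    (hσ : KilledBy ρ σ) :
    ∃ V : Submodule K W, V ≠ ⊥ ∧ (∀ g, ∀ v ∈ V, σ g v ∈ V) ∧
      ∀ g, ρ g = 1 → ∀ v ∈ V, σ g v = v := by
  let act : G →* (Module.End K W)ˣ := σ.toHomUnits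
  let H : Subgroup (Module.End K W)ˣ := (ρ.toHomUnits.ker).map act
  have hpow : ∀ x ∈ H, x ^ p = 1 := by
    rintro x ⟨g, hg, rfl⟩
    have hg1 : ρ g = 1 := congrArg Units.val (MonoidHom.mem_ker.1 hg)
    have hsq : (σ g - 1) * (σ g - 1) = 0 := by
      refine LinearMap.ext fun w => ?_
      have h := hσ g w
      rw [hg1, trace_one, det_one, Fintype.card_fin, one_smul] at h
      norm_num at h
      rw [Module.End.mul_apply, LinearMap.sub_apply, LinearMap.sub_apply, map_sub,
        Module.End.one_apply, Module.End.one_apply, LinearMap.zero_apply, ← h, two_smul]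
      abel
    refine Units.ext ?_
    show σ g ^ p = 1
    have : CharP (Module.End K W) p := charP_of_injective_algebraMap
      (algebraMap K (Module.End K W)).injective p
    have hn : (σ g - 1) ^ p = 0 := by
      rw [show p = 2 + (p - 2) by have := hp.out.two_le; omega, pow_add, pow_two, hsq, zero_mul]
    have := sub_pow_char_of_commute p (Commute.one_right (σ g))
    rw [hn, one_pow, eq_comm, sub_eq_zero] at this
    exact this
  have : Finite (Module.End K W) := Finite.of_injective (fun f => (f : W → W)) DFunLike.coe_injective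
  have hPG : IsPGroup p H := fun x => ⟨1, Subtype.ext (by simpa using hpow x x.2)⟩
  let V : Submodule K W :=
    { carrier := {w | ∀ x ∈ H, (x : Module.End K W) w = w}
      add_mem' := fun ha hb x hx => by rw [map_add, ha x hx, hb x hx]
      zero_mem' := fun x _ => map_zero _
      smul_mem' := fun a w hw x hx => by rw [map_smul, hw x hx] }
  refine ⟨V, ?_, fun g v hv x hx => ?_, fun g hg v hv =>
    hv (act g) ⟨g, MonoidHom.mem_ker.2 (Units.ext hg), rfl⟩⟩
  · intro hV
    let actW : MulAction H W :=
      { smul := fun x w => ((x : (Module.End K W)ˣ) : Module.End K W) w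
        one_smul := fun w => rfl
        mul_smul := fun x y w => rfl }
    have := hPG.card_modEq_card_fixedPoints W
    have hfix : MulAction.fixedPoints H W = {0} := by
      ext w
      refine ⟨fun h => ?_, fun h x => ?_⟩
      · have : w ∈ V := fun x hx => h ⟨x, hx⟩
        rwa [hV, Submodule.mem_bot] at this
      · rw [Set.mem_singleton_iff.1 h]
        exact map_zero ((x : (Module.End K W)ˣ) : Module.End K W)
    rw [hfix] at this
    simp only [Nat.card_coe_set_eq, Set.ncard_singleton] at this
    have hdvd : p ∣ Nat.card W := by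
      obtain ⟨w, hw⟩ := exists_ne (0 : W)
      have h1 : addOrderOf w = p := addOrderOf_eq_prime (by
        rw [← Nat.cast_smul_eq_nsmul K, CharP.cast_eq_zero, zero_smul]) hw
      exact h1 ▸ addOrderOf_dvd_natCard w
    have h0 : Nat.card W % p = 1 % p := this
    rw [Nat.mod_eq_zero_of_dvd hdvd, Nat.one_mod_eq_one.2 hp.out.ne_one] at h0
    exact zero_ne_one h0
  · obtain ⟨k, hk, rfl⟩ := hx
    have hk' : g⁻¹ * k * g ∈ ρ.toHomUnits.ker := by
      have := (MonoidHom.normal_ker ρ.toHomUnits).conj_mem k hk g⁻¹
      simpa using this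
    have h1 := hv (act (g⁻¹ * k * g)) ⟨_, hk', rfl⟩
    calc σ k (σ g v) = σ (k * g) v := by rw [map_mul, Module.End.mul_apply]
      _ = σ (g * (g⁻¹ * k * g)) v := by group
      _ = σ g v := by rw [map_mul, Module.End.mul_apply]; exact congrArg _ h1

end FLTAgent.LevelLower
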