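import Fermat.Agent.LevelLower.RatInst
import Fermat.Agent.LevelLower.RepLemma
import Fermat.Agent.LevelSq.Push
import Fermat.Agent.GalRep.Assembly
import Fermat.Agent.GalRep.Specializations
import Fermat.Agent.GalRep.Dense
import Fermat.Agent.PicTorsion.CurveFinite
import Fermat.Agent.PicTorsion.Torsion
import Mathlib.Algebra.Module.ZMod

/-!
# The eigen torsion classes at level `M q` under Galois and the exchange

The eigen classes in `J₀(M q)[p]` are killed by the characteristic polynomials of the residual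
representation, and the exchange commutes with Galois and with the good Hecke operators.
-/

set_option autoImplicit false
set_option linter.style.haveILetI false
set_option synthInstance.maxHeartbeats 200000

noncomputable section

open ModularCurve AlgebraicCurve SemilinearAut

namespace FLTAgent.LevelLower

open FLTAgent.FunctionField FLTAgent.Semistable

local notation "Qbar" => AlgebraicClosure ℚ
local notation "Γℚ" => AlgebraicClosure ℚ ≃ₐ[ℚ] AlgebraicClosure ℚ

theorem galoisFacts' (N : ℕ) [NeZero N] (p : ℕ) : GalRep.GaloisFacts N p :=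
  GalRep.galoisFacts GalRep.specializationsExist N p

/-- The eigen `p`-torsion classes for the eigenvalues `a` at the primes not dividing `S`. -/
def eigenSub (N : ℕ) [NeZero N] (p : ℕ) (a : ℕ → ℕ) (S : ℕ) : AddSubgroup (JZero N) where
  carrier := {x | p • x = 0 ∧ ∀ l : Nat.Primes, ¬ (l : ℕ) ∣ S →
    heckeOperatorBar N l x = a l • x}
  zero_mem' := ⟨nsmul_zero _, fun _ _ => (map_zero _).trans (nsmul_zero _).symm⟩
  add_mem' := fun {x y} ⟨hx, hx'⟩ ⟨hy, hy'⟩ =>
    ⟨(nsmul_add x y p).trans ((congrArg₂ (· + ·) hx hy).trans (add_zero 0)),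
      fun l hl => (map_add _ x y).trans
        ((congrArg₂ (· + ·) (hx' l hl) (hy' l hl)).trans (nsmul_add x y _).symm)⟩
  neg_mem' := fun {x} ⟨hx, hx'⟩ => ⟨(neg_nsmul x p).trans ((congrArg (- ·) hx).trans neg_zero),
    fun l hl => (map_neg _ x).trans ((congrArg (- ·) (hx' l hl)).trans (neg_nsmul x _).symm)⟩

/-- A subgroup factoring through `ρ` on which a scalar action is the scalar of `ρ`. -/
theorem exists_factor_scalar {p : ℕ} [Fact p.Prime] (hp2 : p ≠ 2) {G : Type*} [Group G]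
    {ρ : G →* Matrix (Fin 2) (Fin 2) (ZMod p)}
    (hspan : Submodule.span (ZMod p) (Set.range ρ) = ⊤) {W : Type*} [AddCommGroup W]
    [Module (ZMod p) W] [Finite W] [Nontrivial W] {σ : G →* Module.End (ZMod p) W}
    (hσ : KilledBy ρ σ) :
    ∃ V : AddSubgroup W, (∀ g, ρ g = 1 → ∀ v ∈ V, σ g v = v) ∧
      ∀ (g₀ : G) (c : ℤ), (∀ v ∈ V, σ g₀ v = c • v) → ρ g₀ = (c : ZMod p) • 1 := by
  obtain ⟨V, hV0, hVst, hVfac⟩ := exists_factor_submodule hσ
  refine ⟨V.toAddSubgroup, hVfac, fun g₀ c hc => ?_⟩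
  let σV : G →* Module.End (ZMod p) V :=
    { toFun := fun g => (σ g).restrict fun v hv => hVst g v hv
      map_one' := LinearMap.ext fun y => Subtype.ext (by
        show σ 1 (y : W) = y
        rw [map_one, Module.End.one_apply])
      map_mul' := fun g h => LinearMap.ext fun y => Subtype.ext (by
        show σ (g * h) (y : W) = σ g (σ h y)
        rw [map_mul, Module.End.mul_apply]) }
  haveI := Submodule.nontrivial_iff_ne_bot.2 hV0
  refine eq_scalar_of_killedBy hspan ?_ (σ := σV) (fun g y => Subtype.ext (hσ g y.1))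
    fun v => Subtype.ext ?_
  · intro h
    have h' : p ∣ 2 := (ZMod.natCast_eq_zero_iff 2 p).1 (by simpa using h)
    exact hp2 ((Nat.prime_dvd_prime_iff_eq Fact.out Nat.prime_two).1 h')
  · show σ g₀ (v : W) = (c : ZMod p) • (v : W)
    rw [Int.cast_smul_eq_zsmul]
    exact hc _ v.2

variable {N : ℕ} [NeZero N] {p : ℕ} [Fact p.Prime] {a : ℕ → ℕ} {S : ℕ}

instance finite_eigenSub : Finite (eigenSub N p a S) := by
  haveI : Finite (Pic0.torsion Qbar (modularFunctionFieldBar N) p) :=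
    Nat.finite_of_card_ne_zero (by
      have h := PicTorsion.natCard_pic0_torsion (K := Qbar) (F := modularFunctionFieldBar N) p 1
      rw [pow_one] at h
      rw [h]
      exact pow_ne_zero _ (Fact.out : p.Prime).ne_zero)
  exact Finite.of_injective (fun x : eigenSub N p a S =>
    (⟨(x : JZero N), Pic0.mem_torsion.2 (by rw [natCast_zsmul]; exact x.2.1)⟩ :
      Pic0.torsion Qbar (modularFunctionFieldBar N) p))
    fun x y h => Subtype.ext (congrArg Subtype.val h :)

omit [Fact p.Prime] in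
theorem smul_mem_eigenSub {x : JZero N} (hx : x ∈ eigenSub N p a S) (g : Γℚ) :
    g • x ∈ eigenSub N p a S := by
  refine ⟨by rw [← GalRep.smul_nsmul_jZero, hx.1, GalRep.smul_zero_jZero], fun l hl => ?_⟩
  rw [(galoisFacts' N p).smul_hecke, hx.2 l hl, GalRep.smul_nsmul_jZero]

omit [Fact p.Prime] in
/-- On `p`-torsion a good Hecke operator is `σ + l σ⁻¹`. -/
theorem hecke_eq_frobenius {l : ℕ} (hl : l.Prime) (hlN : ¬ l ∣ N * p)
    {A : ValuationSubring Qbar} (hA : A.LiesOverPrime l) {σ : Γℚ} (hσ : A.IsFrobeniusAt σ l)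
    {x : JZero N} (hx : p • x = 0) :
    heckeOperatorBar N ⟨l, hl⟩ x = σ • x + l • σ⁻¹ • x := by
  have h := (galoisFacts' N p).frobenius l hl hlN A hA σ hσ (σ⁻¹ • x)
    ⟨1, by rw [pow_one, ← GalRep.smul_nsmul_jZero, hx, GalRep.smul_zero_jZero]⟩
  rw [smul_inv_smul] at h
  rw [eq_comm, ← sub_eq_zero, ← h]
  abel

omit [Fact p.Prime] in
/-- An additive endomorphism commuting with Galois preserves the eigen classes. -/
theorem map_mem_eigenSub (hS : N * p ∣ S) (w : JZero N →+ JZero N)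
    (hw : ∀ (g : Γℚ) x, w (g • x) = g • w x) {x : JZero N} (hx : x ∈ eigenSub N p a S) :
    w x ∈ eigenSub N p a S := by
  have h1 : p • w x = 0 := by rw [← map_nsmul, hx.1, map_zero]
  refine ⟨h1, fun l hl => ?_⟩
  obtain ⟨A, σ, hA, hσ⟩ := Frobenius.exists_liesOverPrime_isFrobeniusAt l.2
  have e₁ := hecke_eq_frobenius (N := N) l.2 (fun h => hl (h.trans hS)) hA hσ h1
  have e₂ := hecke_eq_frobenius (N := N) l.2 (fun h => hl (h.trans hS)) hA hσ hx.1
  refine e₁.trans ?_
  rw [← hw, ← hw, ← map_nsmul, ← map_add, ← e₂]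
  exact (congrArg w (hx.2 l hl)).trans (map_nsmul w _ x)

omit [Fact p.Prime] in
/-- The pushforward of an eigen class is eigen. -/
theorem pushPic_mem_eigenSub {L : ℕ} [NeZero L] (d : ℕ) [NeZero d] (h : L * d ∣ N)
    (hS : N * p ∣ S) {x : JZero N} (hx : x ∈ eigenSub N p a S) :
    LevelSq.pushPic d h x ∈ eigenSub L p a S := by
  refine ⟨by rw [← map_nsmul, hx.1, map_zero], fun l hl => ?_⟩
  obtain ⟨A, σ, hA, hσ⟩ := Frobenius.exists_liesOverPrime_isFrobeniusAt l.2
  rw [← map_nsmul, ← hx.2 l hl]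
  exact (LevelSq.pushPic_hecke d h (galoisFacts' N p) (galoisFacts' L p) l.2
    (fun hd => hl (hd.trans hS)) hA hσ x ⟨1, by rw [pow_one]; exact hx.1⟩).symm

instance moduleEigenSub : Module (ZMod p) (eigenSub N p a S) :=
  AddCommGroup.zmodModule fun x => Subtype.ext (by rw [AddSubgroup.coe_nsmul]; exact x.2.1)

/-- The Galois action on the eigen classes. -/
def eigenRep : Γℚ →* Module.End (ZMod p) (eigenSub N p a S) where
  toFun g :=
    { toFun := fun x => ⟨g • (x : JZero N), smul_mem_eigenSub x.2 g⟩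
      map_add' := fun x y => Subtype.ext (smul_add g (x : JZero N) y)
      map_smul' := fun c x => by
        rw [RingHom.id_apply]
        refine Subtype.ext ?_
        obtain ⟨n, rfl⟩ := ZMod.natCast_zmod_surjective c
        show g • (((n : ZMod p) • x : eigenSub N p a S) : JZero N) = _
        rw [Nat.cast_smul_eq_nsmul, Nat.cast_smul_eq_nsmul, AddSubgroup.coe_nsmul,
          AddSubgroup.coe_nsmul]
        exact GalRep.smul_nsmul_jZero g n (x : JZero N) }
  map_one' := LinearMap.ext fun x => Subtype.ext (one_smul Γℚ (x : JZero N))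
  map_mul' g h := LinearMap.ext fun x => Subtype.ext (mul_smul g h (x : JZero N))

theorem coe_eigenRep (g : Γℚ) (x : eigenSub N p a S) :
    (eigenRep g x : JZero N) = g • (x : JZero N) := rfl

set_option maxHeartbeats 3200000 in
-- the classes live in a large quotient
/-- The eigen classes are killed by the characteristic polynomials of `ρ`. -/
theorem killedBy_eigenRep [NeZero S] (hS : N * p ∣ S) (ρ : Γℚ →* Matrix (Fin 2) (Fin 2) (ZMod p))
    (hker : ∃ L : IntermediateField ℚ Qbar, FiniteDimensional ℚ L ∧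
      ∀ σ : Γℚ, (∀ x ∈ L, σ x = x) → ρ σ = 1)
    (hfrob : ∀ l : ℕ, l.Prime → ¬ l ∣ S → ∀ A : ValuationSubring Qbar, A.LiesOverPrime l →
      ∀ σ : Γℚ, A.IsFrobeniusAt σ l → (ρ σ).trace = (a l : ZMod p) ∧ (ρ σ).det = (l : ZMod p)) :
    KilledBy ρ (eigenRep (N := N) (p := p) (a := a) (S := S)) := by
  classical
  haveI := Fintype.ofFinite (eigenSub N p a S)
  obtain ⟨L₁, hL₁, h₁⟩ := GalRep.exists_common_level (Finset.univ : Finset (eigenSub N p a S))
    (fun x σ => σ • (x : JZero N) = x) fun x _ => (galoisFacts' N p).finiteLevel x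
  obtain ⟨L₂, hL₂, h₂⟩ := hker
  intro g x
  obtain ⟨l, hl, hlS, A, hA, σ, hσ, hag⟩ :=
    GalRep.frobeniusDense (L₁ ⊔ L₂) inferInstance g S.divisors
  have hl' : ¬ l ∣ S := fun h => hlS (Nat.mem_divisors.2 ⟨h, NeZero.ne S⟩)
  obtain ⟨hfix, -⟩ := GalRep.fixing_of_agree hag
  have e : σ = g * (g⁻¹ * σ) := by group
  have hρ : ρ σ = ρ g := by
    rw [e, map_mul, h₂ _ fun z hz => hfix z ((le_sup_right : L₂ ≤ L₁ ⊔ L₂) hz), mul_one]
  have hact : ∀ y : eigenSub N p a S, eigenRep σ y = eigenRep g y := fun y => Subtype.ext (by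
    rw [coe_eigenRep, coe_eigenRep, e, mul_smul,
      h₁ _ (fun z hz => hfix z ((le_sup_left : L₁ ≤ L₁ ⊔ L₂) hz)) y (Finset.mem_univ y)])
  obtain ⟨ht, hd⟩ := hfrob l hl hl' A hA σ hσ
  rw [← hρ, ← hact, ← hact, ht, hd, Nat.cast_smul_eq_nsmul, Nat.cast_smul_eq_nsmul]
  refine Subtype.ext ?_
  rw [AddSubgroup.coe_add, AddSubgroupClass.coe_sub, AddSubgroup.coe_nsmul, AddSubgroup.coe_nsmul,
    coe_eigenRep, coe_eigenRep, ← (smul_mem_eigenSub x.2 σ).2 ⟨l, hl⟩ hl']
  exact (galoisFacts' N p).frobenius l hl (fun h => hl' (h.trans hS)) A hA σ hσ x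
    ⟨1, by rw [pow_one]; exact x.2.1⟩

section swap

variable {M q : ℕ} [NeZero M] [Fact q.Prime] (hqM : ¬ q ∣ M)

local instance instNeZeroLevelEigen : NeZero (M * q) :=
  ⟨Nat.mul_ne_zero (NeZero.ne M) (Fact.out : q.Prime).ne_zero⟩

/-- The exchange on divisor classes. -/
def swapPic : JZero (M * q) →+ JZero (M * q) :=
  DistribSMul.toAddMonoidHom (JZero (M * q)) (ofAlgAut (swapW M hqM))

theorem swapW_mul_galAct (σ : Γℚ) :
    ofAlgAut (swapW M hqM) * galAct (M * q) σ =
      galAct (M * q) σ * ofAlgAut (swapW M hqM) :=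
  Subtype.ext (Prod.ext (RingEquiv.ext fun f => swapW_galAct M hqM σ f)
    ((one_mul _).trans (mul_one _).symm))

theorem swapPic_smul (g : Γℚ) (x : JZero (M * q)) : swapPic hqM (g • x) = g • swapPic hqM x := by
  show ofAlgAut (swapW M hqM) • galAct (M * q) g • x =
    galAct (M * q) g • ofAlgAut (swapW M hqM) • x
  rw [← mul_smul, swapW_mul_galAct, mul_smul]

theorem swapPic_swapPic (x : JZero (M * q)) : swapPic hqM (swapPic hqM x) = x := by
  show ofAlgAut (swapW M hqM) • ofAlgAut (swapW M hqM) • x = x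
  rw [← mul_smul, ← map_mul,
    show swapW M hqM * swapW M hqM = 1 from
      AlgEquiv.ext fun f => swapW_swapW M hqM f, map_one, one_smul]

set_option maxHeartbeats 3200000 in
-- the classes live in a large quotient
/-- A nonzero stable group of eigen classes in one eigenspace of the exchange, factoring
through `ρ`, on which a scalar action is the scalar of `ρ`. -/
theorem exists_eigen_stable (hp2 : p ≠ 2) [NeZero S] (hS : M * q * p ∣ S)
    (ρ : Γℚ →* Matrix (Fin 2) (Fin 2) (ZMod p))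
    (hspan : Submodule.span (ZMod p) (Set.range ρ) = ⊤)
    (hker : ∃ L : IntermediateField ℚ Qbar, FiniteDimensional ℚ L ∧
      ∀ σ : Γℚ, (∀ x ∈ L, σ x = x) → ρ σ = 1)
    (hfrob : ∀ l : ℕ, l.Prime → ¬ l ∣ S → ∀ A : ValuationSubring Qbar, A.LiesOverPrime l →
      ∀ σ : Γℚ, A.IsFrobeniusAt σ l → (ρ σ).trace = (a l : ZMod p) ∧ (ρ σ).det = (l : ZMod p))
    (hx : ∃ x ∈ eigenSub (M * q) p a S, x ≠ 0) :
    ∃ ε : ℤ, (ε = 1 ∨ ε = -1) ∧ ∃ V : AddSubgroup (JZero (M * q)), V ≤ eigenSub (M * q) p a S ∧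
      (∀ x ∈ V, swapPic hqM x = ε • x) ∧
      (∀ g : Γℚ, ρ g = 1 → ∀ x ∈ V, g • x = x) ∧
      ∀ (g₀ : Γℚ) (c : ℤ), (∀ x ∈ V, g₀ • x = c • x) → ρ g₀ = (c : ZMod p) • 1 := by
  obtain ⟨x₀, hx₀, hx₀0⟩ := hx
  have hw : ∀ {y}, y ∈ eigenSub (M * q) p a S → swapPic hqM y ∈ eigenSub (M * q) p a S :=
    fun hy => map_mem_eigenSub hS (swapPic hqM) (swapPic_smul hqM) hy
  -- an eigenvector of the exchange
  obtain ⟨ε, hε, y₀, hy₀, hy₀0, hy₀w⟩ : ∃ ε : ℤ, (ε = 1 ∨ ε = -1) ∧
      ∃ y ∈ eigenSub (M * q) p a S, y ≠ 0 ∧ swapPic hqM y = ε • y := by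
    by_cases h : x₀ + swapPic hqM x₀ = 0
    · exact ⟨-1, Or.inr rfl, x₀, hx₀, hx₀0, by
        rw [neg_one_zsmul]; exact eq_neg_of_add_eq_zero_right h⟩
    · exact ⟨1, Or.inl rfl, _, add_mem hx₀ (hw hx₀), h, by
        rw [map_add, swapPic_swapPic, one_zsmul, add_comm]⟩
  let W : Submodule (ZMod p) (eigenSub (M * q) p a S) :=
    AddSubgroup.toZModSubmodule p
      ((swapPic hqM - ε • AddMonoidHom.id _).ker.addSubgroupOf (eigenSub (M * q) p a S))
  have hW : ∀ {y : eigenSub (M * q) p a S},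
      y ∈ W ↔ swapPic hqM (y : JZero (M * q)) = ε • (y : JZero (M * q)) := fun {y} => by
    show (swapPic hqM - ε • AddMonoidHom.id (JZero (M * q))) (y : JZero (M * q)) = 0 ↔ _
    exact sub_eq_zero
  have hstab : ∀ g : Γℚ, ∀ y ∈ W, eigenRep g y ∈ W := fun g y hy => by
    rw [hW] at hy ⊢
    rw [coe_eigenRep, swapPic_smul, hy]
    exact (map_zsmul (DistribSMul.toAddMonoidHom (JZero (M * q)) g) ε _)
  let σW : Γℚ →* Module.End (ZMod p) W :=
    { toFun := fun g => (eigenRep g).restrict (hstab g)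
      map_one' := LinearMap.ext fun y => Subtype.ext (Subtype.ext (one_smul Γℚ _))
      map_mul' := fun g h => LinearMap.ext fun y => Subtype.ext (Subtype.ext (mul_smul g h _)) }
  have hkill : KilledBy ρ σW := fun g y =>
    Subtype.ext (killedBy_eigenRep (N := M * q) hS ρ hker hfrob g y.1)
  haveI : Nontrivial W := ⟨⟨⟨⟨y₀, hy₀⟩, hW.2 hy₀w⟩, 0, fun h =>
    hy₀0 (congrArg (fun z : W => ((z : eigenSub (M * q) p a S) : JZero (M * q))) h)⟩⟩
  obtain ⟨V, hVfac, hVsc⟩ := exists_factor_scalar hp2 hspan hkill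
  refine ⟨ε, hε, (V.map W.subtype.toAddMonoidHom).map
    (eigenSub (M * q) p a S).subtype, ?_, ?_, ?_, fun g₀ c hc => hVsc g₀ c fun v hv => ?_⟩
  · rintro _ ⟨y, -, rfl⟩
    exact y.2
  · rintro _ ⟨_, ⟨z, -, rfl⟩, rfl⟩
    exact hW.1 z.2
  · rintro g hg _ ⟨_, ⟨z, hz, rfl⟩, rfl⟩
    exact congrArg (fun u : W => ((u : eigenSub (M * q) p a S) : JZero (M * q))) (hVfac g hg z hz)
  · refine Subtype.ext (Subtype.ext ?_)
    have h1 := hc _ ⟨_, ⟨v, hv, rfl⟩, rfl⟩
    show g₀ • ((v : eigenSub (M * q) p a S) : JZero (M * q)) = _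
    rw [Submodule.coe_smul_of_tower, AddSubgroup.coe_zsmul]
    exact h1

end swap

end FLTAgent.LevelLower
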