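import Fermat.Agent.LevelLower.MazurRat
import Fermat.Agent.LevelLower.MazurEigen
import Fermat.Agent.LevelLower.AuxMap
import Fermat.Agent.LevelLower.HeckeInst
import Fermat.Agent.LevelLower.Kill
import Fermat.Agent.Semistable.OneSide

/-!
# Eigen classes fixed by inertia and killed below are flat
-/

set_option autoImplicit false
set_option linter.style.haveILetI false
set_option linter.unusedSectionVars false
set_option synthInstance.maxHeartbeats 100000

noncomputable section

open ModularCurve AlgebraicCurve SemilinearAut IsLocalRing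

namespace FLTAgent.LevelLower

open FLTAgent.GoodRed FLTAgent.GoodRed.RedDatum FLTAgent.Semistable FLTAgent.FunctionField
  FLTAgent.Hecke

local notation "Qbar" => AlgebraicClosure ℚ
local notation "Γℚ" => AlgebraicClosure ℚ ≃ₐ[ℚ] AlgebraicClosure ℚ

/-- Shortcut: the constants inside the function fields. -/
local instance (priority := high) instAlgebraMFLLFlat {K : Type*} [Field K] [Algebra ℚ K] (N : ℕ) [NeZero N] :
    Algebra K (MF K N) :=
  SubalgebraClass.toAlgebra (MF K N)

/-- Shortcut: the constants inside the full function fields. -/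
local instance (priority := high) instAlgebraFullCLLFlat {K : Type*} [Field K] (N : ℕ) [NeZero N] :
    Algebra K (modularFunctionFieldFullC K N) :=
  SubalgebraClass.toAlgebra (modularFunctionFieldFullC K N)

theorem coe_degZero_nsmul' {K F : Type*} [Field K] [Field F] [Algebra K F]
    [HasPrincipalDivisors K F] (n : ℕ) (X : Divisor.degZero (K := K) (F := F)) :
    ((n • X : Divisor.degZero (K := K) (F := F)) : Divisor K F) = n • (X : Divisor K F) :=
  map_nsmul (Divisor.degZero (K := K) (F := F)).subtype n X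

/-- An eigen class is eigen on divisors up to a principal one. -/
theorem exists_heckeDiv_eigen {N : ℕ} [NeZero N] (l : Nat.Primes) (c : ℕ)
    (D : Divisor.degZero (K := Qbar) (F := modularFunctionFieldBar N))
    (h : heckeOperatorBar N l (Pic0.mk D) = c • Pic0.mk D) :
    haveI : NeZero (l : ℕ) := ⟨l.2.ne_zero⟩
    haveI := Hecke.hasPrincipalDivisors_level Qbar (N * (l : ℕ))
    ∃ e : modularFunctionFieldBar N, e ≠ 0 ∧
      heckeDiv N (l : ℕ) (D : Divisor Qbar (modularFunctionFieldBar N)) -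
        c • (D : Divisor Qbar (modularFunctionFieldBar N)) = divisorOf e := by
  haveI : NeZero (l : ℕ) := ⟨l.2.ne_zero⟩
  haveI := Hecke.hasPrincipalDivisors_level Qbar (N * (l : ℕ))
  have hα := Hecke.alphaBarIntegral_of_facts (Hecke.levelFacts Qbar) N (l : ℕ)
  have hβ := Hecke.betaBarIntegral_of_facts (Hecke.levelFacts Qbar) N (l : ℕ)
  have hdmem := Hecke.heckeDivBar_mem_degZero (Hecke.levelFacts Qbar) N (l : ℕ) hα hβ D
  have hop : heckeOperatorBar N l (Pic0.mk D) = Pic0.mk ⟨_, hdmem⟩ :=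
    Hecke.heckeOperatorAlong_mk (Hecke.levelFacts Qbar) N (l : ℕ) D hα hβ hdmem
  obtain ⟨e, he, hediv⟩ := (QuotientAddGroup.eq_iff_sub_mem).1
    ((hop.symm.trans h).trans (QuotientAddGroup.mk_nsmul _ D c).symm)
  refine ⟨e, he, Finsupp.ext fun v => ?_⟩
  rw [divisorOf_apply, ← hediv v, AddSubgroup.subtype_apply, AddSubgroupClass.coe_sub,
    coe_degZero_nsmul']
  rfl

variable {A : ValuationSubring (AlgebraicClosure ℚ)} {q : ℕ} [Fact q.Prime]
  {hA : A.LiesOverPrime q} [CharP (ResidueField A) q] [IsAlgClosed (ResidueField A)]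
  {M M' : ℕ} [NeZero M] [NeZero M'] {hqM : ¬ q ∣ M} {hqM' : ¬ q ∣ M'}
  [IsFunctionField (ResidueField A) (modularFunctionFieldFullC (ResidueField A) M)]
  [IsFunctionField (ResidueField A) (modularFunctionFieldFullC (ResidueField A) M')]

local instance instNeZeroQFlat : NeZero q := ⟨(Fact.out : q.Prime).ne_zero⟩
local instance instNeZeroLevelFlat : NeZero (M * q) :=
  ⟨Nat.mul_ne_zero (NeZero.ne M) (Fact.out : q.Prime).ne_zero⟩
local instance instNeZeroLevelFlat' : NeZero (M' * q) :=
  ⟨Nat.mul_ne_zero (NeZero.ne M') (Fact.out : q.Prime).ne_zero⟩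

local instance algAlphaFlat' : Algebra (MF Qbar M') (MF Qbar (M' * q)) :=
  algebraAlong (alphaMap Qbar M' q)

local instance towerAlphaFlat' : IsScalarTower Qbar (MF Qbar M') (MF Qbar (M' * q)) :=
  isScalarTower_along (alphaMap Qbar M' q)

local instance finiteAlphaFlat' : Module.Finite (MF Qbar M') (MF Qbar (M' * q)) :=
  finite_alongAlpha M'

variable {ι : Type*} [Fintype ι]
  (X : CrossData (x0Datum A hA M' hqM') (redInf A hA M' hqM') (redZero A hA M' hqM')
    (frobC (K := ResidueField A) q M') q ι)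

set_option maxHeartbeats 3200000 in
-- the statement mentions several large fields
include X in
/-- An eigen class fixed by inertia, absent below, has a flat representative. -/
theorem exists_flat_rep {p : ℕ} [Fact p.Prime] (hqp : q ≠ p) (h : M ∣ M')
    (hcop : ∃ b, Nat.Coprime p b ∧ dedekindPsi M' = b * dedekindPsi M)
    (hx : Set.range X.x = crossingSet A hA hqM') (hG : ∀ σ : Γℚ, galAct M' σ • X.G₁ = X.G₁)
    {a : ℕ → ℕ}
    (hne : ∃ l : ℕ, l.Prime ∧ ¬ l ∣ M * q * p ∧ (a l : ZMod p) ≠ (l : ZMod p) + 1)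
    (habs : ∀ y ∈ eigenSub M p a (M * q * p), y = 0)
    {x : JZero (M * q)} (hxe : x ∈ eigenSub (M * q) p a (M * q * p))
    (hfix : ∀ σ ∈ A.inertiaSubgroupIn ℚ, σ • x = x) :
    ∃ D : Divisor.degZero (K := Qbar) (F := MF Qbar (M * q)), Pic0.mk D = x ∧
      NodeSystem.IsFlat (D := redInf A hA M hqM) (D' := redZero A hA M hqM) p
        (D : Divisor Qbar (MF Qbar (M * q))) := by
  have hp : 0 < p := (Fact.out : p.Prime).pos
  obtain ⟨D, g, hD, hDfix, hgK, hg, hdiv⟩ := exists_fixed_torsion_rep A hp hxe.1 hfix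
  have hDdeg : Divisor.degree (D : Divisor Qbar (MF Qbar (M * q))) = 0 := Divisor.mem_degZero.1 D.2
  have h1 : M * 1 ∣ M * q := by rw [mul_one]; exact dvd_mul_right M q
  -- the image below vanishes
  have hpush : LevelSq.pushPic 1 h1 x = 0 :=
    habs _ (pushPic_mem_eigenSub 1 h1 (dvd_refl _) hxe)
  letI := algebraAlong (alphaMap Qbar M q)
  haveI := isScalarTower_along (alphaMap Qbar M q)
  haveI : Module.Finite (MF Qbar M) (MF Qbar (M * q)) := finite_alongAlpha M
  have hprin : (Divisor.pushforward (MF Qbar M) (D : Divisor Qbar (MF Qbar (M * q)))).IsPrincipal := by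
    rw [← hD, LevelSq.pushPic_mk] at hpush
    exact AddSubgroup.mem_addSubgroupOf.1 ((QuotientAddGroup.eq_zero_iff _).1 hpush)
  -- the operators
  let Λ := {l : Nat.Primes // ¬ (l : ℕ) ∣ M * q * p}
  have hlM : ∀ i : Λ, ¬ (i.1 : ℕ) ∣ M := fun i hd => i.2 ((hd.mul_right q).mul_right p)
  have hlq : ∀ i : Λ, (i.1 : ℕ) ≠ q := fun i hd =>
    i.2 (by rw [hd]; exact (dvd_mul_left q M).mul_right p)
  let H : Λ → HeckeOp (redInf A hA M hqM) (redZero A hA M hqM) (levelRat A hA M hqM).FK :=
    fun i =>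
      haveI : NeZero (i.1 : ℕ) := ⟨i.1.2.ne_zero⟩
      haveI := Hecke.hasPrincipalDivisors_level Qbar (M * q * (i.1 : ℕ))
      levelHecke A hA M hqM i.1 i.1.2 (hlM i) (hlq i)
  have heig : ∀ i : Λ, ∃ e, e ≠ 0 ∧ (H i).Tdiv (D : Divisor Qbar (MF Qbar (M * q))) -
      a i.1 • (D : Divisor Qbar (MF Qbar (M * q))) = divisorOf e := fun i =>
    exists_heckeDiv_eigen i.1 (a i.1) D (by rw [hD]; exact hxe.2 i.1 i.2)
  have hne' : ∃ i : Λ, IsCoprime (((H i).d : ℤ) - a i.1) p := by
    obtain ⟨l, hl, hlS, hla⟩ := hne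
    refine ⟨⟨⟨l, hl⟩, hlS⟩, ((Nat.prime_iff_prime_int.1 Fact.out).coprime_iff_not_dvd.2 ?_).symm⟩
    intro hd
    refine hla ?_
    have h0 := (ZMod.intCast_zmod_eq_zero_iff_dvd (((l + 1 : ℕ) : ℤ) - a l) p).2 hd
    push_cast at h0
    exact (sub_eq_zero.1 h0).symm
  -- divisibility through the auxiliary level
  letI := algebraAlong (upMap q h)
  letI := algebraAlong (upBar (ResidueField A) h)
  haveI := isScalarTower_along (upMap q h)
  haveI := isScalarTower_along (upBar (ResidueField A) h)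
  haveI : Module.Finite (MF Qbar (M * q)) (MF Qbar (M' * q)) :=
    finiteAlong_of_isFunctionField (upMap q h)
  haveI : Module.Finite (modularFunctionFieldFullC (ResidueField A) M)
      (modularFunctionFieldFullC (ResidueField A) M') :=
    finiteAlong_of_isFunctionField (upBar (ResidueField A) h)
  have hmap := auxLevelMap X h hx hG (hqM := hqM)
  obtain ⟨b, hb, hbeq⟩ := hcop
  have hdeg : Module.finrank (modularFunctionFieldFullC (ResidueField A) M)
      (modularFunctionFieldFullC (ResidueField A) M') = b := by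
    have e := finrankAlong_upBar (q := q) hA h hqM hqM'
    rw [hbeq, mul_comm b] at e
    exact Nat.eq_of_mul_eq_mul_left (Hecke.dedekindPsi_pos (NeZero.ne M)) e
  have hrank : IsRankOne A := Semistable.isRankOne_of_liesOverPrime hA Fact.out
  obtain ⟨hes, hes'⟩ := red_sepFun hA hqM
  haveI : CharP (modularFunctionFieldFullC (ResidueField A) M) q :=
    charP_of_injective_algebraMap
      (algebraMap (ResidueField A) (modularFunctionFieldFullC (ResidueField A) M)).injective q
  have hesK : sepFun M (q := q) ∈ (levelRat A hA M hqM).FK := by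
    intro σ _
    have hj : toRingAut (galAct M σ) (jMF Qbar M) = jMF Qbar M := arithmeticGalois_jMF M σ
    simp only [sepFun, map_div₀, map_sub, map_pow, galAct_alphaMap, galAct_betaMap, hj]
  obtain ⟨e, he, hflat⟩ := exists_flat (oneSide_alpha hA hqM) (exists_frobC_eq_pow q M)
    (levelRat A hA M hqM) hrank (esep := sepFun M) hesK hes hes' hp hDdeg hDfix hgK hg hdiv
    hprin H (fun i => a i.1) heig hne'
    (fun G Y u v w hGK hY hYfix hGdiv hu hv hu0 hv0 hw hp' =>
      hmap.dvd_ord hrank hp (hdeg.symm ▸ hb) hY hYfix hGdiv hu hv hu0 hv0 hw hp')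
    (fun u hu hdvd hpow => powConst_of_eigen hA hqM p hqp.symm (fun i : Λ => i.1) hlM
      (fun i => a i.1) (fun y hy hy' => habs y ⟨hy, fun l hl => hy' ⟨l, hl⟩⟩) hu hdvd hpow)
  refine ⟨⟨_, Divisor.mem_degZero.2 hflat.1⟩,
    (QuotientAddGroup.eq_iff_sub_mem.2 ?_).trans hD, hflat⟩
  refine AddSubgroup.mem_addSubgroupOf.2 ⟨e⁻¹, inv_ne_zero he, fun v => ?_⟩
  rw [AddSubgroup.coe_sub, sub_sub_cancel_left, Finsupp.neg_apply, divisorOf_apply, v.ord_inv]

end FLTAgent.LevelLower
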