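import Fermat.Agent.LevelLower.AuxInst
import Fermat.Agent.LevelLower.MazurFlat
import Fermat.Agent.LevelLower.Endgame.Main
import Fermat.Agent.Eisen.LevelPull

/-!
# Mazur's principle

A system occurring in `J₀(M q)[p]` and not in `J₀(M)[p]`, unramified at `q`, has Frobenius at `q`
acting by `± q`: its classes are flat, and Frobenius is `-q` times the exchange on flat classes.
-/

set_option autoImplicit false
set_option linter.style.haveILetI false
set_option linter.unusedSectionVars false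
set_option synthInstance.maxHeartbeats 100000

noncomputable section

open ModularCurve AlgebraicCurve SemilinearAut IsLocalRing

namespace FLTAgent.LevelLower

open FLTAgent.GoodRed FLTAgent.GoodRed.RedDatum FLTAgent.Semistable FLTAgent.FunctionField
  FLTAgent.Hecke

local notation "Qbar" => AlgebraicClosure ℚ
local notation "Γℚ" => AlgebraicClosure ℚ ≃ₐ[ℚ] AlgebraicClosure ℚ

/-- Shortcut: the constants inside the function fields. -/
local instance (priority := high) instAlgebraMFLLMazur {K : Type*} [Field K] [Algebra ℚ K] (N : ℕ) [NeZero N] :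
    Algebra K (MF K N) :=
  SubalgebraClass.toAlgebra (MF K N)

/-- Shortcut: the constants inside the full function fields. -/
local instance (priority := high) instAlgebraFullCLLMazur {K : Type*} [Field K] (N : ℕ) [NeZero N] :
    Algebra K (modularFunctionFieldFullC K N) :=
  SubalgebraClass.toAlgebra (modularFunctionFieldFullC K N)

theorem eq_zero_of_coprime_nsmul {G : Type*} [AddMonoid G] {y : G} {p d : ℕ}
    (hc : Nat.Coprime p d) (hp : p • y = 0) (hd : d • y = 0) : y = 0 := by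
  rw [← AddMonoid.addOrderOf_eq_one_iff]
  exact Nat.eq_one_of_dvd_coprimes hc (addOrderOf_dvd_of_nsmul_eq_zero hp)
    (addOrderOf_dvd_of_nsmul_eq_zero hd)

theorem nuThree_eq_zero_of_mod_three {N r : ℕ} (hr : r.Prime) (hr3 : r % 3 = 2) (hrN : r ∣ N) :
    nuThree N = 0 := by
  haveI := Fact.mk hr
  refine nuThree_eq_zero_of hrN fun y hy => ?_
  have hy0 : y ≠ 0 := fun h => by simp [h] at hy
  have hy3 : y ^ 3 = 1 := by linear_combination (y - 1) * hy
  have hy1 : y ≠ 1 := fun h => by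
    rw [h] at hy
    have h' : ((3 : ℕ) : ZMod r) = 0 := by push_cast; linear_combination hy
    rw [ZMod.natCast_eq_zero_iff, Nat.prime_dvd_prime_iff_eq hr Nat.prime_three] at h'
    omega
  have h1 : orderOf y ∣ r - 1 := ZMod.orderOf_dvd_card_sub_one hy0
  rw [orderOf_eq_prime hy3 hy1] at h1
  omega

variable {A : ValuationSubring (AlgebraicClosure ℚ)} {q : ℕ} [Fact q.Prime]
  {hA : A.LiesOverPrime q} [CharP (ResidueField A) q] [IsAlgClosed (ResidueField A)]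
  {M M' : ℕ} [NeZero M] [NeZero M'] {hqM : ¬ q ∣ M} {hqM' : ¬ q ∣ M'}
  [IsFunctionField (ResidueField A) (modularFunctionFieldFullC (ResidueField A) M)]
  [IsFunctionField (ResidueField A) (modularFunctionFieldFullC (ResidueField A) M')]

local instance instNeZeroQMazur : NeZero q := ⟨(Fact.out : q.Prime).ne_zero⟩
local instance instNeZeroLevelMazur : NeZero (M * q) :=
  ⟨Nat.mul_ne_zero (NeZero.ne M) (Fact.out : q.Prime).ne_zero⟩
local instance instNeZeroLevelMazur' : NeZero (M' * q) :=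
  ⟨Nat.mul_ne_zero (NeZero.ne M') (Fact.out : q.Prime).ne_zero⟩

local instance algAlphaMazur' : Algebra (MF Qbar M') (MF Qbar (M' * q)) :=
  algebraAlong (alphaMap Qbar M' q)

local instance towerAlphaMazur' : IsScalarTower Qbar (MF Qbar M') (MF Qbar (M' * q)) :=
  isScalarTower_along (alphaMap Qbar M' q)

local instance finiteAlphaMazur' : Module.Finite (MF Qbar M') (MF Qbar (M' * q)) :=
  finite_alongAlpha M'

variable {ι : Type*} [Fintype ι]
  (X : CrossData (x0Datum A hA M' hqM') (redInf A hA M' hqM') (redZero A hA M' hqM')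
    (frobC (K := ResidueField A) q M') q ι)

set_option maxHeartbeats 3200000 in
-- the statement mentions several large fields
include X in
/-- Frobenius is `-q` times the exchange on flat classes of level `M q`. -/
theorem frobenius_add_swap {p : ℕ} [Fact p.Prime] (hqp : q ≠ p) (h : M ∣ M')
    (hcop : ∃ b, Nat.Coprime p b ∧ dedekindPsi M' = b * dedekindPsi M)
    (hfr : X.frP = frPlace q M') (hx : Set.range X.x = crossingSet A hA hqM')
    (hG₁ : ∀ σ : Γℚ, galAct M' σ • X.G₁ = X.G₁) (hG₂ : ∀ σ : Γℚ, galAct M' σ • X.G₂ = X.G₂)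
    (hG : X.G₁ = zeroDivisor (K := Qbar) (jMF Qbar M')⁻¹) {φ : Γℚ} (hφ : A.IsFrobeniusAt φ q)
    {D : Divisor.degZero (K := Qbar) (F := MF Qbar (M * q))} (hDp : p • Pic0.mk D = 0)
    (hflat : NodeSystem.IsFlat (D := redInf A hA M hqM) (D' := redZero A hA M hqM) p
      (D : Divisor Qbar (MF Qbar (M * q)))) :
    φ • Pic0.mk D + q • swapPic hqM (Pic0.mk D) = 0 := by
  obtain ⟨W, T, hWw, hTs, hTperm, hTτ⟩ := exists_swap_frobenius X hfr hx hG₁ hG₂ hG hφ
  letI := algebraAlong (upMap q h)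
  letI := algebraAlong (upBar (ResidueField A) h)
  haveI := isScalarTower_along (upMap q h)
  haveI := isScalarTower_along (upBar (ResidueField A) h)
  haveI : Module.Finite (MF Qbar (M * q)) (MF Qbar (M' * q)) :=
    finiteAlong_of_isFunctionField (upMap q h)
  haveI : Module.Finite (modularFunctionFieldFullC (ResidueField A) M)
      (modularFunctionFieldFullC (ResidueField A) M') :=
    finiteAlong_of_isFunctionField (upBar (ResidueField A) h)
  have hmap := auxLevelMap X h hx hG₁ (hqM := hqM)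
  have hrank : IsRankOne A := Semistable.isRankOne_of_liesOverPrime hA Fact.out
  have hp0 : (p : ResidueField A) ≠ 0 := fun h0 => hqp
    ((Nat.prime_dvd_prime_iff_eq (Fact.out : q.Prime) Fact.out).1
      ((CharP.cast_eq_zero_iff (ResidueField A) q p).1 h0))
  obtain ⟨f, hf, hfdiv⟩ := W.smul_add_principal T hTperm hTτ hrank
    ⟨(q : Qbar), Nat.cast_ne_zero.2 (Fact.out : q.Prime).ne_zero, hA⟩ hp0
    (hmap.isFlat_pullback hflat)
  rw [hTs, hWw, pullback_smul_of_intertwines (galAct (M * q) φ) (galAct (M' * q) φ)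
      (upMap_galAct h φ),
    pullback_smul_of_intertwines (ofAlgAut (swapW M hqM)) (ofAlgAut (swapW M' hqM'))
      (fun u => (upMap_swapW h hqM hqM' u).symm), ← map_nsmul, ← map_add] at hfdiv
  set Z : Divisor.degZero (K := Qbar) (F := MF Qbar (M * q)) :=
    degZeroSMulHom (galAct (M * q) φ) D + q • degZeroSMulHom (ofAlgAut (swapW M hqM)) D with hZdef
  have hZ : Pic0.mk Z = φ • Pic0.mk D + q • swapPic hqM (Pic0.mk D) := by
    show _ = galAct (M * q) φ • Pic0.mk D + q • (ofAlgAut (swapW M hqM) • Pic0.mk D)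
    rw [SemilinearAut.pic0_smul_mk, SemilinearAut.pic0_smul_mk]
    exact (map_add (QuotientAddGroup.mk' _) _ _).trans
      (congrArg₂ (· + ·) rfl (map_nsmul (QuotientAddGroup.mk' _) _ _))
  have h1 : M * q * 1 ∣ M' * q := by rw [mul_one]; exact Nat.mul_dvd_mul_right h q
  have hpull : Eisen.pullPic 1 h1 (Pic0.mk Z) = 0 := by
    rw [Eisen.pullPic_mk]
    refine (QuotientAddGroup.eq_zero_iff _).2 (AddSubgroup.mem_addSubgroupOf.2
      ⟨f, hf, fun v => Eq.trans ?_ (divisorOf_apply f v)⟩)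
    rw [← hfdiv]
    have e : (Z : Divisor Qbar (MF Qbar (M * q))) = galAct (M * q) φ •
        (D : Divisor Qbar (MF Qbar (M * q))) + q • ofAlgAut (swapW M hqM) •
        (D : Divisor Qbar (MF Qbar (M * q))) := by
      rw [hZdef, AddSubgroup.coe_add, coe_degZero_nsmul', coe_degZeroSMulHom, coe_degZeroSMulHom]
    show Divisor.pullbackAlong (Hecke.degMap Qbar 1 h1) ((Hecke.levelFacts Qbar).integral 1 h1) (Z : Divisor Qbar (MF Qbar (M * q))) v = _
    rw [e]
    rfl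
  have hdeg := Eisen.pushPic_pullPic 1 h1 (Pic0.mk Z)
  rw [hpull, map_zero, eq_comm] at hdeg
  obtain ⟨b, hb, hbeq⟩ := hcop
  have hb' : finrankAlong Qbar (Hecke.degMap Qbar 1 h1) = b := by
    have e := Hecke.finrankAlong_degMap (Hecke.degreeFacts Qbar) h1
    rw [dedekindPsi_mul_prime_of_not_dvd (NeZero.ne M) Fact.out hqM,
      dedekindPsi_mul_prime_of_not_dvd (NeZero.ne M') Fact.out hqM', hbeq, mul_assoc] at e
    have e' := Nat.eq_of_mul_eq_mul_left (Nat.succ_pos q) e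
    rw [mul_comm b] at e'
    exact Nat.eq_of_mul_eq_mul_left (Hecke.dedekindPsi_pos (NeZero.ne M)) e'
  rw [hb', hZ] at hdeg
  refine eq_zero_of_coprime_nsmul hb ?_ hdeg
  rw [nsmul_add, ← GalRep.smul_nsmul_jZero, hDp, GalRep.smul_zero_jZero, ← mul_nsmul',
    mul_comm p q, mul_nsmul', ← map_nsmul, hDp, map_zero, nsmul_zero, add_zero]

set_option maxHeartbeats 1600000 in
-- the statement mentions several large fields
/-- Mazur's principle, given an auxiliary level without elliptic points of degree prime to `p`. -/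
theorem mazur_principle_of_aux {M q p : ℕ} [NeZero M] [Fact q.Prime] [Fact p.Prime] (hqp : q ≠ p)
    (hp2 : p ≠ 2) (hqM : ¬ q ∣ M) {M' : ℕ} [NeZero M'] (h : M ∣ M') (hqM' : ¬ q ∣ M')
    (c2 : nuTwo M' = 0) (c3 : nuThree M' = 0) (c4 : q = 2 → 3 ∣ M') (c5 : q = 3 → 2 ∣ M')
    (hcop : ∃ b, Nat.Coprime p b ∧ dedekindPsi M' = b * dedekindPsi M)
    (ρ : Γℚ →* Matrix (Fin 2) (Fin 2) (ZMod p))
    (hspan : Submodule.span (ZMod p) (Set.range ρ) = ⊤)
    (hker : ∃ L : IntermediateField ℚ Qbar, FiniteDimensional ℚ L ∧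
      ∀ σ : Γℚ, (∀ x ∈ L, σ x = x) → ρ σ = 1)
    (a : ℕ → ℕ)
    (hfrob : ∀ l : ℕ, l.Prime → ¬ l ∣ M * q * p →
      ∀ A : ValuationSubring Qbar, A.LiesOverPrime l → ∀ σ : Γℚ, A.IsFrobeniusAt σ l →
        (ρ σ).trace = (a l : ZMod p) ∧ (ρ σ).det = (l : ZMod p))
    (hunr : ∀ A : ValuationSubring Qbar, A.LiesOverPrime q →
      ∀ σ ∈ A.inertiaSubgroupIn ℚ, ρ σ = 1)
    (hne : ∃ l : ℕ, l.Prime ∧ ¬ l ∣ M * q * p ∧ (a l : ZMod p) ≠ (l : ZMod p) + 1)
    (hx : ∃ x : JZero (M * q), x ≠ 0 ∧ p • x = 0 ∧ ∀ (l : ℕ) (hl : l.Prime), ¬ l ∣ M * q * p →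
      heckeOperatorBar (M * q) ⟨l, hl⟩ x = a l • x)
    (habs : ∀ x : JZero M, p • x = 0 → (∀ (l : ℕ) (hl : l.Prime), ¬ l ∣ M * q * p →
      heckeOperatorBar M ⟨l, hl⟩ x = a l • x) → x = 0)
    (A : ValuationSubring Qbar) (hA : A.LiesOverPrime q) (σ : Γℚ) (hσ : A.IsFrobeniusAt σ q) :
    ∃ c : ZMod p, (c = (q : ZMod p) ∨ c = -(q : ZMod p)) ∧ ρ σ = c • 1 := by
  have hqP : q.Prime := Fact.out
  have hpP : p.Prime := Fact.out
  haveI : NeZero (M * q * p) :=
    ⟨mul_ne_zero (mul_ne_zero (NeZero.ne M) hqP.ne_zero) hpP.ne_zero⟩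
  haveI : IsAlgClosed (ResidueField A) := GoodRed.isAlgClosed_residue A
  haveI : CharP (ResidueField A) q := (CharP.charP_iff_prime_eq_zero hqP).2 (by
    rw [← map_natCast (residue A), IsLocalRing.residue_eq_zero_iff, ← ValuationSubring.coe_mem_nonunits_iff]
    exact hA)
  haveI := isFunctionField_fullC A hA M hqM
  haveI := isFunctionField_fullC A hA (M') hqM'
  have habs' : ∀ y ∈ eigenSub M p a (M * q * p), y = 0 := fun y hy =>
    habs y hy.1 fun l hl hlS => hy.2 ⟨l, hl⟩ hlS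
  have hx' : ∃ x ∈ eigenSub (M * q) p a (M * q * p), x ≠ 0 := by
    obtain ⟨x, hx0, hxp, hxe⟩ := hx
    exact ⟨x, ⟨hxp, fun l hl => hxe l l.2 hl⟩, hx0⟩
  obtain ⟨ε, hε, V, hVe, hVw, hVfac, hVsc⟩ :=
    exists_eigen_stable hqM hp2 dvd_rfl ρ hspan hker hfrob hx'
  obtain ⟨ι, _, X, hfr, hxX, hG₁, hG₂, hG⟩ := exists_x0CrossData' hA hqM' c2 c3
    (mul_psi_le_card_crossingSet hA hqM' c2 c3 c4 c5)
  have hrel : ∀ x ∈ V, σ • x = (-((q : ℤ) * ε)) • x := by
    intro x hxV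
    obtain ⟨D, hD, hflat⟩ := exists_flat_rep X hqp (h) hcop hxX hG₁ hne habs'
      (hqM := hqM) (hVe hxV) fun g hg => hVfac g (hunr A hA g hg) x hxV
    have h := frobenius_add_swap X hqp (h) hcop hfr hxX hG₁ hG₂ hG hσ
      (hqM := hqM) (by rw [hD]; exact (hVe hxV).1) hflat
    rw [hD, hVw x hxV] at h
    rw [eq_neg_of_add_eq_zero_left h, neg_zsmul, mul_zsmul, natCast_zsmul]
  refine ⟨((-((q : ℤ) * ε) : ℤ) : ZMod p), ?_, hVsc σ _ hrel⟩
  rcases hε with rfl | rfl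
  · exact Or.inr (by push_cast; ring)
  · exact Or.inl (by push_cast; ring)

omit [CharP (ResidueField A) q] [IsAlgClosed (ResidueField A)] in
/-- Mazur's principle. -/
theorem mazur_principle : Endgame.MazurPrinciple := by
  intro M q p _ _ _ hqp hp5 hqM _hM
  have hqP : q.Prime := Fact.out
  haveI : NeZero (auxFactor q) := ⟨auxFactor_ne_zero q⟩
  haveI : NeZero (M * auxFactor q) := ⟨mul_ne_zero (NeZero.ne M) (auxFactor_ne_zero q)⟩
  obtain ⟨c2, c3, c4, c5⟩ := aux_conditions M q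
  exact mazur_principle_of_aux hqp (by omega) hqM (dvd_mul_right M _)
    (fun hd => (hqP.dvd_mul.1 hd).elim hqM (not_dvd_auxFactor hqP)) c2 c3 c4 c5
    (coprime_psi_aux (NeZero.ne M) Fact.out hp5)

omit [CharP (ResidueField A) q] [IsAlgClosed (ResidueField A)] in
/-- At `p = 3`, a prime `r ≡ 2 (mod 3)` in the level leaves an auxiliary level `M` or `3 M`. -/
theorem exists_aux_three {M q r : ℕ} (hM : M ≠ 0) (hq : q.Prime) (hq3 : q ≠ 3) (hqM : ¬ q ∣ M)
    (hr : r.Prime) (hr3 : r % 3 = 2) (hrM : r ∣ M) :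
    ∃ M', M' ≠ 0 ∧ M ∣ M' ∧ ¬ q ∣ M' ∧ nuTwo M' = 0 ∧ nuThree M' = 0 ∧ 3 ∣ M' ∧
      ∃ b, Nat.Coprime 3 b ∧ dedekindPsi M' = b * dedekindPsi M := by
  have h3 : ∀ N, 3 ∣ N → nuTwo N = 0 := fun N h => nuTwo_eq_zero_of (d := 3) h (by decide)
  by_cases h : 3 ∣ M
  · exact ⟨M, hM, dvd_rfl, hqM, h3 M h, nuThree_eq_zero_of_mod_three hr hr3 hrM, h,
      1, Nat.coprime_one_right 3, (one_mul _).symm⟩
  · exact ⟨M * 3, mul_ne_zero hM three_ne_zero, dvd_mul_right M 3,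
      fun hd => (hq.dvd_mul.1 hd).elim hqM
        fun h' => hq3 ((Nat.prime_dvd_prime_iff_eq hq Nat.prime_three).1 h'),
      h3 _ (dvd_mul_left 3 M),
      nuThree_eq_zero_of_mod_three hr hr3 (hrM.mul_right 3), dvd_mul_left 3 M, 4,
      by norm_num, dedekindPsi_mul_prime_of_not_dvd hM Nat.prime_three h⟩

omit [CharP (ResidueField A) q] [IsAlgClosed (ResidueField A)] in
/-- Mazur's principle at `p = 3` for a level divisible by a prime `r ≡ 2 (mod 3)`. -/
theorem mazur_principle_three {M q r : ℕ} [NeZero M] [Fact q.Prime] [Fact (Nat.Prime 3)]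
    (hq3 : q ≠ 3) (hqM : ¬ q ∣ M) (hr : r.Prime) (hr3 : r % 3 = 2) (hrM : r ∣ M)
    (ρ : Γℚ →* Matrix (Fin 2) (Fin 2) (ZMod 3))
    (hspan : Submodule.span (ZMod 3) (Set.range ρ) = ⊤)
    (hker : ∃ L : IntermediateField ℚ Qbar, FiniteDimensional ℚ L ∧
      ∀ σ : Γℚ, (∀ x ∈ L, σ x = x) → ρ σ = 1)
    (a : ℕ → ℕ)
    (hfrob : ∀ l : ℕ, l.Prime → ¬ l ∣ M * q * 3 →
      ∀ A : ValuationSubring Qbar, A.LiesOverPrime l → ∀ σ : Γℚ, A.IsFrobeniusAt σ l →
        (ρ σ).trace = (a l : ZMod 3) ∧ (ρ σ).det = (l : ZMod 3))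
    (hunr : ∀ A : ValuationSubring Qbar, A.LiesOverPrime q →
      ∀ σ ∈ A.inertiaSubgroupIn ℚ, ρ σ = 1)
    (hne : ∃ l : ℕ, l.Prime ∧ ¬ l ∣ M * q * 3 ∧ (a l : ZMod 3) ≠ (l : ZMod 3) + 1)
    (hx : ∃ x : JZero (M * q), x ≠ 0 ∧ 3 • x = 0 ∧ ∀ (l : ℕ) (hl : l.Prime), ¬ l ∣ M * q * 3 →
      heckeOperatorBar (M * q) ⟨l, hl⟩ x = a l • x)
    (habs : ∀ x : JZero M, 3 • x = 0 → (∀ (l : ℕ) (hl : l.Prime), ¬ l ∣ M * q * 3 →
      heckeOperatorBar M ⟨l, hl⟩ x = a l • x) → x = 0) :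
    ∀ A : ValuationSubring Qbar, A.LiesOverPrime q → ∀ σ : Γℚ, A.IsFrobeniusAt σ q →
      ∃ c : ZMod 3, (c = (q : ZMod 3) ∨ c = -(q : ZMod 3)) ∧ ρ σ = c • 1 := by
  obtain ⟨M', h0, h, hqM', c2, c3, c4, hcop⟩ :=
    exists_aux_three (NeZero.ne M) Fact.out hq3 hqM hr hr3 hrM
  haveI : NeZero M' := ⟨h0⟩
  exact mazur_principle_of_aux hq3 (by norm_num) hqM h hqM' c2 c3 (fun _ => c4)
    (fun hq => absurd hq hq3) hcop ρ hspan hker a hfrob hunr hne hx habs

omit [CharP (ResidueField A) q] [IsAlgClosed (ResidueField A)] in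
/-- Mazur's principle at `p ≥ 5`, and at `p = 3` for a level with a prime `r ≡ 2 (mod 3)`. -/
theorem mazur_principle_or_three {M q p : ℕ} [NeZero M] [Fact q.Prime] [Fact p.Prime]
    (hqp : q ≠ p) (hp : 5 ≤ p ∨ (p = 3 ∧ ∃ r : ℕ, r.Prime ∧ r % 3 = 2 ∧ r ∣ M)) (hqM : ¬ q ∣ M)
    (hM : Squarefree M) (ρ : Γℚ →* Matrix (Fin 2) (Fin 2) (ZMod p))
    (hspan : Submodule.span (ZMod p) (Set.range ρ) = ⊤)
    (hker : ∃ L : IntermediateField ℚ Qbar, FiniteDimensional ℚ L ∧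
      ∀ σ : Γℚ, (∀ x ∈ L, σ x = x) → ρ σ = 1)
    (a : ℕ → ℕ)
    (hfrob : ∀ l : ℕ, l.Prime → ¬ l ∣ M * q * p →
      ∀ A : ValuationSubring Qbar, A.LiesOverPrime l → ∀ σ : Γℚ, A.IsFrobeniusAt σ l →
        (ρ σ).trace = (a l : ZMod p) ∧ (ρ σ).det = (l : ZMod p))
    (hunr : ∀ A : ValuationSubring Qbar, A.LiesOverPrime q →
      ∀ σ ∈ A.inertiaSubgroupIn ℚ, ρ σ = 1)
    (hne : ∃ l : ℕ, l.Prime ∧ ¬ l ∣ M * q * p ∧ (a l : ZMod p) ≠ (l : ZMod p) + 1)
    (hx : ∃ x : JZero (M * q), x ≠ 0 ∧ p • x = 0 ∧ ∀ (l : ℕ) (hl : l.Prime), ¬ l ∣ M * q * p →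
      heckeOperatorBar (M * q) ⟨l, hl⟩ x = a l • x)
    (habs : ∀ x : JZero M, p • x = 0 → (∀ (l : ℕ) (hl : l.Prime), ¬ l ∣ M * q * p →
      heckeOperatorBar M ⟨l, hl⟩ x = a l • x) → x = 0) :
    ∀ A : ValuationSubring Qbar, A.LiesOverPrime q → ∀ σ : Γℚ, A.IsFrobeniusAt σ q →
      ∃ c : ZMod p, (c = (q : ZMod p) ∨ c = -(q : ZMod p)) ∧ ρ σ = c • 1 := by
  rcases hp with hp | ⟨rfl, r, hr, hr3, hrM⟩
  · exact mazur_principle hqp hp hqM hM ρ hspan hker a hfrob hunr hne hx habs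
  · exact mazur_principle_three hqp hqM hr hr3 hrM ρ hspan hker a hfrob hunr hne hx habs

end FLTAgent.LevelLower
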