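import Fermat.Agent.LevelLower.RatInst
import Fermat.Agent.LevelSq.Rational
import Fermat.Agent.LevelLower.Flatten

/-!
# Rational functions of torsion classes fixed by inertia
-/

set_option autoImplicit false
set_option linter.style.haveILetI false
set_option synthInstance.maxHeartbeats 100000

noncomputable section

open ModularCurve AlgebraicCurve SemilinearAut

namespace FLTAgent.LevelLower

open FLTAgent.FunctionField FLTAgent.Semistable FLTAgent.GoodRed

local notation "Qbar" => AlgebraicClosure ℚ

variable (A : ValuationSubring (AlgebraicClosure ℚ)) {N : ℕ} [NeZero N]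

omit [NeZero N] in
theorem baseIncl_mem_ratFun (f : Hecke.MF (LevelSq.urField A) N) :
    LevelSq.baseIncl A N f ∈ ratFun A N := fun σ hσ => Subtype.ext <| by
  rw [coe_galAct, LevelSq.coe_baseIncl]
  refine HahnSeries.ext (funext fun k => ?_)
  rw [coeffMap_coeff, coeffMap_coeff]
  exact (IntermediateField.mem_fixedField_iff _ _).1
    ((f : LaurentSeries (LevelSq.urField A)).coeff k).2 σ hσ

/-- A torsion class fixed by inertia is given by a fixed divisor and a fixed function. -/
theorem exists_fixed_torsion_rep {m : ℕ} (hm : 0 < m) {x : JZero N} (hx : m • x = 0)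
    (hfix : ∀ σ ∈ A.inertiaSubgroupIn ℚ, σ • x = x) :
    ∃ (D : Divisor.degZero (K := Qbar) (F := modularFunctionFieldBar N))
      (g : modularFunctionFieldBar N), Pic0.mk D = x ∧
      (∀ σ : A.inertiaSubgroupIn ℚ, galAct N σ • (D : Divisor Qbar (modularFunctionFieldBar N)) = D) ∧
      g ∈ ratFun A N ∧ g ≠ 0 ∧
      divisorOf g = m • (D : Divisor Qbar (modularFunctionFieldBar N)) := by
  obtain ⟨f, D, hf, hD, hord, -⟩ := LevelSq.exists_ratFun A hx hfix
  set g := LevelSq.baseIncl A N f with hg
  have hg0 : g ≠ 0 := fun h => hf ((LevelSq.baseIncl A N).injective (h.trans (map_zero _).symm))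
  have hgK : g ∈ ratFun A N := baseIncl_mem_ratFun A f
  have hdiv : divisorOf g = m • (D : Divisor Qbar (modularFunctionFieldBar N)) :=
    Finsupp.ext fun v => by
      rw [divisorOf_apply, Finsupp.smul_apply, nsmul_eq_mul]
      exact (hord v).symm
  refine ⟨D, g, hD, fun σ => nsmul_cancel hm ?_, hgK, hg0, hdiv⟩
  rw [smul_comm m (galAct N (σ : Qbar ≃ₐ[ℚ] Qbar)), ← hdiv, ← divisorOf_toRingAut, hgK σ σ.2]

end FLTAgent.LevelLower
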