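import Fermat.Agent.Semistable.RatOrth
import Fermat.Agent.JTors.FieldDescent
import Mathlib.LinearAlgebra.FiniteDimensional.Lemmas

/-!
# Descent of finite dimensional spaces of series

A finite dimensional space of series stable under automorphisms of the coefficients is spanned by
fixed series; a fixed element of a bounded field is a quotient of two combinations, with fixed
coefficients, of Gauss integral series with independent reductions.
-/

set_option autoImplicit false
set_option linter.unusedSectionVars false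

noncomputable section

open ModularCurve

namespace FLTAgent.LevelLower

open FLTAgent.GoodRed FLTAgent.Semistable

section descent

variable {L Γ : Type*} [Field L] (σ : Γ → L →+* L)

theorem le_span_fixed {ι : Type*} [Fintype ι] (W : Submodule L (ι → L))
    (hW : ∀ γ, ∀ w ∈ W, (fun i => σ γ (w i)) ∈ W) :
    W ≤ Submodule.span L {w | w ∈ W ∧ ∀ γ i, σ γ (w i) = w i} := by
  classical
  let sp : (ι → L) → Finset ι := fun w => Finset.univ.filter fun i => w i ≠ 0
  intro w
  induction hn : (sp w).card using Nat.strong_induction_on generalizing w with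
  | _ n ih =>
    intro hw
    rcases eq_or_ne w 0 with rfl | hw0
    · exact zero_mem _
    -- a nonzero element of minimal support inside that of `w`
    let P : Finset (Finset ι) := (sp w).powerset.filter fun s =>
      ∃ u ∈ W, u ≠ 0 ∧ sp u = s
    have hP : P.Nonempty := ⟨sp w, Finset.mem_filter.2
      ⟨Finset.mem_powerset_self _, w, hw, hw0, rfl⟩⟩
    obtain ⟨s, hs, hmin⟩ := P.exists_min_image Finset.card hP
    obtain ⟨hsw, u₀, hu₀, hu0, rfl⟩ := Finset.mem_filter.1 hs
    obtain ⟨j, hj⟩ : ∃ j, u₀ j ≠ 0 := Function.ne_iff.1 hu0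
    set u := (u₀ j)⁻¹ • u₀ with hu
    have hsu : sp u = sp u₀ := by
      ext i; simp [sp, hu, hj]
    have huj : u j = 1 := by simp [hu, hj]
    have hfix : ∀ γ i, σ γ (u i) = u i := by
      intro γ
      by_contra hne
      push Not at hne
      obtain ⟨i, hi⟩ := hne
      set d : ι → L := (fun i => σ γ (u i)) - u with hd
      have hd0 : d ≠ 0 := fun h => hi (sub_eq_zero.1 (congrFun h i))
      have hdsub : sp d ⊆ (sp u₀).erase j := by
        intro m hm
        simp only [sp, Finset.mem_filter, Finset.mem_univ, true_and, hd, Pi.sub_apply] at hm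
        refine Finset.mem_erase.2 ⟨fun h => hm (by rw [h, huj, map_one, sub_self]), ?_⟩
        rw [← hsu]
        simp only [sp, Finset.mem_filter, Finset.mem_univ, true_and]
        exact fun h => hm (by rw [h, map_zero, sub_self])
      have hmem : sp d ∈ P := by
        refine Finset.mem_filter.2 ⟨Finset.mem_powerset.2 ?_, d, ?_, hd0, rfl⟩
        · exact (hdsub.trans (Finset.erase_subset _ _)).trans (Finset.mem_powerset.1 hsw)
        · exact sub_mem (hW γ u (W.smul_mem _ hu₀)) (W.smul_mem _ hu₀)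
      have h1 := hmin _ hmem
      have h2 : j ∈ sp u₀ := by simp [sp, hj]
      have h3 := Finset.card_le_card hdsub
      rw [Finset.card_erase_of_mem h2] at h3
      have := Finset.card_pos.2 ⟨j, h2⟩
      omega
    have humem : u ∈ Submodule.span L {w | w ∈ W ∧ ∀ γ i, σ γ (w i) = w i} :=
      Submodule.subset_span ⟨W.smul_mem _ hu₀, hfix⟩
    have hjw : j ∈ sp w := Finset.mem_powerset.1 hsw (by simp [sp, hj])
    have hlt : (sp (w - w j • u)).card < n := by
      rw [← hn]
      refine Finset.card_lt_card (Finset.ssubset_iff_of_subset ?_ |>.2 ⟨j, hjw, ?_⟩)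
      · intro m hm
        by_contra hmw
        have h1 : w m = 0 := by simpa [sp] using hmw
        have h2 : u m = 0 := by
          by_contra h
          exact hmw (Finset.mem_powerset.1 hsw (by rw [← hsu]; simp [sp, h]))
        simp [sp, h1, h2] at hm
      · simp [sp, huj]
    have h := ih _ hlt rfl (sub_mem hw (W.smul_mem _ (W.smul_mem _ hu₀)))
    rw [← sub_add_cancel w (w j • u)]
    exact add_mem h (Submodule.smul_mem _ _ humem)

/-- Coefficients at a finite set. -/
def coeffsAt (S : Finset ℤ) : LaurentSeries L →ₗ[L] (S → L) where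
  toFun x n := x.coeff n
  map_add' x y := by ext n; simp
  map_smul' c x := by ext n; simp

theorem exists_separating (W : Submodule L (LaurentSeries L)) [FiniteDimensional L W] :
    ∃ S : Finset ℤ, ∀ w ∈ W, coeffsAt S w = 0 → w = 0 := by
  classical
  let r : Finset ℤ → ℕ := fun S =>
    Module.finrank L (W ⊓ LinearMap.ker (coeffsAt (L := L) S) : Submodule L (LaurentSeries L))
  obtain ⟨S, hS⟩ : ∃ S, ∀ T, r S ≤ r T :=
    ⟨Function.argmin r, fun T => Function.argmin_le r T⟩
  refine ⟨S, fun w hw hw0 => ?_⟩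
  by_contra hne
  obtain ⟨n, hn⟩ : ∃ n, w.coeff n ≠ 0 := by
    by_contra h
    push Not at h
    exact hne (HahnSeries.ext (funext h))
  refine not_lt.2 (hS (insert n S)) (Submodule.finrank_lt_finrank_of_lt ?_)
  refine SetLike.lt_iff_le_and_exists.2 ⟨fun x hx => ⟨hx.1, ?_⟩, w,
    Submodule.mem_inf.2 ⟨hw, hw0⟩, fun h => ?_⟩
  · show coeffsAt S x = 0
    funext m
    exact congrFun (show coeffsAt (insert n S) x = 0 from hx.2)
      ⟨m, Finset.mem_insert_of_mem m.2⟩
  · exact hn (congrFun (show coeffsAt (insert n S) w = 0 from h.2)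
      ⟨n, Finset.mem_insert_self n S⟩)

/-- A stable finite dimensional space of series is spanned by fixed series. -/
theorem le_span_fixed_series (W : Submodule L (LaurentSeries L)) [FiniteDimensional L W]
    (hW : ∀ γ, ∀ w ∈ W, coeffMap (σ γ) w ∈ W) :
    W ≤ Submodule.span L {w | w ∈ W ∧ ∀ γ, coeffMap (σ γ) w = w} := by
  classical
  obtain ⟨S, hS⟩ := exists_separating W
  set V := W.map (coeffsAt S) with hV
  have hcoe : ∀ γ x, coeffsAt S (coeffMap (σ γ) x) = fun i => σ γ (coeffsAt S x i) :=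
    fun γ x => funext fun i => rfl
  have hVst : ∀ γ, ∀ v ∈ V, (fun i => σ γ (v i)) ∈ V := by
    rintro γ _ ⟨w, hw, rfl⟩
    exact ⟨_, hW γ w hw, hcoe γ w⟩
  intro w hw
  have hsp : V ≤ (Submodule.span L {w | w ∈ W ∧ ∀ γ, coeffMap (σ γ) w = w}).map (coeffsAt S) := by
    refine (le_span_fixed σ V hVst).trans (Submodule.span_le.2 ?_)
    rintro _ ⟨⟨u, hu, rfl⟩, hfix⟩
    refine ⟨u, Submodule.subset_span ⟨hu, fun γ => ?_⟩, rfl⟩
    refine sub_eq_zero.1 (hS _ (sub_mem (hW γ u hu) hu) ?_)
    rw [map_sub, hcoe, sub_eq_zero]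
    exact funext (hfix γ)
  obtain ⟨v, hv, hvw⟩ := hsp ⟨w, hw, rfl⟩
  have hvW : v ∈ W := (Submodule.span_le.2 fun x hx => hx.1) hv
  rwa [← sub_eq_zero.1 (hS _ (sub_mem hvW hw) (by rw [map_sub, hvw, sub_self]))]

end descent

local notation "Qbar" => AlgebraicClosure ℚ

variable {q : ℕ} [Fact q.Prime] {k : Type*} [Field k] [CharP k q]
  {A : ValuationSubring (AlgebraicClosure ℚ)} {π : A →+* k}
  {K₀ : IntermediateField ℚ (LaurentSeries ℚ)}

theorem linearIndependent_of_sRed {n : ℕ} {e : Fin n → LaurentSeries Qbar}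
    {eb : Fin n → LaurentSeries k} (he : ∀ i, SRed π (e i) (eb i))
    (hind : LinearIndependent k eb) : LinearIndependent Qbar e := by
  rw [Fintype.linearIndependent_iff]
  intro g hg
  by_contra hne
  push Not at hne
  obtain ⟨j, hj, hjA⟩ := exists_max_valuation A g fun h => by
    obtain ⟨i, hi⟩ := hne; exact hi (congrFun h i)
  have h1 : SRed π (∑ i, (g i / g j) • e i) (∑ i, π ⟨g i / g j, hjA i⟩ • eb i) :=
    SRed.sum _ fun i _ => (he i).smul ⟨_, hjA i⟩
  have h2 : ∑ i, (g i / g j) • e i = 0 := by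
    simp only [div_eq_inv_mul, mul_smul, ← Finset.smul_sum, hg, smul_zero]
  rw [h2] at h1
  have h3 := Fintype.linearIndependent_iff.1 hind _ (h1.unique sRed_zero) j
  rw [show (⟨g j / g j, hjA j⟩ : A) = 1 from Subtype.ext (div_self hj), map_one] at h3
  exact one_ne_zero h3

/-- A fixed element is a quotient of combinations with fixed coefficients. -/
theorem exists_fixed_frac (hA : A.LiesOverPrime q) (hK : ∀ x ∈ K₀, x ∈ Igusa.boundedField q)
    {Γ : Type*} (σ : Γ → Qbar →+* Qbar) {x : LaurentSeries Qbar}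
    (hx : x ∈ laurentBaseChange Qbar K₀) (hfix : ∀ γ, coeffMap (σ γ) x = x) :
    ∃ (n : ℕ) (e : Fin n → LaurentSeries Qbar) (eb : Fin n → LaurentSeries k) (a b : Fin n → Qbar),
      (∀ i, SRed π (e i) (eb i)) ∧ LinearIndependent k eb ∧
      (∀ γ i, σ γ (a i) = a i) ∧ (∀ γ i, σ γ (b i) = b i) ∧
      ∑ i, b i • e i ≠ 0 ∧ x * ∑ i, b i • e i = ∑ i, a i • e i := by
  classical
  obtain ⟨a₀, ha₀, b₀, hb₀, hb0, hab⟩ := JTors.exists_frac_rationalSpan K₀ hx
  obtain ⟨Ta, hTa, haT⟩ := Submodule.mem_span_finite_of_mem_span ha₀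
  obtain ⟨Tb, hTb, hbT⟩ := Submodule.mem_span_finite_of_mem_span hb₀
  obtain ⟨Ta', hTa', rfl⟩ := Finset.subset_set_image_iff.1 hTa
  obtain ⟨Tb', hTb', rfl⟩ := Finset.subset_set_image_iff.1 hTb
  obtain ⟨n, f, -, hind, hspan⟩ := exists_rat_frame q (k := k) (Ta' ∪ Tb') fun y hy => hK y
    ((Finset.mem_union.1 hy).elim (fun h => hTa' h) fun h => hTb' h)
  set e : Fin n → LaurentSeries Qbar := fun i => coeffEmb Qbar (f i : LaurentSeries ℚ)
  have hmem : ∀ T : Finset (LaurentSeries ℚ), T ⊆ Ta' ∪ Tb' → ∀ y ∈ Submodule.span Qbar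
      ((T.image (coeffEmb Qbar) : Finset _) : Set (LaurentSeries Qbar)),
      y ∈ Submodule.span Qbar (Set.range e) := fun T hT y hy => by
    refine Submodule.span_le.2 ?_ hy
    intro z hz
    obtain ⟨u, hu, rfl⟩ := Finset.mem_image.1 (Finset.mem_coe.1 hz)
    have h1 := coeffEmb_mem_span (hspan (Finset.mem_coe.2 (hT hu)))
    rwa [← Set.range_comp] at h1
  obtain ⟨α, hα⟩ := (Submodule.mem_span_range_iff_exists_fun Qbar).1
    (hmem Ta' Finset.subset_union_left a₀ haT)
  obtain ⟨β, hβ⟩ := (Submodule.mem_span_range_iff_exists_fun Qbar).1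
    (hmem Tb' Finset.subset_union_right b₀ hbT)
  let Φ : (Fin n ⊕ Fin n → Qbar) →ₗ[Qbar] LaurentSeries Qbar :=
    { toFun := fun w => x * ∑ i, w (Sum.inl i) • e i - ∑ i, w (Sum.inr i) • e i
      map_add' := fun v w => by
        simp only [Pi.add_apply, add_smul, Finset.sum_add_distrib, mul_add]; abel
      map_smul' := fun c w => by
        simp only [Pi.smul_apply, smul_eq_mul, mul_smul, ← Finset.smul_sum, RingHom.id_apply,
          smul_sub]
        simp only [smul_series]
        ring }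
  have hΦσ : ∀ γ w, Φ (fun i => σ γ (w i)) = coeffMap (σ γ) (Φ w) := fun γ w => by
    have he : ∀ i, coeffMap (σ γ) (e i) = e i := fun i => HahnSeries.ext (funext fun m =>
      show σ γ ((algebraMap ℚ Qbar) _) = _ from
        RingHom.congr_fun (RingHom.ext_rat ((σ γ).comp (algebraMap ℚ Qbar)) (algebraMap ℚ Qbar)) _)
    show _ = coeffMap (σ γ) (x * _ - _)
    simp only [map_sub, map_mul, map_sum, hfix, smul_series, coeffMap_algebraMap, he]
    simp [Φ, smul_series]
  have hstab : ∀ γ, ∀ w ∈ LinearMap.ker Φ, (fun i => σ γ (w i)) ∈ LinearMap.ker Φ := fun γ w hw => by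
    rw [LinearMap.mem_ker] at hw ⊢
    rw [hΦσ, hw, map_zero]
  have h0 : Sum.elim β α ∈ LinearMap.ker Φ := by
    show x * ∑ i, β i • e i - ∑ i, α i • e i = 0
    rw [hα, hβ, hab, sub_self]
  obtain ⟨w, ⟨hw, hwfix⟩, hwne⟩ : ∃ w, (w ∈ LinearMap.ker Φ ∧ ∀ γ i, σ γ (w i) = w i) ∧
      ∃ i, w (Sum.inl i) ≠ 0 := by
    by_contra hall
    push Not at hall
    have hle : LinearMap.ker Φ ≤
        LinearMap.ker (LinearMap.funLeft Qbar Qbar (Sum.inl : Fin n → Fin n ⊕ Fin n)) :=
      (le_span_fixed σ _ hstab).trans (Submodule.span_le.2 fun w hw =>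
        funext fun i => hall w hw i)
    refine hb0 ?_
    rw [← hβ]
    refine Finset.sum_eq_zero fun i _ => ?_
    rw [show β i = 0 from congrFun (hle h0) i, zero_smul]
  refine ⟨n, e, fun i => ratRed q k (f i), fun i => w (Sum.inr i), fun i => w (Sum.inl i),
    fun i => sRed_coeffEmb q hA (f i), hind, fun γ i => hwfix γ _, fun γ i => hwfix γ _, ?_,
    sub_eq_zero.1 hw⟩
  intro hz
  obtain ⟨i, hi⟩ := hwne
  exact hi (Fintype.linearIndependent_iff.1
    (linearIndependent_of_sRed (π := π) (fun i => sRed_coeffEmb q hA (f i)) hind) _ hz i)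

theorem exists_scale_comb {n : ℕ} {e : Fin n → LaurentSeries Qbar}
    {eb : Fin n → LaurentSeries k} (he : ∀ i, SRed π (e i) (eb i))
    (hind : LinearIndependent k eb) {K : Subfield Qbar} {a : Fin n → Qbar} (ha : ∀ i, a i ∈ K)
    (h0 : a ≠ 0) : ∃ d ∈ K, d ≠ 0 ∧ ∃ z, z ≠ 0 ∧ SRed π (d • ∑ i, a i • e i) z := by
  obtain ⟨j, hj, hjA⟩ := exists_max_valuation A a h0
  refine ⟨(a j)⁻¹, inv_mem (ha j), inv_ne_zero hj, ∑ i, π ⟨a i / a j, hjA i⟩ • eb i,
    fun h => ?_, ?_⟩
  · have h3 := Fintype.linearIndependent_iff.1 hind _ h j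
    rw [show (⟨a j / a j, hjA j⟩ : A) = 1 from Subtype.ext (div_self hj), map_one] at h3
    exact one_ne_zero h3
  · convert SRed.sum Finset.univ (fun i _ => (he i).smul ⟨a i / a j, hjA i⟩) using 1
    rw [Finset.smul_sum]
    exact Finset.sum_congr rfl fun i _ => by rw [smul_smul, ← div_eq_inv_mul]

/-- A fixed element can be scaled by a fixed constant to a nonzero reduction. -/
theorem exists_fixed_scale (hA : A.LiesOverPrime q) (hK : ∀ x ∈ K₀, x ∈ Igusa.boundedField q)
    {Γ : Type*} (σ : Γ → Qbar →+* Qbar) {K : Subfield Qbar}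
    (hKmem : ∀ a, (∀ γ, σ γ a = a) → a ∈ K) {x : LaurentSeries Qbar}
    (hx : x ∈ laurentBaseChange Qbar K₀) (hfix : ∀ γ, coeffMap (σ γ) x = x) (hx0 : x ≠ 0) :
    ∃ c ∈ K, c ≠ 0 ∧ ∃ z, z ≠ 0 ∧ SRed π (c • x) z := by
  obtain ⟨n, e, eb, a, b, he, hind, ha, hb, hb0, hab⟩ := exists_fixed_frac (π := π) hA hK σ hx hfix
  obtain ⟨d, hd, hd0, za, hza, hra⟩ := exists_scale_comb he hind (K := K) (a := a)
    (fun i => hKmem _ fun γ => ha γ i) fun h => by
      rw [h] at hab; simp [hb0, hx0] at hab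
  obtain ⟨d', hd', hd0', zb, hzb, hrb⟩ := exists_scale_comb he hind (K := K) (a := b)
    (fun i => hKmem _ fun γ => hb γ i) fun h => hb0 (by simp [h])
  refine ⟨d / d', div_mem hd hd', div_ne_zero hd0 hd0', za / zb, div_ne_zero hza hzb, ?_⟩
  convert hra.div hrb hzb using 1
  rw [← hab, smul_series, smul_series, smul_series, map_div₀]
  have := (map_ne_zero (algebraMap Qbar (LaurentSeries Qbar))).2 hd0'
  field_simp

end FLTAgent.LevelLower
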