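import Fermat.Agent.LevelLower.RatDescent
import Fermat.Agent.LevelLower.HeckeEquiv
import Fermat.Agent.LevelLower.Rational
import Fermat.Agent.Semistable.Galois
import Fermat.Agent.LevelSq.Setting
import Fermat.Agent.LevelSq.GaussSeries
import Fermat.Agent.GoodRed.X0Good

/-!
# The rational structure of level `M q` over the inertia field
-/

set_option autoImplicit false
set_option linter.style.haveILetI false
set_option linter.unusedSectionVars false
set_option synthInstance.maxHeartbeats 100000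

noncomputable section

open ModularCurve AlgebraicCurve SemilinearAut IsLocalRing

namespace FLTAgent.LevelLower

open FLTAgent.GoodRed FLTAgent.GoodRed.RedDatum FLTAgent.Semistable FLTAgent.Hecke
  FLTAgent.FunctionField

local notation "Qbar" => AlgebraicClosure ℚ
local notation "Γℚ" => AlgebraicClosure ℚ ≃ₐ[ℚ] AlgebraicClosure ℚ

/-- The action of `σ` on functions of level `N`. -/
abbrev galAct (N : ℕ) (σ : Γℚ) : SemilinearAut Qbar (modularFunctionFieldBar N) :=
  arithmeticGalois (modularFunctionFieldFull N) σ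

theorem coe_galAct {N : ℕ} (σ : Γℚ) (f : modularFunctionFieldBar N) :
    (toRingAut (galAct N σ) f : LaurentSeries Qbar) =
      coeffMap (σ : Qbar →+* Qbar) (f : LaurentSeries Qbar) := rfl

theorem galAct_degMap {N N' d : ℕ} [NeZero d] (h : N * d ∣ N') (σ : Γℚ) (u : MF Qbar N) :
    toRingAut (galAct N' σ) (degMap Qbar d h u) = degMap Qbar d h (toRingAut (galAct N σ) u) :=
  Subtype.ext (congrArg Subtype.val (intertwines_degMap (L := Qbar) d h σ u))

section swap

variable (M : ℕ) [NeZero M] {q : ℕ} [Fact q.Prime] (hqM : ¬ q ∣ M)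

local instance instNeZeroQRat : NeZero q := ⟨(Fact.out : q.Prime).ne_zero⟩
local instance instNeZeroLevelRat : NeZero (M * q) :=
  ⟨Nat.mul_ne_zero (NeZero.ne M) (NeZero.ne q)⟩

/-- A semilinear conjugate of an automorphism. -/
def conjHom {F : Type*} [Field F] [Algebra Qbar F] (w : F ≃ₐ[Qbar] F)
    (s : SemilinearAut Qbar F) : F →ₐ[Qbar] F :=
  { (((toRingAut s).symm.toRingHom).comp w.toRingEquiv.toRingHom).comp (toRingAut s).toRingHom with
    commutes' := fun c => by
      show (toRingAut s).symm (w (toRingAut s (algebraMap Qbar F c))) = algebraMap Qbar F c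
      rw [commutes, w.commutes, RingEquiv.symm_apply_eq, commutes] }

theorem galAct_alphaMap (σ : Γℚ) (u : MF Qbar M) :
    toRingAut (galAct (M * q) σ) (alphaMap Qbar M q u) =
      alphaMap Qbar M q (toRingAut (galAct M σ) u) :=
  galAct_degMap (d := 1) _ σ u

theorem galAct_betaMap (σ : Γℚ) (u : MF Qbar M) :
    toRingAut (galAct (M * q) σ) (betaMap Qbar M q u) =
      betaMap Qbar M q (toRingAut (galAct M σ) u) :=
  galAct_degMap (d := q) dvd_rfl σ u

include hqM in
/-- The swap commutes with the Galois action. -/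
theorem swapW_galAct (σ : Γℚ) (f : MF Qbar (M * q)) :
    swapW M hqM (toRingAut (galAct (M * q) σ) f) =
      toRingAut (galAct (M * q) σ) (swapW M hqM f) := by
  have h := DFunLike.congr_fun (algHom_ext_alpha_beta M (q := q)
    (φ := conjHom (swapW M hqM) (galAct (M * q) σ)) (ψ := (swapW M hqM).toAlgHom)
    (fun u => ?_) (fun u => ?_)) f
  · exact (RingEquiv.symm_apply_eq (toRingAut (galAct (M * q) σ))).1 h
  · refine (RingEquiv.symm_apply_eq (toRingAut (galAct (M * q) σ))).2 ?_
    show swapW M hqM (toRingAut (galAct (M * q) σ) (alphaMap Qbar M q u)) =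
      toRingAut (galAct (M * q) σ) (swapW M hqM (alphaMap Qbar M q u))
    rw [galAct_alphaMap, swapW_alpha, swapW_alpha, galAct_betaMap]
  · refine (RingEquiv.symm_apply_eq (toRingAut (galAct (M * q) σ))).2 ?_
    show swapW M hqM (toRingAut (galAct (M * q) σ) (betaMap Qbar M q u)) =
      toRingAut (galAct (M * q) σ) (swapW M hqM (betaMap Qbar M q u))
    rw [galAct_betaMap, swapW_beta, swapW_beta, galAct_alphaMap]

end swap

section rat

variable (A : ValuationSubring (AlgebraicClosure ℚ)) (N : ℕ)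

/-- The functions fixed by inertia. -/
def ratFun : Subfield (modularFunctionFieldBar N) where
  carrier := {f | ∀ σ ∈ A.inertiaSubgroupIn ℚ, toRingAut (galAct N σ) f = f}
  one_mem' := fun σ _ => map_one _
  zero_mem' := fun σ _ => map_zero _
  add_mem' := fun hf hg σ hσ => by rw [map_add, hf σ hσ, hg σ hσ]
  mul_mem' := fun hf hg σ hσ => by rw [map_mul, hf σ hσ, hg σ hσ]
  neg_mem' := fun hf σ hσ => by rw [map_neg, hf σ hσ]
  inv_mem' := fun f hf σ hσ => by rw [map_inv₀, hf σ hσ]

variable {A N}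

theorem algebraMap_mem_ratFun {a : Qbar} (ha : a ∈ (LevelSq.urField A).toSubfield) :
    algebraMap Qbar (modularFunctionFieldBar N) a ∈ ratFun A N := fun σ hσ => by
  rw [commutes]
  exact congrArg _ ((IntermediateField.mem_fixedField_iff _ _).1 ha σ hσ)

theorem mem_urField_of_fix {a : Qbar}
    (h : ∀ σ : A.inertiaSubgroupIn ℚ, ((σ : Γℚ) : Qbar →+* Qbar) a = a) :
    a ∈ (LevelSq.urField A).toSubfield :=
  (IntermediateField.mem_fixedField_iff _ _).2 fun σ hσ => h ⟨σ, hσ⟩

theorem heckeFun_mem_ratFun {l : ℕ} [NeZero N] [NeZero l] {f : modularFunctionFieldBar N}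
    (hf : f ∈ ratFun A N) : heckeFun N l f ∈ ratFun A N := fun σ hσ => by
  rw [← heckeFun_galois, hf σ hσ]

theorem span_ratFun [NeZero N] (X : Divisor Qbar (modularFunctionFieldBar N))
    (hX : ∀ σ : A.inertiaSubgroupIn ℚ, galAct N σ • X = X) :
    riemannRochSpace X ≤ Submodule.span Qbar
      ((riemannRochSpace X : Set (modularFunctionFieldBar N)) ∩ ratFun A N) := by
  let v : modularFunctionFieldBar N →ₗ[Qbar] LaurentSeries Qbar :=
    { toFun := fun u => (u : LaurentSeries Qbar)
      map_add' := fun _ _ => rfl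
      map_smul' := fun c u => by
        rw [RingHom.id_apply, coe_smul_eq, smul_series] }
  have hv : Function.Injective v := Subtype.val_injective
  intro f hf
  have hstab : ∀ (σ : A.inertiaSubgroupIn ℚ), ∀ w ∈ (riemannRochSpace X).map v,
      coeffMap ((σ : Γℚ) : Qbar →+* Qbar) w ∈ (riemannRochSpace X).map v := by
    rintro σ _ ⟨u, hu, rfl⟩
    refine ⟨toRingAut (galAct N σ) u, ?_, rfl⟩
    have h := toRingAut_mem_rr (galAct N σ) hu
    rwa [hX σ] at h
  have h1 := le_span_fixed_series (fun σ : A.inertiaSubgroupIn ℚ => ((σ : Γℚ) : Qbar →+* Qbar))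
    ((riemannRochSpace X).map v) hstab ⟨f, hf, rfl⟩
  have h2 : Submodule.span Qbar {w | w ∈ (riemannRochSpace X).map v ∧
      ∀ σ : A.inertiaSubgroupIn ℚ, coeffMap ((σ : Γℚ) : Qbar →+* Qbar) w = w} ≤
      (Submodule.span Qbar
        ((riemannRochSpace X : Set (modularFunctionFieldBar N)) ∩ ratFun A N)).map v := by
    refine Submodule.span_le.2 ?_
    rintro _ ⟨⟨u, hu, rfl⟩, hfix⟩
    exact ⟨u, Submodule.subset_span ⟨hu, fun σ hσ => Subtype.ext (hfix ⟨σ, hσ⟩)⟩, rfl⟩
  obtain ⟨u, hu, hue⟩ := h2 h1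
  rwa [← hv hue]

variable {q : ℕ} [Fact q.Prime] (hA : A.LiesOverPrime q) [CharP (ResidueField A) q]

include hA in
theorem exists_series_scale [NeZero N] {f : modularFunctionFieldBar N} (hf : f ∈ ratFun A N)
    (hf0 : f ≠ 0) :
    ∃ c ∈ (LevelSq.urField A).toSubfield, c ≠ 0 ∧ ∃ z, z ≠ 0 ∧
      SRed (residue A) (c • (f : LaurentSeries Qbar)) z :=
  exists_fixed_scale (π := residue A) hA
    (fun _ hx => Igusa.modularFunctionFieldFull_le_boundedField q N hx)
    (fun σ : A.inertiaSubgroupIn ℚ => ((σ : Γℚ) : Qbar →+* Qbar))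
    (fun _ h => mem_urField_of_fix h) f.2
    (fun σ => congrArg Subtype.val (hf σ σ.2))
    fun h => hf0 (Subtype.ext h)

end rat

section level

variable (A : ValuationSubring (AlgebraicClosure ℚ)) {q : ℕ} [Fact q.Prime]
  (hA : A.LiesOverPrime q) [CharP (ResidueField A) q] [IsAlgClosed (ResidueField A)]
  (M : ℕ) [NeZero M] (hqM : ¬ q ∣ M)

local instance instNeZeroLevelRat2 : NeZero (M * q) :=
  ⟨Nat.mul_ne_zero (NeZero.ne M) (Fact.out : q.Prime).ne_zero⟩

theorem exists_redInf_scale {f : MF Qbar (M * q)} (hf : f ∈ ratFun A (M * q)) (hf0 : f ≠ 0) :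
    ∃ c ∈ (LevelSq.urField A).toSubfield, c ≠ 0 ∧ ∃ z, z ≠ 0 ∧
      (redInf A hA M hqM).Red (c • f) z := by
  obtain ⟨c, hcK, hc, w, hw, hr⟩ := exists_series_scale hA hf hf0
  obtain ⟨d, z, -, hz, hz'⟩ := (redInf A hA M hqM).exists_scale (f := f) hf0
  have h1 := (redInf_iff hA hqM).1 hz'
  rw [coe_smul_eq, ← smul_series, show d • (f : LaurentSeries Qbar) =
    (d / c) • c • (f : LaurentSeries Qbar) by rw [smul_smul, div_mul_cancel₀ _ hc]] at h1
  obtain ⟨t, ht⟩ := exists_smul_eq (isResidueMap_residue A) hr hw h1 fun h => hz (Subtype.ext h)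
  refine ⟨c, hcK, hc, algebraMap (ResidueField A) _ t * z, fun h => hw ?_, (redInf_iff hA hqM).2 ?_⟩
  · rw [← ht, smul_series]
    exact congrArg Subtype.val h
  · rw [coe_smul_eq, ← smul_series]
    rwa [← ht, smul_series t] at hr

theorem swapW_mem_ratFun {f : MF Qbar (M * q)} (hf : f ∈ ratFun A (M * q)) :
    swapW M hqM f ∈ ratFun A (M * q) := fun σ hσ => by
  rw [← swapW_galAct M hqM, hf σ hσ]

/-- The rational structure. -/
def levelRat : GalStr (redInf A hA M hqM) (redZero A hA M hqM) where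
  K := (LevelSq.urField A).toSubfield
  FK := ratFun A (M * q)
  algebraMap_mem _ ha := algebraMap_mem_ratFun ha
  scale _ hf hf0 := exists_redInf_scale A hA M hqM hf hf0
  scale' f hf hf0 := by
    obtain ⟨c, hcK, hc, z, hz, hr⟩ := exists_redInf_scale A hA M hqM
      (swapW_mem_ratFun A M hqM hf) ((map_ne_zero (swapW M hqM)).2 hf0)
    exact ⟨c, hcK, hc, z, hz, (redZero_iff hA hqM).2 (by
      rwa [Algebra.smul_def, map_mul, AlgEquiv.commutes, ← Algebra.smul_def])⟩
  ϖ := q
  ϖ_mem := natCast_mem _ q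
  ϖ_ne := Nat.cast_ne_zero.2 (Fact.out : q.Prime).ne_zero
  ϖ_nonunit := hA
  gap a ha han := by
    obtain ⟨b, hb⟩ := (LevelSq.urRes_eq_zero hA
      (a := (⟨⟨a, ha⟩, A.nonunits_subset han⟩ : LevelSq.urRing A))).1 (by
      rw [LevelSq.urRes_apply, (isResidueMap_residue A).eq_zero_iff]
      exact han)
    have h := congrArg (fun x : LevelSq.urRing A => ((x : LevelSq.urField A) : Qbar)) hb
    simp only [MulMemClass.coe_mul] at h
    have hq : (q : Qbar) ≠ 0 := Nat.cast_ne_zero.2 (Fact.out : q.Prime).ne_zero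
    have he : a / (q : Qbar) = ((b : LevelSq.urField A) : Qbar) := by
      rw [div_eq_iff hq, mul_comm]
      simpa using h
    rw [he]
    exact b.2
  lift t := by
    obtain ⟨r, hr⟩ := LevelSq.urRes_surjective hA t
    exact ⟨LevelSq.urIncl A r, (r : LevelSq.urField A).2, hr⟩
  Γ := A.inertiaSubgroupIn ℚ
  act σ := galAct (M * q) σ
  fix_FK σ _ hf := hf σ σ.2
  span_rat X hX := span_ratFun X hX

end level

end FLTAgent.LevelLower
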